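import Fermat.Agent.Mazur.Eis.Kummer

/-!
# Extensions of constant or multiplicative modules by constants

An extension by `ξ` of a simple submodule of type `ℤ/l` or `μ_l` inside a finite flat group over
`ℤ_(l)`, unramified outside `l` and split by a complex conjugation, is split.
-/

set_option autoImplicit false

noncomputable section

open scoped Pointwise

namespace FLTAgent.Mazur.Eis

open FLTAgent.FlatHopf

local notation "Qb" => AlgebraicClosure ℚ
local notation "Γℚ" => (AlgebraicClosure ℚ ≃ₐ[ℚ] AlgebraicClosure ℚ)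

variable {l : ℕ}

/-- The norm of `1 - ζ` is `l`. -/
theorem valuation_sub_one_pow (hl : l.Prime) (A : ValuationSubring Qb) {ζ : Qb}
    (hζ : IsPrimitiveRoot ζ l) :
    A.valuation (ζ - 1) ^ (l - 1) = A.valuation (l : Qb) := by
  have : Fact l.Prime := ⟨hl⟩
  have hle : ∀ {x : Qb}, IsPrimitiveRoot x l → ∀ i : ℕ,
      A.valuation (x ^ i - 1) ≤ A.valuation (x - 1) := by
    intro x hx i
    rw [← geom_sum_mul x i, map_mul]
    refine mul_le_of_le_one_left zero_le (A.valuation.map_sum_le fun k _ => ?_)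
    have h1 : A.valuation x ^ l = 1 := by rw [← map_pow, hx.pow_eq_one, map_one]
    rw [map_pow, (pow_eq_one_iff_of_nonneg zero_le hl.ne_zero).1 h1, one_pow]
  have heq : ∀ μ ∈ primitiveRoots l Qb, A.valuation (1 - μ) = A.valuation (ζ - 1) := by
    intro μ hμ
    have hμ' : IsPrimitiveRoot μ l := (mem_primitiveRoots hl.pos).1 hμ
    obtain ⟨i, -, hi⟩ := hζ.eq_pow_of_pow_eq_one hμ'.pow_eq_one
    obtain ⟨k, -, hk⟩ := hμ'.eq_pow_of_pow_eq_one hζ.pow_eq_one
    rw [Valuation.map_sub_swap]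
    exact le_antisymm (hi ▸ hle hζ i) (hk ▸ hle hμ' k)
  have h1 := Polynomial.eval_one_cyclotomic_prime (R := Qb) (p := l)
  rw [Polynomial.cyclotomic_eq_prod_X_sub_primitiveRoots hζ, Polynomial.eval_prod] at h1
  rw [← h1, map_prod, Finset.prod_congr rfl fun μ hμ => ?_, Finset.prod_const,
    hζ.card_primitiveRoots, Nat.totient_prime hl]
  simpa using heq μ hμ

/-- Valuations of the coefficients in the basis of powers of an `l`-th root of `l`. -/
theorem valuation_sub_lt_of_root (hl : l.Prime) {A : ValuationSubring Qb}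
    (hA : A.LiesOverPrime l) {π ζ : Qb} (hπ : π ^ l = (l : Qb)) (hζ : IsPrimitiveRoot ζ l)
    {σ : Γℚ} (hσπ : σ π = ζ * π) {a : Qb} (haA : a ∈ A)
    (ha : ∀ τ : Γℚ, τ π = π → τ a = a) :
    A.valuation (σ a - a) ^ (l - 1) < A.valuation (l : Qb) := by
  classical
  have hvlt := valuation_prime_lt_one hA
  have hvpos : 0 < A.valuation (l : Qb) := pos_of_ne_zero (valuation_prime_ne_zero hl)
  have hvπ : A.valuation π ^ l = A.valuation (l : Qb) := by rw [← map_pow, hπ]
  have hπ1 : A.valuation π < 1 := by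
    by_contra h
    exact absurd (hvπ ▸ one_le_pow₀ (not_lt.1 h) : 1 ≤ A.valuation (l : Qb)) (not_le.2 hvlt)
  -- `a` is a polynomial in `π`
  have := GalCommon.isGalois_Qbar
  have hamem : a ∈ IntermediateField.adjoin ℚ {π} := by
    rw [← InfiniteGalois.fixedField_fixingSubgroup (IntermediateField.adjoin ℚ {π})]
    rintro ⟨τ, hτ⟩
    exact ha τ ((IntermediateField.mem_fixingSubgroup_iff _ _).1 hτ π
      (IntermediateField.mem_adjoin_simple_self ℚ π))
  rw [← IntermediateField.mem_toSubalgebra,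
    IntermediateField.adjoin_simple_toSubalgebra_of_isAlgebraic
      (Algebra.IsAlgebraic.isAlgebraic π), Algebra.adjoin_singleton_eq_range_aeval] at hamem
  obtain ⟨P, hP⟩ := hamem
  set M : Polynomial ℚ := Polynomial.X ^ l - Polynomial.C (l : ℚ) with hM
  have hMmon : M.Monic := Polynomial.monic_X_pow_sub_C _ hl.ne_zero
  have hroot : Polynomial.aeval π M = 0 := by
    simp [hM, hπ]
  set Q := P %ₘ M with hQ
  have hQa : Polynomial.aeval π Q = a := by
    rw [hQ, Polynomial.modByMonic_eq_sub_mul_div, map_sub, map_mul, hroot, zero_mul, sub_zero]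
    exact hP
  have hQdeg : Q.natDegree < l := by
    refine lt_of_lt_of_eq (Polynomial.natDegree_modByMonic_lt P hMmon ?_)
      (Polynomial.natDegree_X_pow_sub_C)
    intro h
    have := congrArg Polynomial.natDegree h
    rw [hM, Polynomial.natDegree_X_pow_sub_C, Polynomial.natDegree_one] at this
    exact hl.ne_zero this
  set f : ℕ → Qb := fun i => algebraMap ℚ Qb (Q.coeff i) * π ^ i with hf
  have hsum : a = ∑ i ∈ Finset.range l, f i := by
    rw [← hQa, Polynomial.aeval_eq_sum_range' hQdeg]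
    exact Finset.sum_congr rfl fun i _ => Algebra.smul_def _ _
  have hval : ∀ i, Q.coeff i ≠ 0 → ∃ k : ℤ,
      A.valuation (algebraMap ℚ Qb (Q.coeff i)) = A.valuation (l : Qb) ^ k ∧
      A.valuation (f i) ^ l = A.valuation (l : Qb) ^ ((l : ℤ) * k + i) := by
    intro i hi
    obtain ⟨k, hk⟩ := exists_valuation_ratCast hl hA hi
    refine ⟨k, hk, ?_⟩
    rw [hf, map_mul, map_pow, hk, mul_pow, ← pow_mul, mul_comm i l, pow_mul, hvπ,
      zpow_add₀ hvpos.ne', zpow_natCast, mul_comm (l : ℤ) k, zpow_mul, zpow_natCast]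
  -- the largest term dominates
  have hdom : ∀ i ∈ Finset.range l, A.valuation (f i) ≤ A.valuation a := by
    obtain ⟨j, hj, hmax⟩ := Finset.exists_max_image (Finset.range l) (fun i => A.valuation (f i))
      ⟨0, Finset.mem_range.2 hl.pos⟩
    intro i hi
    refine (hmax i hi).trans (le_of_eq ?_)
    by_cases hj0 : A.valuation (f j) = 0
    · have : ∀ i ∈ Finset.range l, f i = 0 := fun i hi =>
        A.valuation.zero_iff.1 (le_antisymm (hj0 ▸ hmax i hi) zero_le)
      rw [hj0, hsum, Finset.sum_eq_zero this, map_zero]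
    rw [hsum]
    refine (Valuation.map_sum_eq_of_lt _ hj fun k hk => ?_).symm
    obtain ⟨hk, hkj⟩ : k ∈ Finset.range l ∧ k ≠ j := by simpa using hk
    refine (hmax k hk).lt_of_ne fun heq => hkj ?_
    have hcj : Q.coeff j ≠ 0 := fun h => hj0 (by simp [hf, h])
    have hck : Q.coeff k ≠ 0 := fun h => hj0 (by rw [← heq]; simp [hf, h])
    obtain ⟨kj, -, hvj⟩ := hval j hcj
    obtain ⟨kk, -, hvk⟩ := hval k hck
    rw [heq, hvj] at hvk
    have h1 := (zpow_right_inj₀ hvpos hvlt.ne).1 hvk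
    have h2 := congrArg (fun z : ℤ => z % (l : ℤ)) h1
    simp only [Int.mul_add_emod_self_left] at h2
    rw [Int.emod_eq_of_lt (by positivity) (by exact_mod_cast Finset.mem_range.1 hj),
      Int.emod_eq_of_lt (by positivity) (by exact_mod_cast Finset.mem_range.1 hk)] at h2
    exact_mod_cast h2.symm
  have hcoef : ∀ i ∈ Finset.range l, A.valuation (algebraMap ℚ Qb (Q.coeff i)) ≤ 1 := by
    intro i hi
    by_cases hc : Q.coeff i = 0
    · simp [hc]
    obtain ⟨k, hk, hkl⟩ := hval i hc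
    have h1 : A.valuation (f i) ^ l ≤ 1 :=
      pow_le_one₀ zero_le ((hdom i hi).trans ((A.valuation_le_one_iff _).2 haA))
    rw [hkl, ← zpow_zero (A.valuation (l : Qb)),
      zpow_le_zpow_iff_right_of_lt_one₀ hvpos hvlt] at h1
    have hil : (i : ℤ) < l := by exact_mod_cast Finset.mem_range.1 hi
    have hk0 : 0 ≤ k := by
      by_contra h
      have : (l : ℤ) * k ≤ (l : ℤ) * (-1) := mul_le_mul_of_nonneg_left (by omega) (by positivity)
      omega
    rw [hk]
    exact (zpow_le_zpow_right_of_le_one₀ hvpos hvlt.le hk0).trans_eq (zpow_zero _)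
  have hbound : A.valuation (σ a - a) ≤ A.valuation π * A.valuation (ζ - 1) := by
    rw [hsum, map_sum, ← Finset.sum_sub_distrib]
    refine A.valuation.map_sum_le fun i hi => ?_
    have e : σ (f i) - f i = algebraMap ℚ Qb (Q.coeff i) * (π ^ i * (ζ ^ i - 1)) := by
      rw [hf, map_mul, map_pow, σ.commutes, hσπ, mul_pow]; ring
    rw [e, map_mul]
    refine (mul_le_of_le_one_left zero_le (hcoef i hi)).trans ?_
    rw [map_mul]
    rcases Nat.eq_zero_or_pos i with rfl | hi0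
    · simp
    refine mul_le_mul' ?_ ?_
    · rw [map_pow]; exact pow_le_of_le_one zero_le hπ1.le (by omega)
    · rw [← geom_sum_mul ζ i, map_mul]
      refine mul_le_of_le_one_left zero_le (A.valuation.map_sum_le fun k _ => ?_)
      have h1 : A.valuation ζ ^ l = 1 := by rw [← map_pow, hζ.pow_eq_one, map_one]
      rw [map_pow, (pow_eq_one_iff_of_nonneg zero_le hl.ne_zero).1 h1, one_pow]
  calc A.valuation (σ a - a) ^ (l - 1)
      ≤ (A.valuation π * A.valuation (ζ - 1)) ^ (l - 1) := pow_le_pow_left₀ zero_le hbound _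
    _ = A.valuation π ^ (l - 1) * A.valuation (l : Qb) := by
        rw [mul_pow, valuation_sub_one_pow hl A hζ]
    _ < 1 * A.valuation (l : Qb) :=
        mul_lt_mul_of_pos_right (pow_lt_one₀ zero_le hπ1 (by have := hl.two_le; omega)) hvpos
    _ = _ := one_mul _

variable {G : Type} [AddCommGroup G] [Finite G] {act : Γℚ →* AddMonoid.End G}

theorem addOrderOf_eq_of_prime (hl : l.Prime) {w : G} (hw : w ≠ 0) (hlw : l • w = 0) :
    addOrderOf w = l := by
  have : Fact l.Prime := ⟨hl⟩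
  exact addOrderOf_eq_prime hlw hw

theorem fixed_of_cyclotomic (hl : l.Prime) (hflat : HasFlatModel l act) {ξ w : G} (hw : w ≠ 0)
    (hlw : l • w = 0) (hstab : ∀ σ, ∃ i : ℕ, act σ ξ = ξ + i • w) {ζ : Qb}
    (hζ : IsPrimitiveRoot ζ l) (hW : ∀ σ : Γℚ, ∀ k : ℕ, σ ζ = ζ ^ k → act σ w = k • w)
    (hI : ∀ q : ℕ, q.Prime → q ≠ l → ∀ A : ValuationSubring Qb, A.LiesOverPrime q →
      ∀ σ ∈ A.inertiaSubgroupIn ℚ, act σ ξ = ξ)
    (ι : Qb →+* ℂ) (cc : Γℚ) (hcc : ∀ x, ι (cc x) = starRingEnd ℂ (ι x))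
    (hξcc : act cc ξ = ξ) (σ : Γℚ) : act σ ξ = ξ := by
  have : NeZero l := ⟨hl.ne_zero⟩
  obtain ⟨H, hH⟩ := hasFlatModel_iff_hasOrder.1 hflat
  choose c hc using hstab
  set e : Γℚ → Qb := fun σ => ζ ^ c σ with he
  have hiff : ∀ {i j : ℕ}, ζ ^ i = ζ ^ j ↔ i • w = j • w := fun {i j} => by
    rw [(hζ.isOfFinOrder hl.ne_zero).pow_eq_pow_iff_modEq, ← hζ.eq_orderOf,
      nsmul_eq_nsmul_iff_modEq, addOrderOf_eq_of_prime hl hw hlw]
  have he1 : ∀ τ, e τ = 1 ↔ act τ ξ = ξ := fun τ => by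
    show ζ ^ c τ = 1 ↔ _
    rw [← pow_zero ζ, hiff, zero_nsmul, hc τ, add_eq_left]
  have hmul : ∀ σ τ, e (σ * τ) = σ (e τ) * e σ := by
    intro σ τ
    obtain ⟨k, -, hk⟩ := hζ.eq_pow_of_pow_eq_one
      (show σ ζ ^ l = 1 by rw [← map_pow, hζ.pow_eq_one, map_one])
    show ζ ^ c (σ * τ) = σ (ζ ^ c τ) * ζ ^ c σ
    rw [map_pow, ← hk, ← pow_mul, ← pow_add, hiff]
    refine add_left_cancel (a := ξ) ?_
    rw [← hc (σ * τ), map_mul]
    show act σ (act τ ξ) = _
    rw [hc τ, map_add, hc σ, map_nsmul, hW σ k hk.symm, add_nsmul, mul_comm, mul_nsmul']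
    abel
  obtain ⟨L, hLfin, hLgal, hLfix⟩ := exists_galois_act_eq hH
  set L' := IntermediateField.normalClosure ℚ (L ⊔ IntermediateField.adjoin ℚ {ζ} : IntermediateField ℚ Qb) Qb with hL'
  have : FiniteDimensional ℚ (IntermediateField.adjoin ℚ {ζ}) :=
    IntermediateField.adjoin.finiteDimensional (Algebra.IsIntegral.isIntegral ζ)
  have : FiniteDimensional ℚ (L ⊔ IntermediateField.adjoin ℚ {ζ} : IntermediateField ℚ Qb) :=
    IntermediateField.finiteDimensional_sup L _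
  have : Normal ℚ L' := normalClosure.normal ℚ _ Qb
  have : IsGalois ℚ L' := ⟨⟩
  have hle : L ⊔ IntermediateField.adjoin ℚ {ζ} ≤ L' := IntermediateField.le_normalClosure _
  have hζL : ζ ∈ L' :=
    hle (SetLike.le_def.1 le_sup_right (IntermediateField.mem_adjoin_simple_self ℚ ζ))
  rcases exists_root_of_cocycle hl e (fun τ => by
      show (ζ ^ c τ) ^ l = 1
      rw [← pow_mul, mul_comm, pow_mul, hζ.pow_eq_one, one_pow]) hmul L'
    (fun τ hτ => (he1 τ).2 (hLfix τ
      (IntermediateField.fixingSubgroup_le (le_sup_left.trans hle) hτ) ξ))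
    (fun τ => pow_mem hζL _) (fun q hq hql A hA τ hτ => (he1 τ).2 (hI q hq hql A hA τ hτ)) ι cc hcc
    ((he1 cc).2 hξcc) with h | ⟨π, hπ, hπiff⟩
  · exact (he1 σ).1 (h σ)
  by_contra hne
  obtain ⟨A, hA⟩ := GalCommon.exists_liesOverPrime hl
  obtain ⟨h, hh, hge⟩ := exists_valuation_sub_ge hl hH hA ξ (w := c σ • w)
    (fun h0 => hne (by rw [hc σ, h0, add_zero])) (by rw [smul_comm, hlw, smul_zero])
  rw [← hc σ, hH.equivariant h hh σ] at hge
  have hπ0 : π ≠ 0 := by
    rintro rfl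
    rw [zero_pow hl.ne_zero, eq_comm] at hπ
    exact hl.ne_zero (by exact_mod_cast hπ)
  have hσπ : σ π ≠ π := fun h0 => hne ((he1 σ).1 ((hπiff σ).1 h0))
  set ζ' := σ π / π with hζ'def
  have hζ'1 : ζ' ≠ 1 := fun h0 => hσπ ((div_eq_one_iff_eq hπ0).1 h0)
  have hζ'l : ζ' ^ l = 1 := by
    rw [hζ'def, div_pow, ← map_pow, hπ, map_natCast, div_self (Nat.cast_ne_zero.2 hl.ne_zero)]
  have hprim : IsPrimitiveRoot ζ' l := by
    have : Fact l.Prime := ⟨hl⟩
    exact IsPrimitiveRoot.iff_orderOf.2 (orderOf_eq_prime hζ'l hζ'1)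
  refine absurd hge (not_le.2 ?_)
  refine valuation_sub_lt_of_root hl hA hπ hprim (σ := σ) (div_mul_cancel₀ _ hπ0).symm
    ((A.valuation_le_one_iff _).1 (valuation_apply_le_one hl hH hA hh ξ)) fun τ hτ => ?_
  show galR l τ (h ξ) = h ξ
  rw [← hH.equivariant h hh τ, (he1 τ).1 ((hπiff τ).1 hτ)]

/-- **Simple pieces have no nonsplit extensions.** -/
theorem fixed_of_simple (hl : l.Prime) (hflat : HasFlatModel l act) {ξ w : G}
    (hlw : l • w = 0) (hstab : ∀ σ, ∃ i : ℕ, act σ ξ = ξ + i • w)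
    (hW : (∀ σ, act σ w = w) ∨
      ∀ (σ : Γℚ) (ζ : Qb) (k : ℕ), IsPrimitiveRoot ζ l → σ ζ = ζ ^ k → act σ w = k • w)
    (hI : ∀ q : ℕ, q.Prime → q ≠ l → ∀ A : ValuationSubring Qb, A.LiesOverPrime q →
      ∀ σ ∈ A.inertiaSubgroupIn ℚ, act σ ξ = ξ)
    (ι : Qb →+* ℂ) (cc : Γℚ) (hcc : ∀ x, ι (cc x) = starRingEnd ℂ (ι x))
    (hξcc : act cc ξ = ξ) (σ : Γℚ) : act σ ξ = ξ := by
  by_cases hw : w = 0
  · obtain ⟨i, hi⟩ := hstab σ
    rw [hi, hw, smul_zero, add_zero]
  have : NeZero l := ⟨hl.ne_zero⟩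
  have : NeZero (l : Qb) := ⟨Nat.cast_ne_zero.2 hl.ne_zero⟩
  obtain ⟨ζ, hζ⟩ := HasEnoughRootsOfUnity.exists_primitiveRoot Qb l
  by_cases hcyc : ∀ (σ : Γℚ) (ζ : Qb) (k : ℕ), IsPrimitiveRoot ζ l → σ ζ = ζ ^ k →
      act σ w = k • w
  · exact fixed_of_cyclotomic hl hflat hw hlw hstab hζ (fun σ k => hcyc σ ζ k hζ) hI ι cc hcc
      hξcc σ
  have hW' : ∀ σ, act σ w = w := hW.resolve_right hcyc
  have hl2 : l ≠ 2 := by
    rintro rfl
    refine hcyc fun τ η k hη hk => ?_
    rw [hW']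
    have hη1 : η = -1 := hη.eq_neg_one_of_two_right
    subst hη1
    rw [map_neg, map_one] at hk
    have hk1 : k % 2 = 1 := by
      rcases Nat.even_or_odd k with he | ho
      · rw [he.neg_one_pow] at hk
        exact absurd hk (by norm_num)
      · exact Nat.odd_iff.1 ho
    rw [nsmul_eq_mod_nsmul k hlw, hk1, one_nsmul]
  let U : Subgroup Γℚ :=
    { carrier := {τ | act τ ξ = ξ}
      mul_mem' := fun {a b} (ha : act a ξ = ξ) (hb : act b ξ = ξ) => by
        show act (a * b) ξ = ξ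
        rw [map_mul]
        show act a (act b ξ) = ξ
        rw [hb, ha]
      one_mem' := by show act 1 ξ = ξ; rw [map_one]; rfl
      inv_mem' := fun {a} (ha : act a ξ = ξ) => by
        show act a⁻¹ ξ = ξ
        conv_lhs => rw [← ha]
        show (act a⁻¹ * act a) ξ = ξ
        rw [← map_mul, inv_mul_cancel, map_one]
        rfl }
  obtain ⟨H, hH⟩ := hasFlatModel_iff_hasOrder.1 hflat
  obtain ⟨L, hLfin, -, hLfix⟩ := exists_galois_act_eq hH
  have hU : U = ⊤ := EllP.eq_top_of_inertia_le U L (fun τ hτ => hLfix τ hτ ξ) fun q hq A hA τ hτ => by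
    by_cases hql : q = l
    · subst hql
      exact inertia_fixes_of_trivial hl hl2 hflat hlw hW' hstab hA hτ
    · exact hI q hq hql A hA τ hτ
  exact (hU.symm ▸ Subgroup.mem_top σ : σ ∈ U)

end FLTAgent.Mazur.Eis

end
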