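import Fermat.Agent.Mazur.Eis.Kill

/-!
# Constants extending modules with Galois eigenvalues `1` and `χ` modulo `l`
-/

set_option autoImplicit false

noncomputable section

open scoped Pointwise

namespace FLTAgent.Mazur.Eis

open FLTAgent.FlatHopf

local notation "Qb" => AlgebraicClosure ℚ
local notation "Γℚ" => (AlgebraicClosure ℚ ≃ₐ[ℚ] AlgebraicClosure ℚ)

variable {l : ℕ} {E : Type} [AddCommGroup E]

/-- The restriction of an action to a stable subgroup. -/
def restrictAct {Γ : Type*} [Monoid Γ] (act : Γ →* AddMonoid.End E) (V : AddSubgroup E)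
    (h : ∀ σ, ∀ v ∈ V, act σ v ∈ V) : Γ →* AddMonoid.End V where
  toFun σ := ((act σ).comp V.subtype).codRestrict V fun v => h σ v v.2
  map_one' := AddMonoidHom.ext fun v => Subtype.ext (by
    show act 1 (v : E) = v
    rw [map_one]; rfl)
  map_mul' σ τ := AddMonoidHom.ext fun v => Subtype.ext (by
    show act (σ * τ) (v : E) = act σ (act τ v)
    rw [map_mul]; rfl)

@[simp] theorem coe_restrictAct {Γ : Type*} [Monoid Γ] (act : Γ →* AddMonoid.End E)
    (V : AddSubgroup E) (h : ∀ σ, ∀ v ∈ V, act σ v ∈ V) (σ : Γ) (v : V) :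
    ((restrictAct act V h σ v : V) : E) = act σ v := rfl

theorem map_pow_apply {E' : Type} [AddCommGroup E'] (π : E →+ E') (f : AddMonoid.End E)
    (f' : AddMonoid.End E') (h : ∀ x, π (f x) = f' (π x)) (n : ℕ) (x : E) :
    π ((f ^ n) x) = (f' ^ n) (π x) := by
  induction n with
  | zero => rfl
  | succ n ih => rw [pow_succ', pow_succ']; exact (h _).trans (congrArg f' ih)

theorem map_quad_apply {E' : Type} [AddCommGroup E'] (π : E →+ E') (f : AddMonoid.End E)
    (f' : AddMonoid.End E') (h : ∀ x, π (f x) = f' (π x)) (a : ℕ) (n : ℕ) (x : E) :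
    π ((((f - 1) * (f - (a : AddMonoid.End E))) ^ n) x) =
      (((f' - 1) * (f' - (a : AddMonoid.End E'))) ^ n) (π x) := by
  refine map_pow_apply π _ _ (fun y => ?_) n x
  have h1 : ∀ (b : ℕ) (z : E), π ((f - (b : AddMonoid.End E)) z) =
      (f' - (b : AddMonoid.End E')) (π z) := fun b z => by
    show π (f z - (b : AddMonoid.End E) z) = f' (π z) - (b : AddMonoid.End E') (π z)
    rw [AddMonoid.End.natCast_apply, AddMonoid.End.natCast_apply, map_sub, map_nsmul, h]
  show π ((f - 1) ((f - (a : AddMonoid.End E)) y)) = _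
  rw [← Nat.cast_one, h1, h1, Nat.cast_one]
  rfl

variable {act : Γℚ →* AddMonoid.End E}

/-- An irreducible piece is constant or multiplicative. -/
theorem exists_generator_of_simple (hl : l.Prime) {ζ : Qb} (hζ : IsPrimitiveRoot ζ l) [Finite E]
    (W : AddSubgroup E) (hstab : ∀ σ, ∀ v ∈ W, act σ v ∈ W) (hne : W ≠ ⊥)
    (hsimple : ∀ W' ≤ W, (∀ σ, ∀ v ∈ W', act σ v ∈ W') → W' = ⊥ ∨ W' = W)
    (hpow : ∀ v ∈ W, ∃ k : ℕ, l ^ k • v = 0)
    (hquad : ∀ (σ : Γℚ) (a : ℕ), σ ζ = ζ ^ a → ∀ v ∈ W,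
      ∃ n : ℕ, (((act σ - 1) * (act σ - (a : AddMonoid.End E))) ^ n) v = 0) :
    ∃ w : E, l • w = 0 ∧ W = AddSubgroup.zmultiples w ∧ ((∀ σ, act σ w = w) ∨
      ∀ (σ : Γℚ) (η : Qb) (k : ℕ), IsPrimitiveRoot η l → σ η = η ^ k → act σ w = k • w) := by
  classical
  have : Fact l.Prime := ⟨hl⟩
  have : NeZero l := ⟨hl.ne_zero⟩
  -- `W` is killed by `l`
  have hlW : ∀ v ∈ W, l • v = 0 := by
    intro v hv
    have hW' : W.map (nsmulAddMonoidHom l) ≤ W := by
      rintro _ ⟨u, hu, rfl⟩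
      exact nsmul_mem hu l
    rcases hsimple _ hW' (fun σ x hx => by
      obtain ⟨u, hu, rfl⟩ := hx
      exact ⟨act σ u, hstab σ u hu, (map_nsmul (act σ) l u).symm⟩) with h | h
    · exact (AddSubgroup.eq_bot_iff_forall _).1 h _ ⟨v, hv, rfl⟩
    · exfalso
      obtain ⟨u, hu, hu0⟩ : ∃ u ∈ W, u ≠ (0 : E) := by
        by_contra hcon
        push Not at hcon
        exact hne ((AddSubgroup.eq_bot_iff_forall _).2 hcon)
      have hdiv : ∀ (k : ℕ), ∀ x ∈ W, ∃ y ∈ W, x = l ^ k • y := by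
        intro k
        induction k with
        | zero => exact fun x hx => ⟨x, hx, by simp⟩
        | succ k ih =>
          intro x hx
          obtain ⟨y, hy, rfl⟩ := ih x hx
          rw [← h] at hy
          obtain ⟨z, hz, rfl⟩ := hy
          exact ⟨z, hz, by rw [pow_succ, mul_nsmul']; rfl⟩
      choose k hk using fun x : W => hpow x x.2
      have := Fintype.ofFinite W
      obtain ⟨y, hy, hyu⟩ := hdiv (∑ x : W, k x) u hu
      refine hu0 ?_
      obtain ⟨d, hd⟩ := pow_dvd_pow l (Finset.single_le_sum (f := k) (fun x _ => Nat.zero_le _)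
        (Finset.mem_univ ⟨y, hy⟩))
      rw [hyu, hd, mul_comm, mul_nsmul', hk ⟨y, hy⟩, smul_zero]
  set ρ := restrictAct act W hstab with hρ
  have hEnd : (l : AddMonoid.End W) = 0 := DFunLike.ext _ _ fun v => Subtype.ext (by
    rw [AddMonoid.End.natCast_apply]
    exact hlW v v.2)
  have hW0 : ∃ v : W, v ≠ 0 := by
    by_contra hcon
    push Not at hcon
    exact hne ((AddSubgroup.eq_bot_iff_forall _).2 fun x hx => congrArg Subtype.val (hcon ⟨x, hx⟩))
  have hnil : ∀ (σ : Γℚ) (a : ℕ), σ ζ = ζ ^ a →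
      IsNilpotent ((ρ σ - 1) * (ρ σ - (a : AddMonoid.End W))) := by
    intro σ a ha
    have := Fintype.ofFinite W
    choose n hn using fun v : W => hquad σ a ha v v.2
    refine ⟨∑ v : W, n v, DFunLike.ext _ _ fun v => Subtype.ext ?_⟩
    obtain ⟨d, hd⟩ := Nat.le.dest (Finset.single_le_sum (f := n) (fun x _ => Nat.zero_le _)
      (Finset.mem_univ v))
    show W.subtype ((((ρ σ - 1) * (ρ σ - (a : AddMonoid.End W))) ^ (∑ v : W, n v)) v) = (0 : E)
    rw [map_quad_apply W.subtype (ρ σ) (act σ) (fun _ => rfl) a, ← hd, add_comm, pow_add]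
    show (((act σ - 1) * (act σ - (a : AddMonoid.End E))) ^ d)
      ((((act σ - 1) * (act σ - (a : AddMonoid.End E))) ^ n v) (v : E)) = 0
    rw [hn v, map_zero]
  set χ := hζ.autToPow ℚ with hχ
  have hspec : ∀ σ : Γℚ, σ ζ = ζ ^ ((χ σ : ZMod l)).val := fun σ => (hζ.autToPow_spec ℚ σ).symm
  have hχ_eq : ∀ (σ : Γℚ) (η : Qb) (k : ℕ), IsPrimitiveRoot η l → σ η = η ^ k →
      (k : ZMod l) = χ σ := by
    intro σ η k hη hk
    obtain ⟨i, -, rfl⟩ := hζ.eq_pow_of_pow_eq_one hη.pow_eq_one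
    have hcop : Nat.Coprime i l := (hζ.pow_iff_coprime hl.pos i).1 hη
    rw [map_pow, hspec, ← pow_mul, ← pow_mul,
      (hζ.isOfFinOrder hl.ne_zero).pow_eq_pow_iff_modEq, ← hζ.eq_orderOf,
      ← ZMod.natCast_eq_natCast_iff] at hk
    push_cast at hk
    rw [ZMod.natCast_val, ZMod.cast_id, mul_comm] at hk
    have hi : (i : ZMod l) ≠ 0 := fun h => by
      rw [ZMod.natCast_eq_zero_iff] at h
      exact hl.ne_one (Nat.dvd_one.1 (hcop ▸ Nat.dvd_gcd h dvd_rfl))
    exact (mul_left_cancel₀ hi hk).symm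
  -- the kernel of `χ` acts through an `l`-group
  let φ : Γℚ →* Equiv.Perm W :=
    { toFun := fun σ =>
        { toFun := ρ σ
          invFun := ρ σ⁻¹
          left_inv := fun v => by
            show (ρ σ⁻¹ * ρ σ) v = v
            rw [← map_mul, inv_mul_cancel, map_one]; rfl
          right_inv := fun v => by
            show (ρ σ * ρ σ⁻¹) v = v
            rw [← map_mul, mul_inv_cancel, map_one]; rfl }
      map_one' := Equiv.ext fun v => by show ρ 1 v = v; rw [map_one]; rfl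
      map_mul' := fun σ τ => Equiv.ext fun v => by
        show ρ (σ * τ) v = ρ σ (ρ τ v); rw [map_mul]; rfl }
  have hp : IsPGroup l (χ.ker.map φ) := by
    rintro ⟨_, σ, hσ, rfl⟩
    have hσ1 : σ ζ = ζ ^ 1 := by
      rw [hspec, show χ σ = 1 from hσ, Units.val_one, ZMod.val_one]
    obtain ⟨n, hn⟩ := hnil σ 1 hσ1
    rw [Nat.cast_one, ← sq, ← pow_mul] at hn
    obtain ⟨r, hr⟩ := (Commute.one_right (ρ σ - 1)).exists_add_pow_prime_pow_eq hl (2 * n)
    rw [sub_add_cancel, one_pow, hEnd, zero_mul, zero_mul, zero_mul, add_zero,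
      pow_eq_zero_of_le (Nat.lt_pow_self hl.one_lt).le hn, zero_add] at hr
    refine ⟨2 * n, Subtype.ext (Equiv.ext fun v => ?_)⟩
    show ((φ σ) ^ (l ^ (2 * n))) v = v
    rw [← map_pow]
    show ρ (σ ^ (l ^ (2 * n))) v = v
    rw [map_pow, hr]
    rfl
  have hdvd : l ∣ Nat.card W := by
    obtain ⟨v, hv⟩ := hW0
    rw [← addOrderOf_eq_of_prime hl hv (Subtype.ext (hlW v v.2) : l • v = 0)]
    exact addOrderOf_dvd_natCard v
  obtain ⟨b, hb, hb0⟩ := hp.exists_fixed_point_of_prime_dvd_card_of_fixed_point W hdvd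
    (a := 0) (fun g => by
      obtain ⟨σ, -, hσ⟩ := g.2
      show (g : Equiv.Perm W) 0 = 0
      rw [← hσ]
      exact map_zero (ρ σ))
  -- hence the kernel acts trivially
  let Fix : AddSubgroup E :=
    { carrier := {x | x ∈ W ∧ ∀ σ ∈ χ.ker, act σ x = x}
      add_mem' := fun {x y} (hx : _ ∧ _) (hy : _ ∧ _) =>
        ⟨add_mem hx.1 hy.1, fun σ hσ => by rw [map_add, hx.2 σ hσ, hy.2 σ hσ]⟩
      zero_mem' := ⟨zero_mem W, fun σ _ => map_zero _⟩
      neg_mem' := fun {x} (hx : _ ∧ _) =>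
        ⟨neg_mem hx.1, fun σ hσ => by rw [map_neg, hx.2 σ hσ]⟩ }
  have hker : ∀ σ ∈ χ.ker, ∀ v ∈ W, act σ v = v := by
    have hFstab : ∀ τ, ∀ x ∈ Fix, act τ x ∈ Fix := fun τ x hx => ⟨hstab τ x hx.1, fun σ hσ => by
      have h1 : τ⁻¹ * σ * τ ∈ χ.ker := by
        rw [MonoidHom.mem_ker, map_mul, map_mul, show χ σ = 1 from hσ, mul_one, map_inv,
          inv_mul_cancel]
      calc act σ (act τ x) = (act τ * act (τ⁻¹ * σ * τ)) x := by
            rw [← map_mul, mul_assoc, mul_inv_cancel_left, map_mul]; rfl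
        _ = act τ x := congrArg (act τ) (hx.2 _ h1)⟩
    rcases hsimple Fix (fun x hx => hx.1) hFstab with h | h
    · exfalso
      have hbF : (b : E) ∈ Fix := ⟨b.2, fun σ hσ => by
        have := hb ⟨φ σ, σ, hσ, rfl⟩
        exact congrArg Subtype.val this⟩
      rw [h, AddSubgroup.mem_bot] at hbF
      exact hb0 (Subtype.ext hbF.symm)
    · intro σ hσ v hv
      rw [← h] at hv
      exact hv.2 σ hσ
  -- a generator of the image of `χ`
  obtain ⟨⟨_, g₀, rfl⟩, hg⟩ := IsCyclic.exists_generator (α := χ.range)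
  set a := ((χ g₀ : ZMod l)).val with ha
  have hdec : ∀ σ, ∃ j : ℕ, ∀ v ∈ W, act σ v = act (g₀ ^ j) v ∧ χ σ = χ g₀ ^ j := by
    intro σ
    obtain ⟨j, hj⟩ := mem_powers_iff_mem_zpowers.2 (hg ⟨χ σ, σ, rfl⟩)
    have hj' : χ g₀ ^ j = χ σ := congrArg Subtype.val hj
    refine ⟨j, fun v hv => ⟨?_, hj'.symm⟩⟩
    have h1 : (g₀ ^ j)⁻¹ * σ ∈ χ.ker := by
      rw [MonoidHom.mem_ker, map_mul, map_inv, map_pow, hj', inv_mul_cancel]
    calc act σ v = (act (g₀ ^ j) * act ((g₀ ^ j)⁻¹ * σ)) v := by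
          rw [← map_mul, mul_inv_cancel_left]
      _ = act (g₀ ^ j) v := congrArg (act (g₀ ^ j)) (hker _ h1 v hv)
  obtain ⟨v, hv, b', hb', hbv⟩ : ∃ v : W, v ≠ 0 ∧
      ∃ b' : ℕ, (b' = 1 ∨ b' = a) ∧ ρ g₀ v = b' • v := by
    set X := ρ g₀ - 1
    set Y := ρ g₀ - (a : AddMonoid.End W)
    have hXY : IsNilpotent (X * Y) := hnil g₀ a (hspec g₀)
    obtain ⟨v, hv, hXYv⟩ : ∃ v : W, v ≠ 0 ∧ X (Y v) = 0 := by
      by_contra hcon
      push Not at hcon
      have hinj : Function.Injective ⇑(X * Y) := by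
        rw [injective_iff_map_eq_zero]
        intro w hw
        by_contra hw0
        exact hcon w hw0 hw
      obtain ⟨n, hn⟩ := hXY
      obtain ⟨w, hw⟩ := hW0
      have hinjn : Function.Injective ⇑((X * Y) ^ n) := by
        rw [AddMonoid.End.coe_pow]
        exact hinj.iterate n
      exact hw (hinjn (by rw [hn]; simp))
    by_cases hYv : Y v = 0
    · refine ⟨v, hv, a, Or.inr rfl, ?_⟩
      have h1 : ρ g₀ v - (a : AddMonoid.End W) v = 0 := hYv
      rwa [AddMonoid.End.natCast_apply, sub_eq_zero] at h1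
    · refine ⟨Y v, hYv, 1, Or.inl rfl, ?_⟩
      have h1 : ρ g₀ (Y v) - Y v = 0 := hXYv
      rwa [one_nsmul, ← sub_eq_zero]
  have hbv' : act g₀ (v : E) = b' • (v : E) := congrArg Subtype.val hbv
  have hpowv : ∀ j : ℕ, act (g₀ ^ j) (v : E) = b' ^ j • (v : E) := by
    intro j
    induction j with
    | zero => simp
    | succ j ih =>
      rw [pow_succ' g₀, map_mul]
      show act g₀ (act (g₀ ^ j) v) = _
      rw [ih, map_nsmul, hbv', ← mul_nsmul', pow_succ]
  refine ⟨v, hlW v v.2, ?_, ?_⟩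
  · have hzstab : ∀ σ, ∀ x ∈ AddSubgroup.zmultiples (v : E),
        act σ x ∈ AddSubgroup.zmultiples (v : E) := by
      rintro σ _ ⟨n, rfl⟩
      obtain ⟨j, hj⟩ := hdec σ
      show act σ (n • (v : E)) ∈ _
      rw [map_zsmul, (hj v v.2).1, hpowv j]
      exact zsmul_mem (nsmul_mem (AddSubgroup.mem_zmultiples _) _) _
    rcases hsimple (AddSubgroup.zmultiples (v : E)) (AddSubgroup.zmultiples_le_of_mem v.2)
      hzstab with h | h
    · exact absurd (Subtype.ext (AddSubgroup.zmultiples_eq_bot.1 h)) hv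
    · exact h.symm
  · rcases hb' with rfl | rfl
    · left
      intro σ
      obtain ⟨j, hj⟩ := hdec σ
      rw [(hj v v.2).1, hpowv j, one_pow, one_nsmul]
    · right
      intro σ η k hη hk
      obtain ⟨j, hj⟩ := hdec σ
      obtain ⟨hj1, hj2⟩ := hj v v.2
      rw [hj1, hpowv j]
      refine nsmul_eq_nsmul_iff_modEq.2 ?_
      rw [addOrderOf_eq_of_prime hl (fun h => hv (Subtype.ext h)) (hlW v v.2),
        ← ZMod.natCast_eq_natCast_iff, hχ_eq σ η k hη hk, hj2, Nat.cast_pow, ha,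
        ZMod.natCast_val, ZMod.cast_id, Units.val_pow_eq_pow_val]

/-- **Extensions by constants of modules with eigenvalues `1` and `χ` split.** -/
theorem fixed_of_nilpotent (hl : l.Prime) {ζ : Qb} (hζ : IsPrimitiveRoot ζ l) [Finite E]
    (hflat : HasFlatModel l act) (V : AddSubgroup E) (hstab : ∀ σ, ∀ v ∈ V, act σ v ∈ V)
    (hpow : ∀ v ∈ V, ∃ k : ℕ, l ^ k • v = 0)
    (hquad : ∀ (σ : Γℚ) (a : ℕ), σ ζ = ζ ^ a → ∀ v ∈ V,
      ∃ n : ℕ, (((act σ - 1) * (act σ - (a : AddMonoid.End E))) ^ n) v = 0)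
    {ξ : E} (hξ : ∀ σ, act σ ξ - ξ ∈ V)
    (hI : ∀ q : ℕ, q.Prime → q ≠ l → ∃ A : ValuationSubring Qb, A.LiesOverPrime q ∧
      ∀ σ ∈ A.inertiaSubgroupIn ℚ, act σ ξ = ξ)
    (ι : Qb →+* ℂ) (cc : Γℚ) (hcc : ∀ x, ι (cc x) = starRingEnd ℂ (ι x))
    (hξcc : act cc ξ = ξ) : ∀ σ, act σ ξ = ξ := by
  classical
  induction V using WellFoundedLT.induction with
  | _ V ih =>
    by_cases hV : V = ⊥
    · intro σ
      have := hξ σ
      rwa [hV, AddSubgroup.mem_bot, sub_eq_zero] at this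
    obtain ⟨V', ⟨hV'lt, hV'stab⟩, hV'max⟩ :=
      wellFounded_gt.has_min {V' : AddSubgroup E | V' < V ∧ ∀ σ, ∀ v ∈ V', act σ v ∈ V'}
        ⟨⊥, bot_lt_iff_ne_bot.2 hV, fun σ v hv => by
          rw [AddSubgroup.mem_bot] at hv ⊢; rw [hv, map_zero]⟩
    refine ih V' hV'lt hV'stab (fun v hv => hpow v (hV'lt.le hv))
      (fun σ a ha v hv => hquad σ a ha v (hV'lt.le hv)) ?_
    set π := QuotientAddGroup.mk' V'
    let act' : Γℚ →* AddMonoid.End (E ⧸ V') :=
      { toFun := fun σ => QuotientAddGroup.map V' V' (act σ) fun v hv => hV'stab σ v hv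
        map_one' := AddMonoidHom.ext fun x => by
          obtain ⟨x, rfl⟩ := QuotientAddGroup.mk_surjective x
          show QuotientAddGroup.mk' V' (act 1 x) = _
          rw [map_one]; rfl
        map_mul' := fun σ τ => AddMonoidHom.ext fun x => by
          obtain ⟨x, rfl⟩ := QuotientAddGroup.mk_surjective x
          show QuotientAddGroup.mk' V' (act (σ * τ) x) = _
          rw [map_mul]; rfl }
    have heq : ∀ σ x, π (act σ x) = act' σ (π x) := fun σ x => rfl
    have hker : ∀ x, π x = 0 ↔ x ∈ V' := fun x => QuotientAddGroup.eq_zero_iff x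
    have hflat' : HasFlatModel l act' :=
      hflat.of_surjective π (QuotientAddGroup.mk'_surjective V') heq
    obtain ⟨w, hlw, hW, hWact⟩ := exists_generator_of_simple hl hζ (act := act') (V.map π)
      (by rintro σ _ ⟨v, hv, rfl⟩; exact ⟨act σ v, hstab σ v hv, rfl⟩)
      (fun h => hV'lt.not_ge fun v hv => (hker v).1 ((AddSubgroup.eq_bot_iff_forall _).1 h _
        ⟨v, hv, rfl⟩))
      (fun W' hW' hstab' => by
        have hle : V' ≤ W'.comap π := fun v hv => by
          rw [AddSubgroup.mem_comap, (hker v).2 hv]; exact zero_mem _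
        have hleV : W'.comap π ≤ V := fun v hv => by
          obtain ⟨u, hu, huv⟩ := hW' hv
          have h1 : v - u ∈ V' := (hker _).1 (by rw [map_sub, huv, sub_self])
          simpa using add_mem (hV'lt.le h1) hu
        by_cases hC : W'.comap π = V
        · right
          exact le_antisymm hW' (AddSubgroup.map_le_iff_le_comap.2 hC.ge)
        · left
          have hCV' : W'.comap π = V' := by
            by_contra hne
            exact hV'max _ ⟨lt_of_le_of_ne hleV hC, fun σ v hv => by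
              rw [AddSubgroup.mem_comap, heq]; exact hstab' σ _ hv⟩
              (lt_of_le_of_ne hle (Ne.symm hne))
          refine (AddSubgroup.eq_bot_iff_forall _).2 fun x hx => ?_
          obtain ⟨v, rfl⟩ := QuotientAddGroup.mk'_surjective V' x
          exact (hker v).2 (hCV' ▸ hx))
      (by
        rintro _ ⟨v, hv, rfl⟩
        obtain ⟨k, hk⟩ := hpow v hv
        exact ⟨k, by rw [← map_nsmul, hk, map_zero]⟩)
      (by
        rintro σ a ha _ ⟨v, hv, rfl⟩
        obtain ⟨n, hn⟩ := hquad σ a ha v hv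
        exact ⟨n, by rw [← map_quad_apply π (act σ) (act' σ) (heq σ) a, hn, map_zero]⟩)
    have hfix := fixed_of_simple hl hflat' (ξ := π ξ) hlw
      (fun σ => by
        have h1 : π (act σ ξ - ξ) ∈ V.map π := ⟨_, hξ σ, rfl⟩
        rw [hW] at h1
        obtain ⟨z, hz⟩ := h1
        obtain ⟨n, hn⟩ := Int.eq_ofNat_of_zero_le
          (Int.emod_nonneg z (Int.natCast_ne_zero.2 hl.ne_zero))
        refine ⟨n, ?_⟩
        rw [← heq, ← sub_eq_iff_eq_add', ← map_sub, ← hz, ← natCast_zsmul, ← hn]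
        show z • w = _
        conv_lhs => rw [← Int.emod_add_mul_ediv z l]
        rw [add_zsmul, mul_comm (l : ℤ), mul_zsmul, natCast_zsmul, hlw, smul_zero, add_zero])
      hWact (fun q hq hql A hA σ hσ => by
        obtain ⟨A₀, hA₀, hfix⟩ := hI q hq hql
        obtain ⟨τ, rfl⟩ := GalCommon.exists_smul_eq_of_liesOverPrime hq hA₀ hA
        have hζA : ∀ i ∈ A₀.inertiaSubgroupIn ℚ, act' i w = w := by
          intro i hi
          rcases hWact with h | h
          · exact h i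
          · rw [h i ζ 1 hζ (by
              rw [pow_one]
              exact GalCommon.inertia_apply_of_pow_eq_one hq hA₀
                (fun hd => hql ((Nat.prime_dvd_prime_iff_eq hq hl).1 hd)) hi hζ.pow_eq_one),
              one_nsmul]
        have hi : τ⁻¹ * σ * τ ∈ A₀.inertiaSubgroupIn ℚ := by
          have h1 := GalCommon.mem_inertia_conj hσ τ⁻¹
          rw [inv_inv, show τ⁻¹ • τ • A₀ = A₀ from inv_smul_smul τ A₀] at h1
          exact h1
        obtain ⟨z, hz⟩ : π (act τ⁻¹ ξ - ξ) ∈ AddSubgroup.zmultiples w := hW ▸ ⟨_, hξ τ⁻¹, rfl⟩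
        have hx : act' τ⁻¹ (π ξ) = π ξ + z • w := by
          rw [show z • w = π (act τ⁻¹ ξ - ξ) from hz, map_sub, ← heq]
          abel
        calc act' σ (π ξ) = (act' τ * act' (τ⁻¹ * σ * τ) * act' τ⁻¹) (π ξ) := by
              rw [← map_mul, ← map_mul]; congr 2; group
          _ = act' τ (act' (τ⁻¹ * σ * τ) (act' τ⁻¹ (π ξ))) := rfl
          _ = act' τ (act' τ⁻¹ (π ξ)) := by
              rw [hx, map_add, map_zsmul, hζA _ hi, ← heq _ ξ, hfix _ hi]
          _ = π ξ := by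
              show (act' τ * act' τ⁻¹) (π ξ) = π ξ
              rw [← map_mul, mul_inv_cancel, map_one]; rfl) ι cc hcc
      (by rw [← heq, hξcc])
    intro σ
    rw [← hker, map_sub, heq, hfix, sub_self]

end FLTAgent.Mazur.Eis

end
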