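import Fermat.Agent.Mazur.Eis.Idem
import Fermat.Agent.Mazur.Eis.Pieces
import Fermat.Agent.Local.Bound
import Fermat.Agent.Reps.Unramified
import Fermat.Agent.Kronecker.Specialization
import Fermat.Agent.FlatJ.Main

/-!
# Roots of rational points at a finite level

For `l ^ k • w` rational, `J₀(p)[l^k]` together with `w` is a finite flat module at `l`, unramified
outside `p l`, and on the Eisenstein part Galois acts with eigenvalues `1` and `χ` modulo `l`.
-/

set_option autoImplicit false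

noncomputable section

open ModularCurve Matrix CuspForm
open scoped Pointwise

namespace FLTAgent.Mazur.Eis

open FLTAgent.Reps FLTAgent.FlatHopf

local notation "Qb" => AlgebraicClosure ℚ
local notation "Γℚ" => (AlgebraicClosure ℚ ≃ₐ[ℚ] AlgebraicClosure ℚ)

variable {p l : ℕ} [Fact p.Prime] [Fact l.Prime] {D : TorsData p l}

/-- Galois modulo `l ^ k`. -/
def galMod (D : TorsData p l) (k : ℕ) :
    Γℚ →* Matrix (Fin D.G.r) (Fin D.G.r) (ZMod (l ^ k)) :=
  (PadicInt.toZModPow k).mapMatrix.toMonoidHom.comp D.G.M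

theorem e_galMod (k : ℕ) (σ : Γℚ) (v : Fin D.G.r → ZMod (l ^ k)) :
    D.e k (galMod D k σ *ᵥ v) = σ • D.e k v :=
  D.e_galois k σ v

theorem e_smul {k : ℕ} (a : ZMod (l ^ k)) (v : Fin D.G.r → ZMod (l ^ k)) :
    D.e k (a • v) = a.val • D.e k v := by
  have : NeZero (l ^ k) := ⟨pow_ne_zero _ (Fact.out : l.Prime).ne_zero⟩
  rw [← map_nsmul, ← Nat.cast_smul_eq_nsmul (ZMod (l ^ k)), ZMod.natCast_zmod_val]

/-- A point whose multiple by `l ^ k` is rational. -/
structure Root (D : TorsData p l) (k : ℕ) where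
  /-- The point. -/
  w : JZero p
  fixed : ∀ σ : Γℚ, σ • (l ^ k • w) = l ^ k • w

variable {k : ℕ} (R : Root D k)

theorem Root.exists_cocycle (σ : Γℚ) : ∃ v, D.e k v = σ • R.w - R.w :=
  D.e_surjective k _ (by rw [nsmul_sub, ← Kronecker.galois_smul_nsmul, R.fixed, sub_self])

/-- The cocycle of a root. -/
def Root.c (σ : Γℚ) : Fin D.G.r → ZMod (l ^ k) := (R.exists_cocycle σ).choose

theorem Root.e_c (σ : Γℚ) : D.e k (R.c σ) = σ • R.w - R.w := (R.exists_cocycle σ).choose_spec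

theorem Root.c_mul (σ τ : Γℚ) : R.c (σ * τ) = galMod D k σ *ᵥ R.c τ + R.c σ := by
  apply D.e_injective k
  rw [map_add, R.e_c, e_galMod, R.e_c, R.e_c, mul_smul, smul_sub]
  abel

theorem Root.c_one : R.c 1 = 0 := by
  apply D.e_injective k
  rw [R.e_c, map_zero, one_smul, sub_self]

/-- Coordinates on `J₀(p)[l^k] + ℤ w`. -/
abbrev Ext (D : TorsData p l) (k : ℕ) : Type := (Fin D.G.r → ZMod (l ^ k)) × ZMod (l ^ k)

/-- Galois on `J₀(p)[l^k] + ℤ w`. -/
def Root.act : Γℚ →* AddMonoid.End (Ext D k) where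
  toFun σ :=
    { toFun := fun x => (galMod D k σ *ᵥ x.1 + x.2 • R.c σ, x.2)
      map_zero' := by simp
      map_add' := fun x y => by
        refine Prod.ext ?_ rfl
        show galMod D k σ *ᵥ (x.1 + y.1) + (x.2 + y.2) • R.c σ = _
        rw [Matrix.mulVec_add, add_smul]
        exact add_add_add_comm _ _ _ _ }
  map_one' := by
    refine AddMonoidHom.ext fun x => Prod.ext ?_ rfl
    show galMod D k 1 *ᵥ x.1 + x.2 • R.c 1 = x.1
    rw [map_one, Matrix.one_mulVec, R.c_one, smul_zero, add_zero]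
  map_mul' σ τ := by
    refine AddMonoidHom.ext fun x => Prod.ext ?_ rfl
    show galMod D k (σ * τ) *ᵥ x.1 + x.2 • R.c (σ * τ) =
      galMod D k σ *ᵥ (galMod D k τ *ᵥ x.1 + x.2 • R.c τ) + x.2 • R.c σ
    rw [R.c_mul, map_mul, ← Matrix.mulVec_mulVec, Matrix.mulVec_add, Matrix.mulVec_smul, smul_add]
    abel

theorem Root.act_apply (σ : Γℚ) (x : Ext D k) :
    R.act σ x = (galMod D k σ *ᵥ x.1 + x.2 • R.c σ, x.2) := rfl

/-- The point of `J₀(p)` with given coordinates. -/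
def Root.point (x : Ext D k) : JZero p := D.e k x.1 + x.2.val • R.w

theorem Root.point_act (σ : Γℚ) (x : Ext D k) : R.point (R.act σ x) = σ • R.point x := by
  show D.e k (galMod D k σ *ᵥ x.1 + x.2 • R.c σ) + x.2.val • R.w = _
  rw [Root.point, map_add, e_galMod, e_smul, R.e_c, smul_add, Kronecker.galois_smul_nsmul, nsmul_sub]
  abel

theorem Root.hasFlatModel (hlp : ¬ l ∣ p) : HasFlatModel l R.act := by
  have : NeZero (l ^ k) := ⟨pow_ne_zero _ (Fact.out : l.Prime).ne_zero⟩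
  obtain ⟨A, hA⟩ := GalCommon.exists_liesOverPrime (Fact.out : l.Prime)
  let : DistribMulAction Γℚ (Ext D k) := DistribMulAction.compHom _ R.act
  refine (FlatJ.exists_modelRed_jZero p l hlp A hA (l ^ k) R.point
    (AddMonoidHom.snd (Fin D.G.r → ZMod (l ^ k)) (ZMod (l ^ k)))
    (fun σ x => R.point_act σ x) (fun σ x => rfl)
    (fun x y h => ?_)
    (fun i j => (((i + j).val : ℤ) - i.val - j.val) • R.w) ?_ (fun x y => ?_)).hasModel
  · simp only [AddMonoidHom.coe_snd, Prod.mk.injEq] at h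
    obtain ⟨h1, h2⟩ := h
    rw [Root.point, Root.point, h2, add_left_inj] at h1
    exact Prod.ext (D.e_injective k h1) h2
  · intro σ i j
    obtain ⟨d, hd⟩ : (l ^ k : ℕ) ∣ ((i.val + j.val : ℕ) - (i + j).val) := by
      rw [ZMod.val_add]
      exact Nat.dvd_sub_mod _
    have hle : (i + j).val ≤ i.val + j.val := ZMod.val_add_le i j
    have e : (((i + j).val : ℤ) - i.val - j.val) = -((l ^ k * d : ℕ) : ℤ) := by
      rw [← hd, Nat.cast_sub hle]
      push_cast
      ring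
    show σ • ((((i + j).val : ℤ) - i.val - j.val) • R.w) = _
    rw [e, neg_zsmul, smul_neg, natCast_zsmul, mul_comm, mul_nsmul', Kronecker.galois_smul_nsmul,
      R.fixed]
  · show D.e k (x.1 + y.1) + (x.2 + y.2).val • R.w = _
    simp only [Root.point, map_add, AddMonoidHom.coe_snd, sub_zsmul, natCast_zsmul]
    abel

/-- The Eisenstein part with label zero. -/
def eisPart {C0 : JZero p} (I : EisIdem D C0) (k : ℕ) : AddSubgroup (Ext D k) where
  carrier := {x | (PadicInt.toZModPow k).mapMatrix I.ε *ᵥ x.1 = x.1 ∧ x.2 = 0}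
  zero_mem' := ⟨Matrix.mulVec_zero _, rfl⟩
  add_mem' := fun {a b} (ha : _ ∧ _) (hb : _ ∧ _) =>
    ⟨by rw [Prod.fst_add, Matrix.mulVec_add, ha.1, hb.1], by rw [Prod.snd_add, ha.2, hb.2, add_zero]⟩
  neg_mem' := fun {a} (ha : _ ∧ _) =>
    ⟨by rw [Prod.fst_neg, Matrix.mulVec_neg, ha.1], by rw [Prod.snd_neg, ha.2, neg_zero]⟩

theorem cycMod_one_eq {σ : Γℚ} {ζ : Qb} (hζ : IsPrimitiveRoot ζ l) {a : ℕ} (ha : σ ζ = ζ ^ a) :
    cycMod l 1 σ = a := by
  refine cycMod_eq_of_spec 1 σ fun ξ hξ => ?_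
  rw [pow_one] at hξ
  have : NeZero l := ⟨(Fact.out : l.Prime).ne_zero⟩
  obtain ⟨i, -, rfl⟩ := hζ.eq_pow_of_pow_eq_one hξ
  rw [map_pow, ha, ← pow_mul, ← pow_mul, mul_comm]

variable {C0 : JZero p} (I : EisIdem D C0)

/-- On the Eisenstein part every `σ` has eigenvalues `1` and `χ(σ)` modulo `l`. -/
theorem isNilpotent_quad_one (σ : Γℚ) :
    IsNilpotent ((galMod D 1 σ - 1) *
      (galMod D 1 σ - algebraMap (ZMod (l ^ 1)) _ (cycMod l 1 σ)) *
      (PadicInt.toZModPow 1).mapMatrix I.ε) := by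
  obtain ⟨L₁, hL₁, hfix₁⟩ := D.G.continuous_level 1
  obtain ⟨L₂, hL₂, hfix₂⟩ := exists_level_cycMod (p := l) 1
  set e := (PadicInt.toZModPow 1).mapMatrix I.ε
  refine forall_of_frobenius (P := fun g => IsNilpotent ((galMod D 1 g - 1) *
    (galMod D 1 g - algebraMap (ZMod (l ^ 1)) _ (cycMod l 1 g)) * e)) (L₁ ⊔ L₂) {p, l} ?_ ?_ ?_ σ
  · intro g u hu h
    have h1 : galMod D 1 u = 1 := hfix₁ u fun x hx => hu x (le_sup_left (b := L₂) hx)
    have h2 : cycMod l 1 u = 1 := hfix₂ u fun x hx => hu x (le_sup_right (a := L₁) hx)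
    rwa [map_mul, map_mul, h1, h2, mul_one, mul_one]
  · intro g n h
    set X := galMod D 1 g
    set d := cycMod l 1 g
    obtain ⟨Q₁, hQ₁⟩ := sub_dvd_pow_sub_pow (Polynomial.X : Polynomial (ZMod (l ^ 1))) 1 n
    obtain ⟨Q₂, hQ₂⟩ :=
      sub_dvd_pow_sub_pow (Polynomial.X : Polynomial (ZMod (l ^ 1))) (Polynomial.C d) n
    have hce : ∀ Q : Polynomial (ZMod (l ^ 1)), Commute (Polynomial.aeval X Q) e := by
      intro Q
      induction Q using Polynomial.induction_on' with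
      | add P Q hP hQ => rw [map_add]; exact hP.add_left hQ
      | monomial i a =>
        rw [Polynomial.aeval_monomial]
        exact (Algebra.commute_algebraMap_left a e).mul_left (((I.comm_galois g).map
          (PadicInt.toZModPow 1).mapMatrix).pow_left i)
    have key : (galMod D 1 (g ^ n) - 1) *
        (galMod D 1 (g ^ n) - algebraMap (ZMod (l ^ 1)) _ (cycMod l 1 (g ^ n))) * e =
        ((X - 1) * (X - algebraMap (ZMod (l ^ 1)) _ d) * e) * Polynomial.aeval X (Q₁ * Q₂) := by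
      have e1 : Polynomial.aeval X ((Polynomial.X ^ n - 1 ^ n) *
          (Polynomial.X ^ n - Polynomial.C d ^ n)) =
          (galMod D 1 (g ^ n) - 1) *
            (galMod D 1 (g ^ n) - algebraMap (ZMod (l ^ 1)) _ (cycMod l 1 (g ^ n))) := by
        rw [map_mul, map_sub, map_sub, map_pow, map_pow, map_pow, Polynomial.aeval_X,
          Polynomial.aeval_C, map_one, one_pow, map_pow, map_pow, map_pow]
      rw [← e1, hQ₁, hQ₂, mul_mul_mul_comm, map_mul, map_mul, map_sub, map_sub, Polynomial.aeval_X,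
        map_one, Polynomial.aeval_C, mul_assoc, (hce _).eq, ← mul_assoc]
    rw [key]
    refine Commute.isNilpotent_mul_right ?_ h
    refine Commute.mul_left ?_ (hce _).symm
    have e2 : (X - 1) * (X - algebraMap (ZMod (l ^ 1)) _ d) =
        Polynomial.aeval X ((Polynomial.X - 1) * (Polynomial.X - Polynomial.C d)) := by
      simp
    rw [e2, Commute, SemiconjBy, ← map_mul, ← map_mul, mul_comm]
  · intro ℓ hℓ hℓS A hA F hF
    simp only [Finset.mem_insert, Finset.mem_singleton, not_or] at hℓS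
    have hℓp : ¬ ℓ ∣ p := fun h => hℓS.1 ((Nat.prime_dvd_prime_iff_eq hℓ Fact.out).1 h)
    have hc : cycMod l 1 F = (ℓ : ZMod (l ^ 1)) := by
      show PadicInt.toZModPow 1 (cyc l F) = _
      rw [cyc_frobenius hℓ hℓS.2 hA hF, map_natCast]
    obtain ⟨n, hn⟩ := I.nilpotent ℓ hℓ hℓp
    have h0 := congrArg (PadicInt.toZModPow 1).mapMatrix
      (D.G.frobenius_rel ℓ hℓ hℓp hℓS.2 A hA F hF)
    simp only [map_add, map_sub, map_mul, map_zero, map_natCast] at h0
    set X := galMod D 1 F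
    set T := (PadicInt.toZModPow 1).mapMatrix
      ((Int.castRingHom ℤ_[l]).mapMatrix (D.G.τ (heckeTOf hℓ hℓp)))
    have h0' : X * X - T * X + (ℓ : Matrix _ _ (ZMod (l ^ 1))) = 0 := h0
    rw [map_mul, map_sub, map_natCast] at hn
    have hTX : Commute X T := (D.G.commute_hecke F _).map (PadicInt.toZModPow 1).mapMatrix
    have hcX : Commute ((T - ((1 + ℓ : ℕ) : Matrix _ _ (ZMod (l ^ 1)))) * e) X :=
      ((hTX.sub_right (Nat.cast_commute _ X).symm).mul_right
        ((I.comm_galois F).map (PadicInt.toZModPow 1).mapMatrix)).symm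
    have key : (X - 1) * (X - algebraMap (ZMod (l ^ 1)) _ (cycMod l 1 F)) * e =
        ((T - ((1 + ℓ : ℕ) : Matrix _ _ (ZMod (l ^ 1)))) * e) * X := by
      have hXX : X * X = T * X - (ℓ : Matrix _ _ (ZMod (l ^ 1))) := by
        rw [← sub_eq_zero, ← h0']; abel
      have hexp : (X - 1) * (X - (ℓ : Matrix _ _ (ZMod (l ^ 1)))) =
          (T - ((1 + ℓ : ℕ) : Matrix _ _ (ZMod (l ^ 1)))) * X := by
        rw [sub_mul, mul_sub, one_mul, hXX, sub_mul, (Nat.cast_commute ℓ X).symm.eq, Nat.cast_add,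
          Nat.cast_one, add_mul, one_mul]
        abel
      rw [hc, map_natCast, hexp, mul_assoc, mul_assoc]
      exact congrArg _ ((I.comm_galois F).map (PadicInt.toZModPow 1).mapMatrix).eq
    rw [key]
    exact hcX.isNilpotent_mul_right ⟨n, hn⟩

/-- The same modulo `l ^ k`. -/
theorem isNilpotent_quad (k : ℕ) {σ : Γℚ} {ζ : Qb} (hζ : IsPrimitiveRoot ζ l) {a : ℕ}
    (ha : σ ζ = ζ ^ a) :
    IsNilpotent ((galMod D k σ - 1) * (galMod D k σ - (a : Matrix _ _ (ZMod (l ^ k)))) *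
      (PadicInt.toZModPow k).mapMatrix I.ε) := by
  obtain ⟨n, hn⟩ := isNilpotent_quad_one I σ
  rw [cycMod_one_eq hζ ha, map_natCast] at hn
  set X := (D.G.M σ - 1) * (D.G.M σ - (a : Matrix _ _ ℤ_[l])) * I.ε
  have h1 : (PadicInt.toZModPow 1).mapMatrix (X ^ n) = 0 := by
    rw [map_pow, map_mul, map_mul, map_sub, map_sub, map_one, map_natCast]
    exact hn
  have hdiv : ∀ i j, ∃ y, (X ^ n) i j = (l : ℤ_[l]) * y := fun i j => by
    have h2 := congrFun (congrFun h1 i) j
    have h3 : (X ^ n) i j ∈ RingHom.ker (PadicInt.toZModPow (p := l) 1) := h2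
    rw [PadicInt.ker_toZModPow, pow_one, Ideal.mem_span_singleton] at h3
    exact h3
  choose Y hY using hdiv
  have hXY : X ^ n = (l : ℤ_[l]) • Matrix.of Y := Matrix.ext fun i j => hY i j
  refine ⟨n * k, ?_⟩
  rw [show (galMod D k σ - 1) * (galMod D k σ - (a : Matrix _ _ (ZMod (l ^ k)))) *
      (PadicInt.toZModPow k).mapMatrix I.ε = (PadicInt.toZModPow k).mapMatrix X by
    rw [map_mul, map_mul, map_sub, map_sub, map_one, map_natCast]; rfl,
    ← map_pow, pow_mul, hXY, _root_.smul_pow]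
  ext i j
  rw [RingHom.mapMatrix_apply, Matrix.map_apply, Matrix.smul_apply, smul_eq_mul, map_mul, map_pow,
    map_natCast, ← Nat.cast_pow, ZMod.natCast_self, zero_mul]
  rfl

theorem Root.act_eq_of_inertia {q : ℕ} (hq : q.Prime) (hqp : ¬ q ∣ p) (hql : q ≠ l)
    {A : ValuationSubring Qb} (hA : A.LiesOverPrime q) {σ : Γℚ}
    (hσ : σ ∈ A.inertiaSubgroupIn ℚ) (x : Ext D k) : R.act σ x = x := by
  have hM : galMod D k σ = 1 := by
    show (PadicInt.toZModPow k).mapMatrix (D.G.M σ) = 1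
    rw [D.G.inertia_trivial q hq hqp hql A hA σ hσ, map_one]
  have hc : R.c σ = 0 := by
    apply D.e_injective k
    rw [map_zero, R.e_c]
    have h := Kronecker.reductionInputs p hq hqp hA
    obtain ⟨g, rfl, hg⟩ := Kronecker.resAut_eq_one_of_mem_inertia hσ
    refine Kronecker.torsion_injective p hq hqp hA h (m := l ^ k)
      (fun hd => hql ((Nat.prime_dvd_prime_iff_eq hq Fact.out).1 (hq.dvd_of_dvd_pow hd))) ?_ ?_
    · rw [nsmul_sub, ← Kronecker.galois_smul_nsmul, R.fixed, sub_self]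
    · rw [map_sub, Kronecker.reductionModL_smul h, hg, map_one, one_smul, sub_self]
  rw [R.act_apply, hM, hc, Matrix.one_mulVec, smul_zero, add_zero]

/-- **A root fixed by inertia at `p` and by complex conjugation is rational.** -/
theorem Root.fixed_of_local (hlp : l ≠ p)
    (hc : ∀ σ, (PadicInt.toZModPow k).mapMatrix I.ε *ᵥ R.c σ = R.c σ) {ξ : Ext D k}
    (hξ : (PadicInt.toZModPow k).mapMatrix I.ε *ᵥ ξ.1 = ξ.1)
    {A : ValuationSubring Qb} (hA : A.LiesOverPrime p)
    (hI : ∀ σ ∈ A.inertiaSubgroupIn ℚ, R.act σ ξ = ξ) (hcc : R.act D.G.cc ξ = ξ) :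
    ∀ σ, R.act σ ξ = ξ := by
  have hl : l.Prime := Fact.out
  have : NeZero l := ⟨hl.ne_zero⟩
  have : NeZero (l ^ k) := ⟨pow_ne_zero _ hl.ne_zero⟩
  have : NeZero (l : Qb) := ⟨Nat.cast_ne_zero.2 hl.ne_zero⟩
  obtain ⟨ζ, hζ⟩ := HasEnoughRootsOfUnity.exists_primitiveRoot Qb l
  set e := (PadicInt.toZModPow k).mapMatrix I.ε
  have hcomm : ∀ σ, Commute (galMod D k σ) e := fun σ =>
    (I.comm_galois σ).map (PadicInt.toZModPow k).mapMatrix
  refine fixed_of_nilpotent hl hζ
    (R.hasFlatModel fun h => hlp ((Nat.prime_dvd_prime_iff_eq hl Fact.out).1 h)) (eisPart I k)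
    (fun σ v hv => ⟨?_, hv.2⟩) (fun v _ => ⟨k, ?_⟩) (fun σ a ha v hv => ?_) (fun σ => ⟨?_, ?_⟩)
    (fun q hq hql => ?_) D.ι D.G.cc D.cc_spec hcc
  · show e *ᵥ (galMod D k σ *ᵥ v.1 + v.2 • R.c σ) = _
    rw [R.act_apply, hv.2, zero_smul, add_zero, Matrix.mulVec_mulVec, ← (hcomm σ).eq,
      ← Matrix.mulVec_mulVec, hv.1]
  · refine Prod.ext (funext fun j => ?_) ?_ <;>
      · show (l ^ k) • (_ : ZMod (l ^ k)) = 0
        rw [nsmul_eq_mul, ZMod.natCast_self, zero_mul]
  · obtain ⟨n, hn⟩ := isNilpotent_quad I k hζ ha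
    refine ⟨n, ?_⟩
    set Q := (galMod D k σ - 1) * (galMod D k σ - (a : Matrix _ _ (ZMod (l ^ k))))
    have hQ : ∀ u : Ext D k, u.2 = 0 →
        ((R.act σ - 1) * (R.act σ - (a : AddMonoid.End (Ext D k)))) u = (Q *ᵥ u.1, 0) := by
      intro u hu
      have h1 : ∀ (b : ℕ) (z : Ext D k), z.2 = 0 →
          (R.act σ - (b : AddMonoid.End (Ext D k))) z =
            ((galMod D k σ - (b : Matrix _ _ (ZMod (l ^ k)))) *ᵥ z.1, 0) := by
        intro b z hz
        show R.act σ z - (b : AddMonoid.End (Ext D k)) z = _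
        rw [AddMonoid.End.natCast_apply, R.act_apply, hz, zero_smul, add_zero, Matrix.sub_mulVec]
        refine Prod.ext ?_ ?_
        · show galMod D k σ *ᵥ z.1 - b • z.1 = _
          rw [← Matrix.one_mulVec (b • z.1), Matrix.mulVec_smul, ← Matrix.smul_mulVec,
            nsmul_eq_mul, mul_one]
        · show (0 : ZMod (l ^ k)) - b • z.2 = 0
          rw [hz, smul_zero, sub_zero]
      show (R.act σ - 1) ((R.act σ - (a : AddMonoid.End (Ext D k))) u) = _
      have h2 := h1 1 ((R.act σ - (a : AddMonoid.End (Ext D k))) u) (by rw [h1 a u hu])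
      rw [Nat.cast_one] at h2
      rw [h2, h1 a u hu, Nat.cast_one, Matrix.mulVec_mulVec]
    have hpow : ∀ m : ℕ, (((R.act σ - 1) * (R.act σ - (a : AddMonoid.End (Ext D k)))) ^ m) v =
        ((Q * e) ^ m *ᵥ v.1, 0) := by
      intro m
      induction m with
      | zero => rw [pow_zero, pow_zero, Matrix.one_mulVec]; exact Prod.ext rfl hv.2
      | succ m ih =>
        rw [pow_succ', pow_succ']
        show ((R.act σ - 1) * (R.act σ - (a : AddMonoid.End (Ext D k))))
          ((((R.act σ - 1) * (R.act σ - (a : AddMonoid.End (Ext D k)))) ^ m) v) = _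
        rw [ih, hQ _ rfl]
        refine Prod.ext ?_ rfl
        show Q *ᵥ ((Q * e) ^ m *ᵥ v.1) = (Q * e * (Q * e) ^ m) *ᵥ v.1
        have hQe : Commute e (Q * e) :=
          ((((hcomm σ).symm.sub_right (Commute.one_right e)).mul_right
            ((hcomm σ).symm.sub_right (Nat.cast_commute a e).symm)).mul_right (Commute.refl e))
        rw [show Q * e * (Q * e) ^ m = Q * (Q * e) ^ m * e by
          rw [mul_assoc Q e, (hQe.pow_right m).eq, ← mul_assoc],
          ← Matrix.mulVec_mulVec v.1 (Q * (Q * e) ^ m) e, hv.1, Matrix.mulVec_mulVec]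
    rw [hpow, hn, Matrix.zero_mulVec]
    rfl
  · show e *ᵥ (galMod D k σ *ᵥ ξ.1 + ξ.2 • R.c σ - ξ.1) = galMod D k σ *ᵥ ξ.1 + ξ.2 • R.c σ - ξ.1
    rw [Matrix.mulVec_sub, Matrix.mulVec_add, Matrix.mulVec_smul, hc, Matrix.mulVec_mulVec,
      ← (hcomm σ).eq, ← Matrix.mulVec_mulVec, hξ]
  · exact sub_self ξ.2
  · by_cases hqp : q = p
    · exact ⟨A, hqp ▸ hA, hI⟩
    · obtain ⟨A', hA'⟩ := GalCommon.exists_liesOverPrime hq
      exact ⟨A', hA', fun σ hσ => R.act_eq_of_inertia hq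
        (fun h => hqp ((Nat.prime_dvd_prime_iff_eq hq Fact.out).1 h)) hql hA' hσ ξ⟩

theorem eq_of_forall_toZModPow_vec {r : ℕ} {v w : Fin r → ℤ_[l]}
    (h : ∀ k i, PadicInt.toZModPow k (v i) = PadicInt.toZModPow k (w i)) : v = w :=
  funext fun i => PadicInt.ext_of_toZModPow.1 fun k => h k i

/-- The Eisenstein part of the Tate module has no nonzero vectors fixed by inertia at `p` and by
complex conjugation. -/
theorem eq_zero_of_fixed (hlp : l ≠ p) {A : ValuationSubring Qb} (hA : A.LiesOverPrime p)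
    {v : Fin D.G.r → ℤ_[l]} (hv : I.ε *ᵥ v = v)
    (hI : ∀ σ ∈ A.inertiaSubgroupIn ℚ, D.G.M σ *ᵥ v = v) (hcc : D.G.M D.G.cc *ᵥ v = v) :
    v = 0 := by
  have hfix : ∀ σ, D.G.M σ *ᵥ v = v := by
    intro σ
    refine eq_of_forall_toZModPow_vec fun k i => ?_
    let R : Root D k := ⟨0, fun τ => by rw [smul_zero, Kronecker.galois_smul_zero]⟩
    have hc : ∀ τ, R.c τ = 0 := fun τ => D.e_injective k (by
      rw [R.e_c, map_zero, Kronecker.galois_smul_zero, sub_self])
    have hred : ∀ M : Matrix (Fin D.G.r) (Fin D.G.r) ℤ_[l],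
        (PadicInt.toZModPow k).mapMatrix M *ᵥ (PadicInt.toZModPow k ∘ v) =
          PadicInt.toZModPow k ∘ (M *ᵥ v) :=
      fun M => funext fun j => ((PadicInt.toZModPow k).map_mulVec M v j).symm
    have hact : ∀ τ, D.G.M τ *ᵥ v = v →
        R.act τ (PadicInt.toZModPow k ∘ v, 0) = (PadicInt.toZModPow k ∘ v, 0) := by
      intro τ hτ
      rw [R.act_apply]
      refine Prod.ext ?_ rfl
      show (PadicInt.toZModPow k).mapMatrix (D.G.M τ) *ᵥ _ + _ = _
      rw [hred, hτ, hc, smul_zero, add_zero]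
    have h := R.fixed_of_local I hlp (fun τ => by rw [hc, Matrix.mulVec_zero])
      (ξ := (PadicInt.toZModPow k ∘ v, 0)) (by rw [hred, hv]) hA (fun τ hτ => hact τ (hI τ hτ))
      (hact _ hcc) σ
    have h2 := congrFun (congrArg Prod.fst h) i
    rw [R.act_apply] at h2
    simp only [hc, smul_zero, add_zero] at h2
    exact ((PadicInt.toZModPow k).map_mulVec (D.G.M σ) v i).trans h2
  obtain ⟨q, hqge, hq⟩ := Nat.exists_infinite_primes (max p l + 1)
  have hqp : ¬ q ∣ p := fun h => by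
    have := (Nat.prime_dvd_prime_iff_eq hq Fact.out).1 h
    omega
  have hql : q ≠ l := by omega
  obtain ⟨B, hB⟩ := GalCommon.exists_liesOverPrime hq
  obtain ⟨F, hF⟩ := GalCommon.exists_isFrobeniusAt hq hB
  have h := congrArg (fun X => X *ᵥ v) (D.G.frobenius_rel q hq hqp hql B hB F hF)
  simp only [Matrix.add_mulVec, Matrix.sub_mulVec, ← Matrix.mulVec_mulVec, hfix,
    Matrix.zero_mulVec] at h
  have hdet := Local.det_heckeT_sub_ne_zero hq hqp D.G.τ D.G.τ_injective (c := (q : ℤ) + 1)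
    (abs_of_nonneg (by positivity))
  set T := D.G.τ (heckeTOf hq hqp)
  refine Matrix.eq_zero_of_mulVec_eq_zero
    (M := (Int.castRingHom ℤ_[l]).mapMatrix (T - (((q : ℤ) + 1 : ℤ) : Matrix _ _ ℤ))) ?_ ?_
  · rw [← RingHom.map_det]
    simpa using hdet
  · rw [map_sub, Matrix.sub_mulVec, map_intCast]
    rw [sub_add_eq_add_sub, sub_eq_zero] at h
    rw [← h, Int.cast_add, Int.cast_natCast, Int.cast_one, Matrix.add_mulVec, Matrix.one_mulVec]
    abel

end FLTAgent.Mazur.Eis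

end
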