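import Fermat.Agent.Reps.Tate
import Fermat.Agent.Degen.Linear
import Fermat.Agent.Mazur.Defs

/-!
# Inputs of the Eisenstein descent

The torsion of `J₀(p)` in the coordinates of a Galois model.
-/

set_option autoImplicit false

noncomputable section

open ModularCurve Matrix CuspForm

namespace FLTAgent.Mazur.Eis

open FLTAgent.Reps AlgebraicCurve

local notation "Qb" => AlgebraicClosure ℚ
local notation "Γℚ" => (AlgebraicClosure ℚ ≃ₐ[ℚ] AlgebraicClosure ℚ)

/-- `J₀(p)[l^∞]` in the coordinates of a Galois model, with the Hecke action, complex conjugation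
and a rational isomorphism between the two eigenspaces of the latter. -/
structure TorsData (p l : ℕ) [NeZero p] [Fact l.Prime] where
  /-- The Galois model. -/
  G : GalModel p l
  /-- The points killed by `l ^ k`. -/
  e : ∀ k : ℕ, (Fin G.r → ZMod (l ^ k)) →+ JZero p
  e_injective : ∀ k, Function.Injective (e k)
  e_surjective : ∀ (k : ℕ) (x : JZero p), l ^ k • x = 0 → ∃ v, e k v = x
  e_galois : ∀ (k : ℕ) (σ : Γℚ) v,
    e k ((PadicInt.toZModPow k).mapMatrix (G.M σ) *ᵥ v) = σ • e k v
  e_hecke : ∀ (k : ℕ) (q : ℕ) (hq : q.Prime) (hqp : ¬ q ∣ p) v,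
    e k ((Int.castRingHom (ZMod (l ^ k))).mapMatrix (G.τ (heckeTOf hq hqp)) *ᵥ v) =
      heckeOperatorBar p ⟨q, hq⟩ (e k v)
  /-- The embedding for which `G.cc` is complex conjugation. -/
  ι : Qb →+* ℂ
  cc_spec : ∀ x, ι (G.cc x) = starRingEnd ℂ (ι x)
  /-- Commutes with the Hecke ring and anticommutes with complex conjugation. -/
  θ : Matrix (Fin G.r) (Fin G.r) ℤ
  θ_det : θ.det ≠ 0
  θ_comm : ∀ t : TZ p, Commute θ (G.τ t)
  θ_anti : θ.map (Int.castRingHom ℤ_[l]) * G.M G.cc =
    -(G.M G.cc * θ.map (Int.castRingHom ℤ_[l]))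

/-- The canonical torsion coordinates of `J₀(p)`. -/
theorem nonempty_torsData (p l : ℕ) [NeZero p] [Fact l.Prime] : Nonempty (TorsData p l) := by
  obtain ⟨θ, hdet, hcomm, hanti⟩ := Degen.exists_theta p
  refine ⟨{
    G := galModel p l
    e := fun k => (tors p (l ^ k)).subtype.comp (coordTors p (l ^ k)).symm.toAddMonoidHom
    e_injective := fun k => Subtype.val_injective.comp (coordTors p (l ^ k)).symm.injective
    e_surjective := fun k x hx => ?_
    e_galois := fun k σ v => ?_
    e_hecke := fun k q hq hqp v => ?_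
    ι := qbarEmb
    cc_spec := (Torsion.exists_complexConj qbarEmb).choose_spec.2
    θ := θ
    θ_det := hdet
    θ_comm := hcomm
    θ_anti := ?_ }⟩
  · have hx' : x ∈ tors p (l ^ k) := by
      rw [Pic0.mem_torsion, natCast_zsmul]
      exact hx
    exact ⟨coordTors p (l ^ k) ⟨x, hx'⟩,
      congrArg Subtype.val ((coordTors p (l ^ k)).symm_apply_apply ⟨x, hx'⟩)⟩
  · obtain ⟨y, rfl⟩ := (coordTors p (l ^ k)).surjective v
    exact ((congrArg (fun z => ((((coordTors p (l ^ k)).symm z) : tors p (l ^ k)) : JZero p))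
      (galModel_coord p l k σ y).symm).trans
        (congrArg Subtype.val ((coordTors p (l ^ k)).symm_apply_apply _))).trans
      (congrArg (fun z : tors p (l ^ k) => σ • (z : JZero p))
        ((coordTors p (l ^ k)).symm_apply_apply y).symm)
  · obtain ⟨y, rfl⟩ := (coordTors p (l ^ k)).surjective v
    rw [← heckeGenOf_T p hq hqp]
    exact ((congrArg (fun z => ((((coordTors p (l ^ k)).symm z) : tors p (l ^ k)) : JZero p))
      (coordTors_hecke p (l ^ k) ⟨q, hq⟩ y).symm).trans
        (congrArg Subtype.val ((coordTors p (l ^ k)).symm_apply_apply _))).trans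
      (congrArg (fun z : tors p (l ^ k) => heckeOperatorBar p ⟨q, hq⟩ (z : JZero p))
        ((coordTors p (l ^ k)).symm_apply_apply y).symm)
  · have h := congrArg (Int.castRingHom ℤ_[l]).mapMatrix hanti
    rw [map_mul, map_neg, map_mul] at h
    have hJ : (Int.castRingHom ℤ_[l]).mapMatrix θ * -(Int.castRingHom ℤ_[l]).mapMatrix (HeckeH.jMat p) =
        -(-(Int.castRingHom ℤ_[l]).mapMatrix (HeckeH.jMat p) * (Int.castRingHom ℤ_[l]).mapMatrix θ) := by
      rw [mul_neg, h, neg_neg, neg_mul, neg_neg]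
    rw [galModel_cc]
    exact hJ

end FLTAgent.Mazur.Eis

end
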