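import Fermat.Agent.Mazur.Eis.Inertia
import Fermat.Agent.Torsion.Divisible
import Fermat.Agent.Kronecker.HeckeGalois

/-!
# Dividing rational points along the Eisenstein idempotent
-/

set_option autoImplicit false

noncomputable section

open ModularCurve CuspForm
open scoped Matrix Pointwise

namespace FLTAgent.Mazur.Eis

open FLTAgent.Reps

local notation "Qb" => AlgebraicClosure ℚ
local notation "Γℚ" => (AlgebraicClosure ℚ ≃ₐ[ℚ] AlgebraicClosure ℚ)

/-- The quadratic relation and `F N = p N F` force `(p² - p) N (F² - 1) = 0`. -/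
theorem mul_sq_sub_one_eq_zero {R : Type*} [Ring R] {F N a : R} {p : ℕ}
    (hq : F * F - a * F + (p : R) = 0) (hFN : F * N = (p : R) * (N * F)) (ha : Commute a N) :
    ((p : R) * p - p) * (N * (F * F - 1)) = 0 := by
  have hc : ∀ x : R, x * (p : R) = (p : R) * x := fun x => (Nat.cast_commute p x).symm.eq
  have h1 : (p : R) * (N * (F * F - a * F + (p : R))) = 0 := by rw [hq, mul_zero, mul_zero]
  have h2 : (F * F - a * F + (p : R)) * N = 0 := by rw [hq, zero_mul]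
  have hFFN : F * F * N = (p : R) * ((p : R) * (N * F * F)) := by
    rw [mul_assoc, hFN, ← mul_assoc F, hc F, mul_assoc, ← mul_assoc F N, hFN, mul_assoc, mul_assoc]
  have haFN : a * F * N = (p : R) * (N * (a * F)) := by
    rw [mul_assoc, hFN, ← mul_assoc a, hc a, mul_assoc, ← mul_assoc a N, ha.eq, mul_assoc]
  rw [add_mul, sub_mul, hFFN, haFN] at h2
  calc ((p : R) * p - p) * (N * (F * F - 1))
      = ((p : R) * ((p : R) * (N * F * F)) - (p : R) * (N * (a * F)) + (p : R) * N) -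
          (p : R) * (N * (F * F - a * F + (p : R))) := by
        rw [mul_add N, mul_sub N, hc N]
        noncomm_ring
    _ = 0 := by rw [h1, h2, sub_zero]

theorem sum_pow_one_add {R : Type*} [Ring R] {N : R} (hN : N * N = 0) (n : ℕ) :
    (1 + N) ^ n = 1 + (n : R) * N := by
  induction n with
  | zero => simp
  | succ n ih =>
    rw [pow_succ, ih, mul_add, mul_one, add_mul, one_mul, mul_assoc, hN, mul_zero, add_zero,
      Nat.cast_succ, add_mul, one_mul]
    abel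

variable {p l : ℕ} [Fact p.Prime] [Fact l.Prime] {D : TorsData p l} {k : ℕ}

theorem natCast_mulVec {r k : ℕ} (n : ℕ) (x : Fin r → ZMod (l ^ k)) :
    (n : Matrix (Fin r) (Fin r) (ZMod (l ^ k))) *ᵥ x = n • x := by
  conv_rhs => rw [← Matrix.one_mulVec x, ← Matrix.smul_mulVec, nsmul_eq_mul, mul_one]

theorem Root.c_pow (R : Root D k) {i : Γℚ}
    (hN : (galMod D k i - 1) * (galMod D k i - 1) = 0) (n : ℕ) :
    R.c (i ^ n) = n • R.c i + n.choose 2 • ((galMod D k i - 1) *ᵥ R.c i) := by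
  induction n with
  | zero => simp [R.c_one]
  | succ n ih =>
    set N := galMod D k i - 1 with hNdef
    have hG : galMod D k i = 1 + N := by rw [hNdef, add_sub_cancel]
    rw [pow_succ', R.c_mul, ih, hG, Matrix.add_mulVec, Matrix.one_mulVec, Matrix.mulVec_add,
      Matrix.mulVec_smul, Matrix.mulVec_smul, Matrix.mulVec_mulVec, hN, Matrix.zero_mulVec,
      smul_zero, add_zero, Nat.choose_succ_succ, Nat.choose_one_right, add_nsmul, add_nsmul,
      one_nsmul]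
    abel

variable {C0 : JZero p} (I : EisIdem D C0) {A : ValuationSubring (AlgebraicClosure ℚ)}

/-- The arithmetic heart: on a deep enough root, a fixed multiple is rational. -/
theorem Root.exists_fixed_point (hlp : l ≠ p) (hA : A.LiesOverPrime p) {F i₀ : Γℚ}
    (hF : A.IsFrobeniusAt F p) (hi₀ : i₀ ∈ A.inertiaSubgroupIn ℚ) (R : Root D k)
    (hc : ∀ σ, (PadicInt.toZModPow k).mapMatrix I.ε *ᵥ R.c σ = R.c σ)
    (hgen : ∀ i ∈ A.inertiaSubgroupIn ℚ,
      R.act.toHomUnits i ∈ Subgroup.zpowers (R.act.toHomUnits i₀))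
    (hfrob : R.act (F * i₀ * F⁻¹) = R.act (i₀ ^ p)) {s : ℕ}
    (hXY : ∃ X Y : Matrix (Fin D.G.r) (Fin D.G.r) ℤ_[l],
      (s : ℤ_[l]) • I.ε = X * (D.G.M i₀ - 1) + (D.G.M i₀ - 1) * Y)
    (hUP : ∃ U P : Matrix (Fin D.G.r) (Fin D.G.r) ℤ_[l], (s : ℤ_[l]) • I.ε = U + P ∧
      (D.G.M i₀ - 1) * U = 0 ∧ D.G.M D.G.cc * P = P ∧ I.ε * U = U ∧ I.ε * P = P) :
    ∃ x : Ext D k, x.2 = ((2 * s * (s * ((p * p - p) * (p * p - 1))) : ℕ) : ZMod (l ^ k)) ∧
      ∀ σ : Γℚ, σ • R.point x = R.point x := by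
  set red := (PadicInt.toZModPow (p := l) k).mapMatrix (m := Fin D.G.r) with hred
  set N := galMod D k i₀ - 1 with hNdef
  set Fm := galMod D k F
  set e := red I.ε
  have hNN : N * N = 0 := sq_galMod hlp hA hi₀ k
  have hcomm : ∀ σ, Commute (galMod D k σ) e := fun σ => (I.comm_galois σ).map red
  have hNe : Commute N e := (hcomm i₀).sub_left (Commute.one_left _)
  -- conjugation by Frobenius
  have hconj : galMod D k (F * i₀ * F⁻¹) = 1 + (p : Matrix _ _ (ZMod (l ^ k))) * N ∧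
      R.c (F * i₀ * F⁻¹) = p • R.c i₀ + p.choose 2 • (N *ᵥ R.c i₀) := by
    constructor
    · rw [← sum_pow_one_add hNN, hNdef, add_sub_cancel, ← map_pow]
      refine Matrix.ext_of_mulVec_single fun a => ?_
      have h2 := congrArg Prod.fst
        (DFunLike.congr_fun hfrob ((Pi.single a 1, 0) : Ext D k))
      rw [R.act_apply, R.act_apply] at h2
      simpa only [zero_smul, add_zero] using h2
    · have h2 := congrArg Prod.fst (DFunLike.congr_fun hfrob ((0, 1) : Ext D k))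
      rw [R.act_apply, R.act_apply] at h2
      simp only [Matrix.mulVec_zero, one_smul, zero_add] at h2
      rw [h2, R.c_pow (sq_galMod hlp hA hi₀ k)]
  have hFN : Fm * N = (p : Matrix _ _ (ZMod (l ^ k))) * (N * Fm) := by
    have h1 : Fm * galMod D k i₀ = (1 + (p : Matrix _ _ (ZMod (l ^ k))) * N) * Fm := by
      rw [← hconj.1, ← map_mul, ← map_mul]
      congr 1
      group
    rw [hNdef, mul_sub, h1, add_mul, one_mul, mul_one, mul_assoc, add_sub_cancel_left]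
  set c := R.c i₀
  obtain ⟨b, hbdef⟩ : ∃ b, b = p • R.c F + p.choose 2 • c := ⟨_, rfl⟩
  have hFc : (Fm - (p : Matrix _ _ (ZMod (l ^ k)))) *ᵥ c = N *ᵥ b := by
    have h1 : R.c (F * i₀) = Fm *ᵥ c + R.c F := R.c_mul F i₀
    have h2 : R.c (F * i₀) = galMod D k (F * i₀ * F⁻¹) *ᵥ R.c F + R.c (F * i₀ * F⁻¹) := by
      rw [← R.c_mul, inv_mul_cancel_right]
    rw [h1, hconj.1, hconj.2, Matrix.add_mulVec, Matrix.one_mulVec, ← Matrix.mulVec_mulVec,
      natCast_mulVec] at h2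
    rw [Matrix.sub_mulVec, natCast_mulVec, hbdef, Matrix.mulVec_add, Matrix.mulVec_smul,
      Matrix.mulVec_smul, sub_eq_iff_eq_add]
    refine add_right_cancel (b := R.c F) (h2.trans ?_)
    abel
  -- multiply by `F + p`
  have hF2 : (Fm * Fm - ((p * p : ℕ) : Matrix _ _ (ZMod (l ^ k)))) *ᵥ c =
      N *ᵥ (p • (Fm *ᵥ b) + p • b) := by
    have e1 : Fm * Fm - ((p * p : ℕ) : Matrix _ _ (ZMod (l ^ k))) =
        (Fm + (p : Matrix _ _ (ZMod (l ^ k)))) * (Fm - (p : Matrix _ _ (ZMod (l ^ k)))) := by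
      rw [add_mul, mul_sub, mul_sub, (Nat.cast_commute p Fm).eq, Nat.cast_mul]
      abel
    rw [e1, ← Matrix.mulVec_mulVec, hFc, Matrix.add_mulVec, natCast_mulVec, Matrix.mulVec_mulVec,
      hFN, ← Matrix.mulVec_mulVec, natCast_mulVec, ← Matrix.mulVec_mulVec]
    simp only [Matrix.mulVec_add, Matrix.mulVec_smul]
  -- the quadratic relation
  have hquad : Fm * Fm - red (Local.traceOp D.G.M F) * Fm + (p : Matrix _ _ (ZMod (l ^ k))) = 0 := by
    have h := congrArg red (Local.quadratic_traceOp D.G.M F)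
    rw [cyc_frobenius (Fact.out : p.Prime) hlp.symm hA hF, Nat.cast_smul_eq_nsmul, nsmul_eq_mul,
      mul_one, map_zero, map_add, map_sub, map_mul, map_mul, map_natCast] at h
    exact h
  have haN : Commute (red (Local.traceOp D.G.M F)) N :=
    (((Local.commute_galois_traceOp D.G F i₀).map red).symm).sub_right (Commute.one_right _)
  have hkill := mul_sq_sub_one_eq_zero hquad hFN haN
  have hec : e *ᵥ c = c := hc i₀
  obtain ⟨x, hxdef⟩ : ∃ x, x = (p * p - p) • ((Fm * Fm - 1) *ᵥ c) := ⟨_, rfl⟩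
  have hNx : N *ᵥ x = 0 := by
    have h1 := congrArg (· *ᵥ c) hkill
    rw [show ((p : Matrix (Fin D.G.r) (Fin D.G.r) (ZMod (l ^ k))) * p - p) =
        ((p * p - p : ℕ) : Matrix (Fin D.G.r) (Fin D.G.r) (ZMod (l ^ k))) by
      rw [Nat.cast_sub (Nat.le_mul_self p), Nat.cast_mul]] at h1
    simp only [← Matrix.mulVec_mulVec, natCast_mulVec, Matrix.zero_mulVec] at h1
    rw [hxdef, Matrix.mulVec_smul]
    exact h1
  have hex : e *ᵥ x = x := by
    have h1 : Commute (Fm * Fm - 1) e :=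
      (((hcomm F).mul_left (hcomm F)).sub_left (Commute.one_left _))
    rw [hxdef, Matrix.mulVec_smul, Matrix.mulVec_mulVec, ← h1.eq, ← Matrix.mulVec_mulVec, hec]
  obtain ⟨X, Y, hXY⟩ := hXY
  have hse : ∀ {U' : Matrix (Fin D.G.r) (Fin D.G.r) (ZMod (l ^ k))},
      red ((s : ℤ_[l]) • I.ε) = U' → ∀ z, U' *ᵥ z = s • (e *ᵥ z) := by
    intro U' hU z
    rw [← hU, Nat.cast_smul_eq_nsmul, map_nsmul, Matrix.smul_mulVec]
  have hsx : s • x = N *ᵥ (e *ᵥ (red Y *ᵥ x)) := by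
    have h1 : s • x = N *ᵥ (red Y *ᵥ x) := by
      have h2 := hse rfl x
      rw [hXY, map_add, map_mul, map_mul, map_sub, map_one, hex] at h2
      rw [← h2, Matrix.add_mulVec, ← Matrix.mulVec_mulVec, ← Matrix.mulVec_mulVec,
        show (red (D.G.M i₀) - 1) = N from rfl, hNx, Matrix.mulVec_zero, zero_add]
    rw [Matrix.mulVec_mulVec, hNe.eq, ← Matrix.mulVec_mulVec, ← h1, Matrix.mulVec_smul, hex]
  set m := s * ((p * p - p) * (p * p - 1))
  obtain ⟨a₀, ha₀⟩ : ∃ a₀, a₀ = e *ᵥ (red Y *ᵥ x) - (s * (p * p - p)) • (p • (Fm *ᵥ b) + p • b) :=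
    ⟨_, rfl⟩
  have heb : e *ᵥ b = b := by
    rw [hbdef, Matrix.mulVec_add, Matrix.mulVec_smul, Matrix.mulVec_smul, hc F, hec]
  have hea : e *ᵥ a₀ = a₀ := by
    rw [ha₀, Matrix.mulVec_sub, Matrix.mulVec_mulVec, show e * e = e from by
      rw [← map_mul, I.idem], Matrix.mulVec_smul, Matrix.mulVec_add, Matrix.mulVec_smul,
      Matrix.mulVec_smul, Matrix.mulVec_mulVec b e Fm, ← (hcomm F).eq,
      ← Matrix.mulVec_mulVec b Fm e, heb]
  have hNa : m • c = N *ᵥ a₀ := by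
    rw [ha₀, Matrix.mulVec_sub, ← hsx, Matrix.mulVec_smul, ← hF2, hxdef, ← mul_nsmul',
      ← smul_sub, ← Matrix.sub_mulVec, sub_sub_sub_cancel_left, Matrix.sub_mulVec, Matrix.one_mulVec,
      natCast_mulVec]
    rw [show (p * p) • c - c = (p * p - 1) • c by
      rw [sub_eq_iff_eq_add, ← succ_nsmul,
        Nat.sub_add_cancel (Nat.mul_pos (Fact.out : p.Prime).pos (Fact.out : p.Prime).pos)]]
    rw [← mul_nsmul']
    congr 1
    simp only [m]
    ring
  -- the point fixed by inertia, then also by complex conjugation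
  set ξ₁ : Ext D k := (-a₀, (m : ZMod (l ^ k))) with hξ₁def
  have hξ₁ : R.act i₀ ξ₁ = ξ₁ := by
    rw [R.act_apply]
    refine Prod.ext ?_ rfl
    show galMod D k i₀ *ᵥ (-a₀) + (m : ZMod (l ^ k)) • c = -a₀
    rw [Nat.cast_smul_eq_nsmul, hNa, hNdef, Matrix.sub_mulVec, Matrix.one_mulVec,
      Matrix.mulVec_neg]
    abel
  obtain ⟨U, P, hUPs, hNU, hccP, heU, heP⟩ := hUP
  set ξ₂ := ξ₁ + R.act D.G.cc ξ₁
  set d := ξ₁.1 - (R.act D.G.cc ξ₁).1 with hd
  have hed : e *ᵥ d = d := by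
    have he1 : e *ᵥ ξ₁.1 = ξ₁.1 := by
      show e *ᵥ (-a₀) = -a₀
      rw [Matrix.mulVec_neg, hea]
    rw [hd, Matrix.mulVec_sub, he1, R.act_apply]
    congr 1
    show e *ᵥ (galMod D k D.G.cc *ᵥ ξ₁.1 + ξ₁.2 • R.c D.G.cc) = _
    rw [Matrix.mulVec_add, Matrix.mulVec_mulVec, ← (hcomm _).eq, ← Matrix.mulVec_mulVec, he1,
      Matrix.mulVec_smul, hc]
  have hsd : red U *ᵥ d + red P *ᵥ d = s • d := by
    rw [← Matrix.add_mulVec, ← map_add, hse (congrArg red hUPs) d, hed]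
  set ξ : Ext D k := s • ξ₂ + (red P *ᵥ d, 0) with hξ
  have hξ' : ξ = (2 * s) • ξ₁ - (red U *ᵥ d, 0) := by
    refine Prod.ext ?_ ?_
    · show s • (ξ₁.1 + (R.act D.G.cc ξ₁).1) + red P *ᵥ d = (2 * s) • ξ₁.1 - red U *ᵥ d
      rw [← eq_sub_iff_add_eq'] at hsd
      rw [hsd, hd, smul_sub, smul_add, mul_nsmul', two_nsmul]
      abel
    · show s • (ξ₁.2 + ξ₁.2) + 0 = (2 * s) • ξ₁.2 - 0
      rw [add_zero, sub_zero, ← two_nsmul, ← mul_nsmul', mul_comm]
  have hcc : R.act D.G.cc ξ = ξ := by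
    have h2 : R.act D.G.cc (R.act D.G.cc ξ₁) = ξ₁ := by
      show (R.act D.G.cc * R.act D.G.cc) ξ₁ = ξ₁
      rw [← map_mul, D.G.cc_mul_self, map_one]
      rfl
    rw [hξ, map_add, map_nsmul, show R.act D.G.cc ξ₂ = ξ₂ by
      show R.act D.G.cc (ξ₁ + R.act D.G.cc ξ₁) = ξ₁ + R.act D.G.cc ξ₁
      rw [map_add, h2, add_comm]]
    congr 1
    rw [R.act_apply]
    refine Prod.ext ?_ rfl
    show galMod D k D.G.cc *ᵥ (red P *ᵥ d) + (0 : ZMod (l ^ k)) • _ = red P *ᵥ d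
    rw [zero_smul, add_zero, Matrix.mulVec_mulVec]
    exact congrArg (· *ᵥ d) ((map_mul red _ _).symm.trans (congrArg red hccP))
  have hi₀fix : R.act i₀ ξ = ξ := by
    rw [hξ', map_sub, map_nsmul, hξ₁]
    congr 1
    rw [R.act_apply]
    refine Prod.ext ?_ rfl
    show galMod D k i₀ *ᵥ (red U *ᵥ d) + (0 : ZMod (l ^ k)) • _ = red U *ᵥ d
    rw [zero_smul, add_zero, ← sub_eq_zero]
    have h1 := congrArg (· *ᵥ d) (congrArg red hNU)
    simp only [map_mul, map_sub, map_one, map_zero, Matrix.zero_mulVec, ← Matrix.mulVec_mulVec,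
      Matrix.sub_mulVec, Matrix.one_mulVec] at h1
    exact h1
  have hI : ∀ i ∈ A.inertiaSubgroupIn ℚ, R.act i ξ = ξ := by
    intro i hi
    let St : Subgroup (AddMonoid.End (Ext D k))ˣ :=
      { carrier := {u | (u : AddMonoid.End (Ext D k)) ξ = ξ}
        mul_mem' := fun {u u'} (h : _ = _) (h' : _ = _) => by
          show (u : AddMonoid.End (Ext D k)) ((u' : AddMonoid.End (Ext D k)) ξ) = ξ
          rw [h', h]
        one_mem' := rfl
        inv_mem' := fun {u} (h : _ = _) => by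
          show ((u⁻¹ : (AddMonoid.End (Ext D k))ˣ) : AddMonoid.End (Ext D k)) ξ = ξ
          conv_lhs => rw [← h]
          show (((u⁻¹ : (AddMonoid.End (Ext D k))ˣ) : AddMonoid.End (Ext D k)) *
            (u : AddMonoid.End (Ext D k))) ξ = ξ
          rw [Units.inv_mul]
          rfl }
    exact (Subgroup.zpowers_le.2 (show R.act.toHomUnits i₀ ∈ St from hi₀fix) : _ ≤ St) (hgen i hi)
  have heξ : e *ᵥ ξ.1 = ξ.1 := by
    rw [hξ']
    show e *ᵥ ((2 * s) • ξ₁.1 - red U *ᵥ d) = (2 * s) • ξ₁.1 - red U *ᵥ d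
    rw [Matrix.mulVec_sub, Matrix.mulVec_smul, hξ₁def, Matrix.mulVec_neg, hea,
      Matrix.mulVec_mulVec, ← map_mul, heU]
  refine ⟨ξ, ?_, fun σ => ?_⟩
  · rw [hξ']
    show (2 * s) • (m : ZMod (l ^ k)) - 0 = _
    rw [sub_zero, nsmul_eq_mul, ← Nat.cast_mul]
  · rw [← R.point_act, R.fixed_of_local I hlp hc heξ hA hI hcc σ]

set_option maxHeartbeats 800000 in
-- many rewrites in `JZero`, whose instances are expensive to unify
/-- **Eisenstein descent**, without choices of data. -/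
theorem exists_descent_of_data (hlp : l ≠ p) (D : TorsData p l) {C0 : JZero p}
    (hlC : l ∣ addOrderOf C0) (hord : addOrderOf C0 ≠ 0)
    (hC : ∀ q : Nat.Primes, (q : ℕ) ≠ p → heckeOperatorBar p q C0 = (1 + (q : ℤ)) • C0) :
    ∃ C : ℕ, ∀ z : JZero p, (∀ σ : Γℚ, σ • z = z) → ∀ k : ℕ,
      ∃ t ∈ heckeAdjoin p, ∃ v : JZero p, (∀ σ : Γℚ, σ • v = v) ∧
        ∃ a : ℤ, t C0 = a • C0 ∧ ¬ (l : ℤ) ∣ a ∧ l ^ C • t z = l ^ k • v := by
  have hp : p.Prime := Fact.out
  have hl : l.Prime := Fact.out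
  obtain ⟨I⟩ := exists_eisIdem D hlC hord hC
  obtain ⟨A, hA⟩ := GalCommon.exists_liesOverPrime hp
  obtain ⟨F, hF⟩ := GalCommon.exists_isFrobeniusAt hp hA
  obtain ⟨i₀, hi₀, k₀, hgen⟩ := exists_inertia_gen hlp hA hlC hord I
  obtain ⟨s, hs, hXY, hUP⟩ := exists_constants hlp hA I hi₀ fun k hk R => (hgen k hk R).1
  set Cc := 2 * s * (s * ((p * p - p) * (p * p - 1))) with hCc
  have hCc0 : Cc ≠ 0 := by
    have h2 := hp.two_le
    have h4 : p * 2 ≤ p * p := Nat.mul_le_mul_left p h2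
    have h5 : p * p - p ≠ 0 := by omega
    have h6 : p * p - 1 ≠ 0 := by omega
    simp [hCc, hs, h5, h6]
  obtain ⟨α, β, hβ, hαβ⟩ := Nat.exists_eq_pow_mul_and_not_dvd hCc0 l hl.ne_one
  refine ⟨α, fun z hz k => ?_⟩
  set k' := max k k₀
  obtain ⟨u, hu, a, ha, ha1, hεu⟩ := I.exists_pair k'
  have hcommJ : ∀ (q : Nat.Primes) (σ : Γℚ) (x : JZero p),
      heckeOperatorBar p q (σ • x) = σ • heckeOperatorBar p q x :=
    fun q σ x => Kronecker.heckeOperatorBar_galois_smul p q σ x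
  obtain ⟨w₀, hw₀⟩ := Torsion.exists_nsmul_eq_JZero (l ^ k') z
  have hwk : l ^ k' • u.1 w₀ = u.1 z := by rw [← map_nsmul, hw₀]
  let R : Root D k' := ⟨u.1 w₀, fun σ => by
    rw [hwk, ← fst_galois_smul hu hcommJ, hz]⟩
  have hc : ∀ σ, (PadicInt.toZModPow k').mapMatrix I.ε *ᵥ R.c σ = R.c σ := by
    intro σ
    obtain ⟨v, hv⟩ := D.e_surjective k' (σ • w₀ - w₀) (by
      rw [nsmul_sub, ← Kronecker.galois_smul_nsmul, hw₀, hz, sub_self])
    have hcv : R.c σ = (PadicInt.toZModPow k').mapMatrix I.ε *ᵥ v := by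
      apply D.e_injective k'
      rw [R.e_c, hεu, fst_e D hu, hv, map_sub, fst_galois_smul hu hcommJ]
    rw [hcv, Matrix.mulVec_mulVec, ← map_mul, I.idem]
  obtain ⟨hg, hfrob⟩ := hgen k' (le_max_right _ _) R
  obtain ⟨x, hx, hfix⟩ := R.exists_fixed_point I hlp hA hF hi₀ hc hg (hfrob F hF) hXY hUP
  have : NeZero (l ^ k') := ⟨pow_ne_zero _ hl.ne_zero⟩
  have hkill : l ^ k' • D.e k' x.1 = 0 := by
    rw [← map_nsmul, ← Nat.cast_smul_eq_nsmul (ZMod (l ^ k')), ZMod.natCast_self, zero_smul,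
      map_zero]
  set v₀ := R.point x + (Cc / l ^ k') • u.1 z with hv₀
  have hzfix : ∀ σ : Γℚ, σ • u.1 z = u.1 z := fun σ => by rw [← fst_galois_smul hu hcommJ, hz]
  have hmain : Cc • u.1 z = l ^ k' • v₀ := by
    have hval : x.2.val = Cc % l ^ k' := by rw [hx, ZMod.val_natCast]
    have hpt : l ^ k' • R.point x = x.2.val • u.1 z := by
      show l ^ k' • (D.e k' x.1 + x.2.val • u.1 w₀) = _
      rw [nsmul_add, hkill, zero_add, ← mul_nsmul', mul_comm (l ^ k'), mul_nsmul', hwk]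
    have e1 : l ^ k' • v₀ = x.2.val • u.1 z + (l ^ k' * (Cc / l ^ k')) • u.1 z :=
      (nsmul_add _ _ _).trans (congrArg₂ (· + ·) hpt (mul_nsmul' _ _ _).symm)
    rw [e1, ← add_nsmul, hval]
    exact congrArg (· • u.1 z) (Nat.mod_add_div Cc (l ^ k')).symm
  refine ⟨(β : Module.End ℤ (JZero p)) * u.1, mul_mem (natCast_mem _ β) (fst_mem_heckeAdjoin hu), l ^ (k' - k) • v₀, fun σ => ?_,
    β * a, ?_, ?_, ?_⟩
  · refine (Kronecker.galois_smul_nsmul p σ _ _).trans (congrArg (l ^ (k' - k) • ·) ?_)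
    exact (smul_add σ _ _).trans (congrArg₂ (· + ·) (hfix σ)
      ((Kronecker.galois_smul_nsmul p σ _ _).trans (congrArg ((Cc / l ^ k') • ·) (hzfix σ))))
  · rw [Module.End.mul_apply, Module.End.natCast_apply, ha, mul_zsmul, natCast_zsmul]
  · intro hd
    rcases (Nat.prime_iff_prime_int.1 hl).dvd_or_dvd hd with h | h
    · exact hβ (Int.natCast_dvd_natCast.1 h)
    · rw [← ZMod.intCast_zmod_eq_zero_iff_dvd, ha1] at h
      exact one_ne_zero h
  · rw [Module.End.mul_apply, Module.End.natCast_apply, ← mul_nsmul', ← hαβ, hmain, ← mul_nsmul', ← pow_add,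
      Nat.add_sub_cancel' (le_max_left k k₀)]

end FLTAgent.Mazur.Eis

end
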