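import Fermat.Agent.FlatHopf.Rat
import Fermat.Agent.EllP.Unramified
import Fermat.Agent.GalCommon.Frobenius

/-!
# Points of a finite flat group congruent modulo a place over `l`

A nonzero point of order `l` of a finite flat group scheme over `ℤ_(l)` cannot be congruent to
zero to a higher order than a primitive `l`-th root of unity is to one.
-/

set_option autoImplicit false

noncomputable section

open scoped fwdDiff Pointwise

namespace FLTAgent.Mazur.Eis

open FLTAgent.FlatHopf

local notation "Qb" => AlgebraicClosure ℚ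
local notation "Γℚ" => (AlgebraicClosure ℚ ≃ₐ[ℚ] AlgebraicClosure ℚ)

variable {l : ℕ} {A : ValuationSubring (AlgebraicClosure ℚ)}

theorem valuation_natCast_eq_one (hl : l.Prime) (hA : A.LiesOverPrime l) {n : ℕ} (hn : ¬ l ∣ n) :
    A.valuation (n : Qb) = 1 := by
  refine le_antisymm ((A.valuation_le_one_iff _).2 (natCast_mem A n)) (not_lt.1 fun h => hn ?_)
  exact (GalCommon.natCast_mem_nonunits_iff hl hA n).1 ((A.mem_nonunits_iff).2 h)

theorem algebraMap_ratLocalizedAt_mem (hl : l.Prime) (hA : A.LiesOverPrime l)
    (r : GaloisRep.ratLocalizedAt l) :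
    algebraMap (GaloisRep.ratLocalizedAt l) Qb r ∈ A := by
  have hd : ¬ l ∣ (r : ℚ).den := fun h =>
    hl.ne_one ((Nat.coprime_comm.1 r.2).eq_one_of_dvd h)
  rw [← A.valuation_le_one_iff,
    show algebraMap (GaloisRep.ratLocalizedAt l) Qb r = algebraMap ℚ Qb (r : ℚ) from rfl,
    ← Rat.num_div_den (r : ℚ), map_div₀, map_intCast, map_natCast, map_div₀,
    valuation_natCast_eq_one hl hA hd, div_one]
  exact (A.valuation_le_one_iff _).2 (intCast_mem A _)

theorem mem_of_isIntegral_ratLocalizedAt (hl : l.Prime) (hA : A.LiesOverPrime l) {y : Qb}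
    (hy : IsIntegral (GaloisRep.ratLocalizedAt l) y) : y ∈ A := by
  obtain ⟨P, hP, hPy⟩ := hy
  let f : GaloisRep.ratLocalizedAt l →+* A :=
    (algebraMap (GaloisRep.ratLocalizedAt l) Qb).codRestrict A.toSubring
      (algebraMap_ratLocalizedAt_mem hl hA)
  have : IsIntegral A y := ⟨P.map f, hP.map f, by
    rw [Polynomial.eval₂_map]
    exact hPy⟩
  obtain ⟨z, rfl⟩ := IsIntegrallyClosed.isIntegral_iff.1 this
  exact z.2

variable {G : Type} [AddCommGroup G] [Finite G] {act : Γℚ →* AddMonoid.End G}
  {H : Subalgebra (GaloisRep.ratLocalizedAt l) (G → AlgebraicClosure ℚ)}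

theorem valuation_apply_le_one (hl : l.Prime) (hH : IsOrder (galR l) act H)
    (hA : A.LiesOverPrime l) {h : G → Qb} (hh : h ∈ H) (x : G) : A.valuation (h x) ≤ 1 := by
  have := hH.finite
  exact (A.valuation_le_one_iff _).2 (mem_of_isIntegral_ratLocalizedAt hl hA
    ((IsIntegral.of_finite (GaloisRep.ratLocalizedAt l) (⟨h, hh⟩ : H)).map
      ((Pi.evalAlgHom _ (fun _ : G => Qb) x).comp H.val)))

theorem valuation_smul_le (hl : l.Prime) (hA : A.LiesOverPrime l) (r : GaloisRep.ratLocalizedAt l)
    (u : Qb) : A.valuation (r • u) ≤ A.valuation u := by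
  rw [Algebra.smul_def, map_mul]
  exact mul_le_of_le_one_left zero_le
    ((A.valuation_le_one_iff _).2 (algebraMap_ratLocalizedAt_mem hl hA r))

theorem valuation_prime_lt_one (hA : A.LiesOverPrime l) : A.valuation (l : Qb) < 1 :=
  (A.mem_nonunits_iff).1 hA

theorem valuation_prime_ne_zero (hl : l.Prime) : A.valuation (l : Qb) ≠ 0 := by
  simpa using hl.ne_zero

/-- If all translation differences by `w` at `ξ` are small, they are small everywhere. -/
theorem small_sub_everywhere (hl : l.Prime) (hH : IsOrder (galR l) act H)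
    (hA : A.LiesOverPrime l) {ξ w : G}
    (hξ : ∀ h ∈ H, A.valuation (h (ξ + w) - h ξ) ^ (l - 1) < A.valuation (l : Qb))
    {h : G → Qb} (hh : h ∈ H) (x : G) :
    A.valuation (h (x + w) - h x) ^ (l - 1) < A.valuation (l : Qb) := by
  have key : ∀ f ∈ prodSpan (Subalgebra.toSubmodule H) (Subalgebra.toSubmodule H),
      A.valuation (f (x - ξ, ξ + w) - f (x - ξ, ξ)) ^ (l - 1) < A.valuation (l : Qb) := by
    intro f hf
    induction hf using Submodule.span_induction with
    | mem f hf =>
      obtain ⟨a, ha, b, hb, rfl⟩ := hf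
      rw [← mul_sub, map_mul, mul_pow]
      exact lt_of_le_of_lt (mul_le_of_le_one_left zero_le
        (pow_le_one₀ zero_le (valuation_apply_le_one hl hH hA ha _))) (hξ b hb)
    | zero =>
      rw [Pi.zero_apply, Pi.zero_apply, sub_self, map_zero,
        zero_pow (by have := hl.two_le; omega)]
      exact pos_of_ne_zero (valuation_prime_ne_zero hl)
    | add f g _ _ hf hg =>
      rw [Pi.add_apply, Pi.add_apply, add_sub_add_comm]
      rcases le_max_iff.1 (A.valuation.map_add (f (x - ξ, ξ + w) - f (x - ξ, ξ))
        (g (x - ξ, ξ + w) - g (x - ξ, ξ))) with h1 | h1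
      · exact lt_of_le_of_lt (pow_le_pow_left₀ zero_le h1 _) hf
      · exact lt_of_le_of_lt (pow_le_pow_left₀ zero_le h1 _) hg
    | smul r f _ hf =>
      rw [Pi.smul_apply, Pi.smul_apply, ← smul_sub]
      exact lt_of_le_of_lt (pow_le_pow_left₀ zero_le (valuation_smul_le hl hA r _) _) hf
  have h1 := key _ (hH.comul h hh)
  simpa [sub_add_add_cancel, ← add_assoc] using h1

/-- If the differences by a point `w` killed by `l` are all small, then they all vanish. -/
theorem eq_zero_of_small_sub (hl : l.Prime) (hH : IsOrder (galR l) act H)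
    (hA : A.LiesOverPrime l) {w : G} (hlw : l • w = 0)
    (hsmall : ∀ h ∈ H, ∀ x, A.valuation (h (x + w) - h x) ^ (l - 1) < A.valuation (l : Qb)) :
    w = 0 := by
  classical
  have := Fintype.ofFinite G
  obtain ⟨S, hS⟩ := hH.fg
  have hSH : ∀ b ∈ insert (1 : G → Qb) S, b ∈ H := by
    intro b hb
    rcases Finset.mem_insert.1 hb with rfl | hb
    · exact one_mem H
    · show b ∈ Subalgebra.toSubmodule H
      rw [← hS]
      exact Submodule.subset_span hb
  obtain ⟨⟨h0, x0⟩, h0mem, hmax⟩ := Finset.exists_max_image
    (insert (1 : G → Qb) S ×ˢ (Finset.univ : Finset G))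
    (fun z => A.valuation (z.1 (z.2 + w) - z.1 z.2))
    ⟨(1, 0), by simp⟩
  set c := A.valuation (h0 (x0 + w) - h0 x0) with hc
  have hle : ∀ h ∈ H, ∀ x, A.valuation (h (x + w) - h x) ≤ c := by
    intro h hh x
    have hh' : h ∈ Submodule.span (GaloisRep.ratLocalizedAt l) (S : Set (G → Qb)) := by
      rw [hS]; exact hh
    induction hh' using Submodule.span_induction with
    | mem b hb => exact hmax (b, x) (by simp [Finset.mem_coe.1 hb])
    | zero => simp
    | add f g hf hg h1 h2 =>
      rw [Pi.add_apply, Pi.add_apply, add_sub_add_comm]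
      exact (A.valuation.map_add _ _).trans (max_le (h1 (by rw [hS] at hf; exact hf))
        (h2 (by rw [hS] at hg; exact hg)))
    | smul r f hf h1 =>
      rw [Pi.smul_apply, Pi.smul_apply, ← smul_sub]
      exact (valuation_smul_le hl hA r _).trans (h1 (by rw [hS] at hf; exact hf))
  by_contra hw
  have hc0 : c ≠ 0 := by
    intro hc0
    refine hw ?_
    have h1 : (0 : G) + w = 0 := hH.separates fun a ha => sub_eq_zero.1
      (A.valuation.zero_iff.1 (le_antisymm (hc0 ▸ hle a ha 0) zero_le))
    simpa using h1
  have hcl : c ^ (l - 1) < A.valuation (l : Qb) :=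
    hsmall h0 (hSH _ (Finset.mem_product.1 h0mem).1) x0
  have hc1 : c < 1 := by
    by_contra h
    exact absurd (hcl.trans (valuation_prime_lt_one hA)) (not_lt.2 (one_le_pow₀ (not_lt.1 h)))
  -- iterated differences
  have hiter : ∀ m : ℕ, ∀ h ∈ H, ∀ x, A.valuation ((fwdDiff w)^[m] h x) ≤ c ^ m := by
    intro m
    induction m with
    | zero =>
      intro h hh x
      simpa using valuation_apply_le_one hl hH hA hh x
    | succ m ih =>
      intro h hh x
      have key : ∀ f ∈ prodSpan (Subalgebra.toSubmodule H) (Subalgebra.toSubmodule H), ∀ y,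
          A.valuation ((fwdDiff w)^[m] (fun x => f (x, w) - f (x, 0)) y) ≤ c ^ (m + 1) := by
        intro f hf
        induction hf using Submodule.span_induction with
        | mem f hf =>
          obtain ⟨a, ha, b, hb, rfl⟩ := hf
          intro y
          have e : (fun x : G => a x * b w - a x * b 0) = (b w - b 0) • a := by
            funext x; simp [smul_eq_mul]; ring
          show A.valuation ((fwdDiff w)^[m] (fun x : G => a x * b w - a x * b 0) y) ≤ _
          rw [e, fwdDiff_iter_const_smul, Pi.smul_apply, smul_eq_mul, map_mul, pow_succ']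
          refine mul_le_mul' ?_ (ih a ha y)
          simpa using hle b hb 0
        | zero =>
          intro y
          have e : (fun x : G => (0 : G × G → Qb) (x, w) - (0 : G × G → Qb) (x, 0)) =
              (0 : Qb) • (1 : G → Qb) := by
            funext x; simp
          rw [e, fwdDiff_iter_const_smul]
          simp
        | add f g _ _ h1 h2 =>
          intro y
          have e : (fun x : G => (f + g) (x, w) - (f + g) (x, 0)) =
              (fun x => f (x, w) - f (x, 0)) + fun x => g (x, w) - g (x, 0) := by
            funext x; simp only [Pi.add_apply]; ring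
          rw [e, fwdDiff_iter_add, Pi.add_apply]
          exact (A.valuation.map_add _ _).trans (max_le (h1 y) (h2 y))
        | smul r f _ h1 =>
          intro y
          have e : (fun x : G => (r • f) (x, w) - (r • f) (x, 0)) =
              r • fun x => f (x, w) - f (x, 0) := by
            funext x; simp [smul_sub]
          rw [e, fwdDiff_iter_const_smul, Pi.smul_apply]
          exact (valuation_smul_le hl hA r _).trans (h1 y)
      have h1 := key _ (hH.comul h hh) x
      rw [Function.iterate_succ_apply]
      have e : fwdDiff w h = fun x : G => h (x + w) - h (x + 0) := by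
        funext x; simp [fwdDiff]
      rw [e]
      exact h1
  -- the binomial relation
  have hlt : ∀ h ∈ H, ∀ x, A.valuation (h (x + w) - h x) < c := by
    intro h hh x
    have h1 := shift_eq_sum_fwdDiff_iter (h := w) h l x
    rw [hlw, add_zero, Finset.sum_range_succ', Nat.choose_zero_right, one_nsmul,
      Function.iterate_zero, id_eq, eq_comm, add_eq_right] at h1
    obtain ⟨k, hk⟩ := Nat.exists_eq_succ_of_ne_zero hl.ne_zero
    set F : ℕ → Qb := fun i => l.choose (i + 1) • (fwdDiff w)^[i + 1] h x with hF
    have h2 : F 0 = -∑ i ∈ Finset.range k, F (i + 1) := by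
      refine eq_neg_of_add_eq_zero_right ?_
      rw [← Finset.sum_range_succ' F k]
      have : l = k + 1 := hk
      conv_lhs => rw [← this]
      exact h1
    have h3 : F 0 = (l : Qb) * (h (x + w) - h x) := by
      simp only [hF, zero_add, Nat.choose_one_right, Function.iterate_one, fwdDiff, nsmul_eq_mul]
    have h4 : A.valuation (F 0) < A.valuation (l : Qb) * c := by
      rw [h2, Valuation.map_neg]
      refine Valuation.map_sum_lt _ (mul_ne_zero (valuation_prime_ne_zero hl) hc0) fun i hi => ?_
      have hil : i + 2 ≤ l := by have := Finset.mem_range.1 hi; omega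
      show A.valuation (l.choose (i + 1 + 1) • (fwdDiff w)^[i + 1 + 1] h x) < _
      rw [nsmul_eq_mul, map_mul]
      rcases hil.lt_or_eq with hlt | heq
      · obtain ⟨d, hd⟩ := hl.dvd_choose_self (k := i + 1 + 1) (by omega) hlt
        refine lt_of_le_of_lt (mul_le_mul' (a := A.valuation ((l.choose (i + 1 + 1) : ℕ) : Qb))
          (b := A.valuation (l : Qb)) ?_ (hiter _ h hh x)) ?_
        · rw [hd, Nat.cast_mul, map_mul]
          exact mul_le_of_le_one_right zero_le ((A.valuation_le_one_iff _).2 (natCast_mem A d))
        · refine mul_lt_mul_of_pos_left ?_ (pos_of_ne_zero (valuation_prime_ne_zero hl))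
          calc c ^ (i + 1 + 1) ≤ c ^ 2 := pow_le_pow_of_le_one zero_le hc1.le (by omega)
            _ < c := by
              rw [pow_two]
              exact mul_lt_of_lt_one_left (pos_of_ne_zero hc0) hc1
      · rw [show i + 1 + 1 = l by omega, Nat.choose_self, Nat.cast_one, map_one, one_mul]
        refine lt_of_le_of_lt (hiter _ h hh x) ?_
        calc c ^ l = c ^ (l - 1) * c := by rw [← pow_succ, Nat.sub_add_cancel hl.one_le]
          _ < A.valuation (l : Qb) * c := mul_lt_mul_of_pos_right hcl (pos_of_ne_zero hc0)
    rw [h3, map_mul] at h4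
    exact lt_of_mul_lt_mul_left h4 zero_le
  exact lt_irrefl c (hlt h0 (hSH _ (Finset.mem_product.1 h0mem).1) x0)

/-- Translation by a nonzero point of order `l` moves some function at `ξ` by at least
`ζ_l - 1`. -/
theorem exists_valuation_sub_ge (hl : l.Prime) (hH : IsOrder (galR l) act H)
    (hA : A.LiesOverPrime l) (ξ : G) {w : G} (hw : w ≠ 0) (hlw : l • w = 0) :
    ∃ h ∈ H, A.valuation (l : Qb) ≤ A.valuation (h (ξ + w) - h ξ) ^ (l - 1) := by
  by_contra hne
  push Not at hne
  exact hw (eq_zero_of_small_sub hl hH hA hlw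
    fun h hh x => small_sub_everywhere hl hH hA hne hh x)

/-- The action on a group with a flat model factors through a number field. -/
theorem exists_galois_act_eq (hH : IsOrder (galR l) act H) :
    ∃ L : IntermediateField ℚ Qb, FiniteDimensional ℚ L ∧ IsGalois ℚ L ∧
      ∀ τ ∈ L.fixingSubgroup, ∀ x : G, act τ x = x := by
  classical
  have := Fintype.ofFinite G
  obtain ⟨S, hS⟩ := hH.fg
  set V : Finset Qb := (S ×ˢ (Finset.univ : Finset G)).image fun z => z.1 z.2
  set F := IntermediateField.adjoin ℚ (V : Set Qb)
  have : FiniteDimensional ℚ F :=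
    IntermediateField.finiteDimensional_adjoin fun x _ => Algebra.IsIntegral.isIntegral x
  set L := IntermediateField.normalClosure ℚ F Qb with hL
  have : Normal ℚ L := normalClosure.normal ℚ _ Qb
  have : IsGalois ℚ L := ⟨⟩
  refine ⟨L, inferInstance, inferInstance, fun τ hτ x => hH.separates fun a ha => ?_⟩
  rw [hH.equivariant a ha τ x]
  show τ (a x) = a x
  have ha' : a ∈ Submodule.span (GaloisRep.ratLocalizedAt l) (S : Set (G → Qb)) := by
    rw [hS]; exact ha
  clear ha
  induction ha' using Submodule.span_induction with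
  | mem b hb =>
    refine (IntermediateField.mem_fixingSubgroup_iff _ _).1 hτ _
      (IntermediateField.le_normalClosure F (IntermediateField.subset_adjoin _ _ ?_))
    exact Finset.mem_image.2 ⟨(b, x), by simp [Finset.mem_coe.1 hb], rfl⟩
  | zero => simp
  | add _ _ _ _ h1 h2 => rw [Pi.add_apply, map_add, h1, h2]
  | smul r f _ h1 =>
    rw [Pi.smul_apply]
    show galR l τ (r • f x) = r • f x
    rw [Algebra.smul_def, map_mul, (galR l τ).commutes]
    exact congrArg _ h1

end FLTAgent.Mazur.Eis

end
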