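import Fermat.Agent.Mazur.Eis.Data
import Mathlib.RingTheory.Ideal.IdempotentFG

/-!
# The Eisenstein idempotent on the `l`-adic Tate module
-/

set_option autoImplicit false

noncomputable section

open ModularCurve Matrix CuspForm

namespace FLTAgent.Mazur.Eis

open FLTAgent.Reps

local notation "Qb" => AlgebraicClosure ℚ
local notation "Γℚ" => (AlgebraicClosure ℚ ≃ₐ[ℚ] AlgebraicClosure ℚ)

/-- In a finite commutative ring, an idempotent which is `1` modulo an ideal and kills its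
nilpotent part. -/
theorem exists_idem_of_finite {B : Type*} [CommRing B] [Finite B] (m : Ideal B) :
    ∃ e : B, e * e = e ∧ 1 - e ∈ m ∧ ∀ x ∈ m, IsNilpotent (x * e) := by
  have : IsNoetherianRing B := isNoetherian_of_finite B B
  obtain ⟨i, j, hij, hm⟩ : ∃ i j : ℕ, i < j ∧ m ^ i = m ^ j := by
    have : Finite (Ideal B) := Finite.of_injective (fun I : Ideal B => (I : Set B))
      SetLike.coe_injective
    obtain ⟨i, j, hne, h⟩ := Finite.exists_ne_map_eq_of_infinite (fun n : ℕ => m ^ n)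
    rcases Nat.lt_or_gt_of_ne hne with h' | h'
    · exact ⟨i, j, h', h⟩
    · exact ⟨j, i, h', h.symm⟩
  have hstep : m ^ i = m ^ (i + 1) :=
    le_antisymm (hm.le.trans (Ideal.pow_le_pow_right hij)) (Ideal.pow_le_pow_right (Nat.le_succ i))
  have hstable : ∀ d : ℕ, m ^ (i + d) = m ^ i := by
    intro d
    induction d with
    | zero => rfl
    | succ d ih => rw [← add_assoc, pow_succ, ih, ← pow_succ, ← hstep]
  set M := m ^ (i + 1)
  have hidem : IsIdempotentElem M := by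
    show m ^ (i + 1) * m ^ (i + 1) = m ^ (i + 1)
    rw [← pow_add, show i + 1 + (i + 1) = i + (i + 2) by ring, hstable, hstep]
  obtain ⟨e, he, hMe⟩ := (Ideal.isIdempotentElem_iff_of_fg M (IsNoetherian.noetherian M)).1 hidem
  have heM : e ∈ M := hMe ▸ Ideal.mem_span_singleton_self e
  refine ⟨1 - e, he.one_sub, ?_, fun x hx => ⟨i + 1, ?_⟩⟩
  · rw [sub_sub_cancel]
    exact Ideal.pow_le_self (Nat.succ_ne_zero i) heM
  · obtain ⟨y, hy⟩ := Ideal.mem_span_singleton'.1 (hMe ▸ Ideal.pow_mem_pow hx (i + 1) :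
      x ^ (i + 1) ∈ Submodule.span B {e})
    rw [mul_pow, he.one_sub.pow_succ_eq, ← hy, mul_assoc, mul_sub, mul_one, he.eq, sub_self,
      mul_zero]

/-- The Newton iterate towards an idempotent. -/
def idemStep {R : Type*} [CommRing R] (x : R) : R := x ^ 2 * (3 - 2 * x)

variable {p l : ℕ} [Fact p.Prime] [Fact l.Prime]

/-- Pairs of a Hecke operator on `J₀(p)` and the element of the Hecke ring it comes from. -/
def heckePairs (p : ℕ) [NeZero p] : Subring (Module.End ℤ (JZero p) × TZ p) :=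
  Subring.closure {u | ∃ (q : ℕ) (hq : q.Prime) (hqp : ¬ q ∣ p),
    u = (heckeOperatorBar p ⟨q, hq⟩, heckeTOf hq hqp)}

theorem fst_mem_heckeAdjoin {u : Module.End ℤ (JZero p) × TZ p} (hu : u ∈ heckePairs p) :
    u.1 ∈ heckeAdjoin p := by
  induction hu using Subring.closure_induction with
  | mem u hu =>
    obtain ⟨q, hq, hqp, rfl⟩ := hu
    exact Algebra.subset_adjoin ⟨⟨q, hq⟩, rfl⟩
  | zero => exact zero_mem _
  | one => exact one_mem _
  | add _ _ _ _ h1 h2 => exact add_mem h1 h2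
  | neg _ _ h => exact neg_mem h
  | mul _ _ _ _ h1 h2 => exact mul_mem h1 h2

theorem fst_galois_smul {u : Module.End ℤ (JZero p) × TZ p} (hu : u ∈ heckePairs p)
    (hcomm : ∀ (q : Nat.Primes) (σ : Γℚ) (x : JZero p),
      heckeOperatorBar p q (σ • x) = σ • heckeOperatorBar p q x) (σ : Γℚ) (x : JZero p) :
    u.1 (σ • x) = σ • u.1 x := by
  induction hu using Subring.closure_induction generalizing x with
  | mem u hu =>
    obtain ⟨q, hq, hqp, rfl⟩ := hu
    exact hcomm ⟨q, hq⟩ σ x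
  | zero =>
    show (0 : JZero p) = σ • (0 : JZero p)
    exact (smul_zero (A := JZero p) σ).symm
  | one => rfl
  | add _ _ _ _ h1 h2 => exact (congrArg₂ (· + ·) (h1 x) (h2 x)).trans (smul_add σ _ _).symm
  | neg _ _ h => exact (congrArg Neg.neg (h x)).trans (smul_neg σ _).symm
  | mul u v _ _ h1 h2 =>
    show u.1 (v.1 (σ • x)) = σ • u.1 (v.1 x)
    rw [h2, h1]

variable (D : TorsData p l)

theorem fst_e {u : Module.End ℤ (JZero p) × TZ p} (hu : u ∈ heckePairs p) (k : ℕ)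
    (v : Fin D.G.r → ZMod (l ^ k)) :
    D.e k ((Int.castRingHom (ZMod (l ^ k))).mapMatrix (D.G.τ u.2) *ᵥ v) = u.1 (D.e k v) := by
  induction hu using Subring.closure_induction generalizing v with
  | mem u hu =>
    obtain ⟨q, hq, hqp, rfl⟩ := hu
    exact D.e_hecke k q hq hqp v
  | zero => rw [Prod.snd_zero, map_zero, map_zero, Matrix.zero_mulVec, map_zero]; rfl
  | one => rw [Prod.snd_one, map_one, map_one, Matrix.one_mulVec]; rfl
  | add u u' _ _ h1 h2 =>
    rw [Prod.snd_add, map_add, map_add, Matrix.add_mulVec, map_add, h1, h2]; rfl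
  | neg u _ h1 => rw [Prod.snd_neg, map_neg, map_neg, Matrix.neg_mulVec, map_neg, h1]; rfl
  | mul u u' _ _ h1 h2 =>
    rw [Prod.snd_mul, map_mul, map_mul, ← Matrix.mulVec_mulVec, h1, h2]; rfl

theorem exists_eigen {C0 : JZero p}
    (hC : ∀ q : Nat.Primes, (q : ℕ) ≠ p → heckeOperatorBar p q C0 = (1 + (q : ℤ)) • C0)
    {u : Module.End ℤ (JZero p) × TZ p} (hu : u ∈ heckePairs p) :
    ∃ a : ℤ, u.1 C0 = a • C0 := by
  induction hu using Subring.closure_induction with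
  | mem u hu =>
    obtain ⟨q, hq, hqp, rfl⟩ := hu
    exact ⟨1 + q, hC ⟨q, hq⟩ fun h => hqp (dvd_of_eq h)⟩
  | zero => exact ⟨0, (zero_zsmul _).symm⟩
  | one => exact ⟨1, (one_zsmul _).symm⟩
  | add u u' _ _ h1 h2 =>
    obtain ⟨a, ha⟩ := h1
    obtain ⟨b, hb⟩ := h2
    exact ⟨a + b, by rw [add_zsmul, ← ha, ← hb]; rfl⟩
  | neg u _ h1 =>
    obtain ⟨a, ha⟩ := h1
    exact ⟨-a, by rw [neg_zsmul, ← ha]; rfl⟩
  | mul u u' _ _ h1 h2 =>
    obtain ⟨a, ha⟩ := h1
    obtain ⟨b, hb⟩ := h2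
    exact ⟨a * b, by
      show u.1 (u'.1 C0) = _
      rw [hb, map_zsmul, ha, ← mul_zsmul, mul_comm]⟩

theorem intCast_eq_of_smul_eq {C0 : JZero p} (hl : l ∣ addOrderOf C0) {a b : ℤ}
    (h : a • C0 = b • C0) : (a : ZMod l) = b := by
  have h1 : (addOrderOf C0 : ℤ) ∣ a - b := by
    rw [addOrderOf_dvd_iff_zsmul_eq_zero, sub_zsmul, h, add_neg_cancel]
  rw [← sub_eq_zero, ← Int.cast_sub, ZMod.intCast_zmod_eq_zero_iff_dvd]
  exact dvd_trans (Int.natCast_dvd_natCast.2 hl) h1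

theorem dvd_of_eq_zero {C0 : JZero p} (hlC : l ∣ addOrderOf C0) (hord : addOrderOf C0 ≠ 0)
    {u : Module.End ℤ (JZero p) × TZ p} (hu : u ∈ heckePairs p)
    (h0 : (Int.castRingHom (ZMod (l ^ 1))).mapMatrix (D.G.τ u.2) = 0) {a : ℤ}
    (ha : u.1 C0 = a • C0) : (a : ZMod l) = 0 := by
  obtain ⟨d, hd⟩ := hlC
  have hkill : l ^ 1 • (d • C0) = 0 := by
    rw [pow_one, ← mul_nsmul', ← hd, addOrderOf_nsmul_eq_zero]
  obtain ⟨v, hv⟩ := D.e_surjective 1 _ hkill
  have h1 := fst_e D hu 1 v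
  rw [h0, Matrix.zero_mulVec, map_zero, hv, map_nsmul, ha, ← natCast_zsmul, ← mul_zsmul] at h1
  have h2 : (addOrderOf C0 : ℤ) ∣ d * a := addOrderOf_dvd_iff_zsmul_eq_zero.2 h1.symm
  rw [hd, Nat.cast_mul, mul_comm (l : ℤ)] at h2
  rw [ZMod.intCast_zmod_eq_zero_iff_dvd]
  refine Int.dvd_of_mul_dvd_mul_left ?_ h2
  intro hd0
  rw [Nat.cast_eq_zero.1 hd0, mul_zero] at hd
  exact hord hd

/-- The Eisenstein idempotent and its approximations by Hecke operators. -/
structure EisIdem (C0 : JZero p) where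
  /-- The idempotent. -/
  ε : Matrix (Fin D.G.r) (Fin D.G.r) ℤ_[l]
  idem : ε * ε = ε
  exists_pair : ∀ k : ℕ, ∃ u ∈ heckePairs p, ∃ a : ℤ, u.1 C0 = a • C0 ∧ (a : ZMod l) = 1 ∧
    (PadicInt.toZModPow k).mapMatrix ε = (Int.castRingHom (ZMod (l ^ k))).mapMatrix (D.G.τ u.2)
  comm_galois : ∀ σ, Commute (D.G.M σ) ε
  comm_hecke : ∀ t, Commute (D.G.τ t |>.map (Int.castRingHom ℤ_[l])) ε
  comm_theta : Commute (D.θ.map (Int.castRingHom ℤ_[l])) ε
  nilpotent : ∀ (q : ℕ) (hq : q.Prime) (hqp : ¬ q ∣ p),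
    IsNilpotent ((PadicInt.toZModPow 1).mapMatrix
      (((D.G.τ (heckeTOf hq hqp)).map (Int.castRingHom ℤ_[l]) -
        ((1 + q : ℕ) : Matrix (Fin D.G.r) (Fin D.G.r) ℤ_[l])) * ε))

theorem toZModPow_map_intCast {r : ℕ} (k : ℕ) (X : Matrix (Fin r) (Fin r) ℤ) :
    (PadicInt.toZModPow k).mapMatrix (X.map (Int.castRingHom ℤ_[l])) =
      (Int.castRingHom (ZMod (l ^ k))).mapMatrix X := by
  ext i j
  simp

theorem eq_of_forall_toZModPow {r : ℕ} {X Y : Matrix (Fin r) (Fin r) ℤ_[l]}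
    (h : ∀ k, (PadicInt.toZModPow k).mapMatrix X = (PadicInt.toZModPow k).mapMatrix Y) : X = Y :=
  Matrix.ext fun i j => PadicInt.ext_of_toZModPow.1 fun k => congrFun (congrFun (h k) i) j

theorem commute_of_forall_toZModPow {r : ℕ} {X Y : Matrix (Fin r) (Fin r) ℤ_[l]}
    (h : ∀ k, Commute ((PadicInt.toZModPow k).mapMatrix X) ((PadicInt.toZModPow k).mapMatrix Y)) :
    Commute X Y :=
  eq_of_forall_toZModPow fun k => by rw [map_mul, map_mul]; exact h k

/-- A compatible sequence of matrices modulo the powers of `l` has a limit. -/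
theorem exists_limit {r : ℕ} (S : ℕ → Matrix (Fin r) (Fin r) ℤ)
    (h : ∀ j, (Int.castRingHom (ZMod (l ^ j))).mapMatrix (S (j + 1)) =
      (Int.castRingHom (ZMod (l ^ j))).mapMatrix (S j)) :
    ∃ ε : Matrix (Fin r) (Fin r) ℤ_[l], ∀ k,
      (PadicInt.toZModPow k).mapMatrix ε = (Int.castRingHom (ZMod (l ^ k))).mapMatrix (S k) := by
  have hl : Fact (Nat.Prime l) := inferInstance
  have hstable : ∀ k d, (Int.castRingHom (ZMod (l ^ k))).mapMatrix (S (k + d)) =
      (Int.castRingHom (ZMod (l ^ k))).mapMatrix (S k) := by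
    intro k d
    induction d with
    | zero => rfl
    | succ d ih =>
      rw [← ih]
      ext a b
      have h1 := congrArg (ZMod.castHom (pow_dvd_pow l (Nat.le_add_right k d)) (ZMod (l ^ k)))
        (congrFun (congrFun (h (k + d)) a) b)
      simpa [RingHom.mapMatrix_apply, add_assoc] using h1
  have hnorm : ∀ (a b : Fin r) (k : ℕ) (j : ℕ), k ≤ j →
      ‖((S j a b : ℤ) : ℤ_[l]) - (S k a b : ℤ_[l])‖ ≤ (l : ℝ) ^ (-(k : ℤ)) := by
    intro a b k j hkj
    obtain ⟨d, rfl⟩ := Nat.exists_eq_add_of_le hkj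
    rw [PadicInt.norm_le_pow_iff_mem_span_pow, ← PadicInt.ker_toZModPow, RingHom.mem_ker, map_sub,
      map_intCast, map_intCast, sub_eq_zero]
    exact congrFun (congrFun (hstable k d) a) b
  have hl1 : (1 : ℝ) < l := Nat.one_lt_cast.2 (Fact.out : l.Prime).one_lt
  have hlim : Filter.Tendsto (fun k : ℕ => (l : ℝ) ^ (-(k : ℤ))) Filter.atTop (nhds 0) := by
    simp only [_root_.zpow_neg, zpow_natCast, ← inv_pow]
    exact tendsto_pow_atTop_nhds_zero_of_lt_one (by positivity) (inv_lt_one_of_one_lt₀ hl1)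
  have hc : ∀ a b, ∃ c, Filter.Tendsto (fun j => ((S j a b : ℤ) : ℤ_[l])) Filter.atTop (nhds c) := by
    intro a b
    refine cauchySeq_tendsto_of_complete (Metric.cauchySeq_iff'.2 fun δ hδ => ?_)
    obtain ⟨k, hk⟩ := (hlim.eventually_lt_const hδ).exists
    exact ⟨k, fun j hj => by
      rw [dist_eq_norm]
      exact lt_of_le_of_lt (hnorm a b k j hj) hk⟩
  choose c hc using hc
  refine ⟨Matrix.of c, fun k => Matrix.ext fun a b => ?_⟩
  have h1 : ‖c a b - (S k a b : ℤ_[l])‖ ≤ (l : ℝ) ^ (-(k : ℤ)) :=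
    le_of_tendsto ((hc a b).sub_const _).norm
      (Filter.eventually_atTop.2 ⟨k, fun j hj => hnorm a b k j hj⟩)
  rw [PadicInt.norm_le_pow_iff_mem_span_pow, ← PadicInt.ker_toZModPow, RingHom.mem_ker, map_sub,
    map_intCast, sub_eq_zero] at h1
  simpa [RingHom.mapMatrix_apply] using h1

theorem mapMatrix_pow_smul_eq_zero {r k j : ℕ} (h : k ≤ j) (X : Matrix (Fin r) (Fin r) ℤ) :
    (Int.castRingHom (ZMod (l ^ k))).mapMatrix ((l : ℤ) ^ j • X) = 0 := by
  have h0 : ((l : ZMod (l ^ k)) ^ j) = 0 := by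
    rw [← Nat.cast_pow, ZMod.natCast_eq_zero_iff]
    exact pow_dvd_pow l h
  ext a b
  rw [RingHom.mapMatrix_apply, Matrix.map_apply, Matrix.smul_apply, smul_eq_mul, map_mul, map_pow,
    map_natCast, h0, zero_mul]
  rfl

variable {C0 : JZero p}

/-- A ring hom from a total single-valued relation compatible with the operations. -/
theorem exists_ringHom_of_rel {R k : Type*} [CommRing R] [CommRing k] (P : R → k → Prop)
    (hex : ∀ r, ∃ c, P r c) (huniq : ∀ r c c', P r c → P r c' → c = c') (h1 : P 1 1)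
    (hadd : ∀ r r' c c', P r c → P r' c' → P (r + r') (c + c'))
    (hmul : ∀ r r' c c', P r c → P r' c' → P (r * r') (c * c')) :
    ∃ f : R →+* k, ∀ r, P r (f r) := by
  choose f hf using hex
  have ha : ∀ r r', f (r + r') = f r + f r' := fun r r' =>
    huniq _ _ _ (hf _) (hadd r r' _ _ (hf r) (hf r'))
  exact ⟨RingHom.mk' ⟨⟨f, huniq 1 _ _ (hf 1) h1⟩, fun r r' =>
    huniq _ _ _ (hf _) (hmul r r' _ _ (hf r) (hf r'))⟩ ha, hf⟩

/-- The elements of the Hecke ring coming from operators on `J₀(p)`. -/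
abbrev heckeImage (p : ℕ) [NeZero p] : Subring (TZ p) := (heckePairs p).map (RingHom.snd _ _)

theorem mem_heckeImage {p : ℕ} [NeZero p] {u : Module.End ℤ (JZero p) × TZ p}
    (hu : u ∈ heckePairs p) : u.2 ∈ heckeImage p :=
  Subring.mem_map.2 ⟨u, hu, rfl⟩

/-- The Hecke ring modulo `l`. -/
def redModL : TZ p →+* Matrix (Fin D.G.r) (Fin D.G.r) (ZMod (l ^ 1)) :=
  (Int.castRingHom (ZMod (l ^ 1))).mapMatrix.comp D.G.τ

theorem exists_residue (hlC : l ∣ addOrderOf C0) (hord : addOrderOf C0 ≠ 0)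
    (hC : ∀ q : Nat.Primes, (q : ℕ) ≠ p → heckeOperatorBar p q C0 = (1 + (q : ℤ)) • C0) :
    ∃ ψ : heckeImage p →+* ZMod l,
      (∀ r : heckeImage p, ∃ u ∈ heckePairs p, ∃ a : ℤ, u.1 C0 = a • C0 ∧ (a : ZMod l) = ψ r ∧ u.2 = (r : TZ p)) ∧
      ∀ r : heckeImage p, redModL D (r : TZ p) = 0 → ψ r = 0 := by
  have hz : ∀ u ∈ heckePairs p, redModL D u.2 = 0 → ∀ a : ℤ, u.1 C0 = a • C0 → (a : ZMod l) = 0 :=
    fun u hu h a ha => dvd_of_eq_zero D hlC hord hu h ha
  obtain ⟨ψ, hψ⟩ := exists_ringHom_of_rel (R := heckeImage p) (k := ZMod l)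
    (fun r c => ∃ u ∈ heckePairs p, ∃ a : ℤ, u.1 C0 = a • C0 ∧ (a : ZMod l) = c ∧ u.2 = (r : TZ p))
    (fun r => by
      obtain ⟨u, hu, hr⟩ := Subring.mem_map.1 r.2
      obtain ⟨a, ha⟩ := exists_eigen hC hu
      exact ⟨a, u, hu, a, ha, rfl, hr⟩)
    (by
      rintro r c c' ⟨u, hu, a, ha, rfl, hb⟩ ⟨u', hu', a', ha', rfl, hb'⟩
      rw [← sub_eq_zero, ← Int.cast_sub]
      refine hz (u - u') (sub_mem hu hu') ?_ _ ?_
      · rw [Prod.snd_sub, hb, hb', sub_self, map_zero]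
      · rw [Prod.fst_sub, LinearMap.sub_apply, ha, ha', sub_zsmul]
        abel)
    ⟨1, one_mem _, 1, (one_zsmul _).symm, Int.cast_one, rfl⟩
    (by
      rintro r r' c c' ⟨u, hu, a, ha, rfl, hb⟩ ⟨u', hu', a', ha', rfl, hb'⟩
      refine ⟨u + u', add_mem hu hu', a + a', ?_, Int.cast_add a a', ?_⟩
      · rw [Prod.fst_add, LinearMap.add_apply, ha, ha', add_zsmul]
      · rw [Prod.snd_add, hb, hb', Subring.coe_add])
    (by
      rintro r r' c c' ⟨u, hu, a, ha, rfl, hb⟩ ⟨u', hu', a', ha', rfl, hb'⟩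
      refine ⟨u * u', mul_mem hu hu', a * a', ?_, Int.cast_mul a a', ?_⟩
      · rw [Prod.fst_mul, Module.End.mul_apply, ha', map_zsmul, ha, ← mul_zsmul, mul_comm]
      · rw [Prod.snd_mul, hb, hb', Subring.coe_mul])
  refine ⟨ψ, hψ, fun r hr => ?_⟩
  obtain ⟨u, hu, a, ha, ha', hb⟩ := hψ r
  rw [← ha']
  exact hz u hu (by rw [hb]; exact hr) a ha

theorem exists_lift (hlC : l ∣ addOrderOf C0) (hord : addOrderOf C0 ≠ 0)
    (hC : ∀ q : Nat.Primes, (q : ℕ) ≠ p → heckeOperatorBar p q C0 = (1 + (q : ℤ)) • C0) :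
    ∃ u ∈ heckePairs p, ∃ a : ℤ, u.1 C0 = a • C0 ∧ (a : ZMod l) = 1 ∧
      IsIdempotentElem ((Int.castRingHom (ZMod (l ^ 1))).mapMatrix (D.G.τ u.2)) ∧
      ∀ (q : ℕ) (hq : q.Prime) (hqp : ¬ q ∣ p),
        IsNilpotent ((Int.castRingHom (ZMod (l ^ 1))).mapMatrix
          (D.G.τ ((heckeTOf hq hqp - ((1 + q : ℕ) : TZ p)) * u.2))) := by
  obtain ⟨ψ, hψ, hψ0⟩ := exists_residue D hlC hord hC
  set g : heckeImage p →+* Matrix (Fin D.G.r) (Fin D.G.r) (ZMod (l ^ 1)) :=
    (redModL D).comp (heckeImage p).subtype with hg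
  set I := RingHom.ker g with hI
  have : NeZero (l ^ 1) := ⟨pow_ne_zero _ (Fact.out : l.Prime).ne_zero⟩
  have : Finite (heckeImage p ⧸ I) := Finite.of_injective g.kerLift (RingHom.kerLift_injective g)
  let ψB : heckeImage p ⧸ I →+* ZMod l := Ideal.Quotient.lift I ψ fun r hr => hψ0 r hr
  obtain ⟨e, he, he1, henil⟩ := exists_idem_of_finite (RingHom.ker ψB)
  obtain ⟨r, rfl⟩ := Ideal.Quotient.mk_surjective e
  obtain ⟨u, hu, a, ha, ha', hb⟩ := hψ r
  have hker : ∀ x, Ideal.Quotient.mk I x = 0 → g x = 0 := fun x hx => by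
    rwa [Ideal.Quotient.eq_zero_iff_mem, hI, RingHom.mem_ker] at hx
  have hψr : ψ r = 1 := by
    rw [RingHom.mem_ker, map_sub, map_one, sub_eq_zero] at he1
    exact he1.symm
  refine ⟨u, hu, a, ha, ha'.trans hψr, ?_, fun q hq hqp => ?_⟩
  · show redModL D u.2 * redModL D u.2 = redModL D u.2
    have h1 := hker (r * r - r) (by rw [map_sub, map_mul, he, sub_self])
    rw [map_sub, map_mul, sub_eq_zero] at h1
    rw [hb]
    exact h1
  · have hgen : ((heckeOperatorBar p ⟨q, hq⟩, heckeTOf hq hqp) :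
        Module.End ℤ (JZero p) × TZ p) - ((1 + q : ℕ) : Module.End ℤ (JZero p) × TZ p) ∈
        heckePairs p :=
      sub_mem (Subring.subset_closure ⟨q, hq, hqp, rfl⟩) (natCast_mem _ _)
    let x : heckeImage p := ⟨_, mem_heckeImage hgen⟩
    have hxψ : ψ x = 0 := by
      obtain ⟨v, hv, c, hc, hc', hv'⟩ := hψ x
      rw [← hc']
      have h0 : ((heckeOperatorBar p ⟨q, hq⟩, heckeTOf hq hqp) :
          Module.End ℤ (JZero p) × TZ p).1 C0 -
            ((1 + q : ℕ) : Module.End ℤ (JZero p)) C0 = (0 : ℤ) • C0 := by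
        rw [hC ⟨q, hq⟩ fun h => hqp (dvd_of_eq h), Module.End.natCast_apply, ← natCast_zsmul,
          zero_zsmul, Nat.cast_add, Nat.cast_one, sub_self]
      refine dvd_of_eq_zero D hlC hord (u := v - _) (sub_mem hv hgen) ?_ (a := c) ?_
      · rw [Prod.snd_sub, hv', sub_self, map_zero, map_zero]
      · rw [Prod.fst_sub, LinearMap.sub_apply, hc]
        show c • C0 - _ = _
        rw [show ((heckeOperatorBar p ⟨q, hq⟩, heckeTOf hq hqp) -
            ((1 + q : ℕ) : Module.End ℤ (JZero p) × TZ p)).1 C0 = 0 from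
          h0.trans (zero_zsmul _), sub_zero]
    obtain ⟨n, hn⟩ := henil (Ideal.Quotient.mk I x) (by rw [RingHom.mem_ker]; exact hxψ)
    refine ⟨n, ?_⟩
    rw [← map_mul, ← map_pow] at hn
    have h1 := hker _ hn
    rw [map_pow, map_mul] at h1
    show redModL D ((heckeTOf hq hqp - ((1 + q : ℕ) : TZ p)) * u.2) ^ n = 0
    rw [map_mul, hb]
    exact h1

/-- Existence of the Eisenstein idempotent. -/
theorem exists_eisIdem (hlC : l ∣ addOrderOf C0) (hord : addOrderOf C0 ≠ 0)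
    (hC : ∀ q : Nat.Primes, (q : ℕ) ≠ p → heckeOperatorBar p q C0 = (1 + (q : ℤ)) • C0) :
    Nonempty (EisIdem D C0) := by
  obtain ⟨u₁, hu₁, a₁, ha₁, ha₁', hidem, hnil⟩ := exists_lift D hlC hord hC
  set s : ℕ → TZ p := fun j => idemStep^[j] u₁.2 with hs
  have hdiv : ∀ j, ∃ X : Matrix (Fin D.G.r) (Fin D.G.r) ℤ,
      D.G.τ (s j ^ 2 - s j) = (l : ℤ) ^ (j + 1) • X := by
    intro j
    induction j with
    | zero =>
      have hz : ∀ a b, (l : ℤ) ∣ D.G.τ (s 0 ^ 2 - s 0) a b := fun a b => by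
        have h1 := congrFun (congrFun hidem.eq a) b
        rw [← map_mul, ← map_mul, ← sq] at h1
        rw [← ZMod.intCast_zmod_eq_zero_iff_dvd]
        have h2 : ((D.G.τ (s 0 ^ 2 - s 0) a b : ℤ) : ZMod (l ^ 1)) = 0 := by
          rw [map_sub, Matrix.sub_apply, Int.cast_sub, sub_eq_zero]
          exact h1
        have h3 := congrArg (ZMod.castHom (dvd_of_eq (pow_one l).symm) (ZMod l)) h2
        rwa [map_intCast, map_zero] at h3
      choose X hX using hz
      exact ⟨Matrix.of X, Matrix.ext fun a b => by simp [hX a b]⟩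
    | succ j ih =>
      obtain ⟨X, hX⟩ := ih
      refine ⟨(l : ℤ) ^ j • (X * X * D.G.τ (4 * (s j ^ 2 - s j) - 3)), ?_⟩
      have e : s (j + 1) ^ 2 - s (j + 1) =
          (s j ^ 2 - s j) * (s j ^ 2 - s j) * (4 * (s j ^ 2 - s j) - 3) := by
        simp only [hs, Function.iterate_succ_apply', idemStep]
        ring
      rw [e, map_mul, map_mul, hX, smul_mul_assoc, mul_smul_comm, smul_smul, smul_mul_assoc,
        smul_smul, ← pow_add, ← pow_add]
      congr 2
      ring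
  have hpair : ∀ j, ∃ t, (t, s j) ∈ heckePairs p ∧ ∃ a : ℤ, t C0 = a • C0 ∧ (a : ZMod l) = 1 := by
    intro j
    induction j with
    | zero => exact ⟨u₁.1, hu₁, a₁, ha₁, ha₁'⟩
    | succ j ih =>
      obtain ⟨t, ht, a, ha, ha'⟩ := ih
      refine ⟨t ^ 2 * (3 - 2 * t), ?_, a ^ 2 * (3 - 2 * a), ?_, ?_⟩
      · have h2 : (2 : Module.End ℤ (JZero p) × TZ p) ∈ heckePairs p := ofNat_mem _ 2
        have h3 : (3 : Module.End ℤ (JZero p) × TZ p) ∈ heckePairs p := ofNat_mem _ 3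
        have h1 := mul_mem (pow_mem ht 2) (sub_mem h3 (mul_mem h2 ht))
        simp only [hs, Function.iterate_succ_apply'] at *
        exact h1
      · have h1 : (3 - 2 * t) C0 = (3 - 2 * a) • C0 := by
          rw [LinearMap.sub_apply, Module.End.mul_apply, ha, Module.End.ofNat_apply,
            Module.End.ofNat_apply, sub_zsmul, mul_zsmul, two_zsmul, two_nsmul]
          abel
        rw [sq, Module.End.mul_apply, Module.End.mul_apply, h1, map_zsmul, ha, map_zsmul,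
          map_zsmul, ha, ← mul_zsmul, ← mul_zsmul]
        congr 1
        ring
      · push_cast
        rw [ha']
        ring
  obtain ⟨ε, hε⟩ := exists_limit (l := l) (fun j => D.G.τ (s j)) fun j => by
    obtain ⟨X, hX⟩ := hdiv j
    have e : s (j + 1) = s j + (s j ^ 2 - s j) * (1 - 2 * s j) := by
      simp only [hs, Function.iterate_succ_apply', idemStep]
      ring
    have h0 : (Int.castRingHom (ZMod (l ^ j))).mapMatrix ((l : ℤ) ^ (j + 1) • X) = 0 := by
      exact mapMatrix_pow_smul_eq_zero (Nat.le_succ j) X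
    rw [e, map_add, map_mul, map_add, map_mul, hX, h0, zero_mul, add_zero]
  have hεc : ∀ k, (PadicInt.toZModPow k).mapMatrix ε =
      (Int.castRingHom (ZMod (l ^ k))).mapMatrix (D.G.τ (s k)) := hε
  refine ⟨⟨ε, ?_, ?_, ?_, ?_, ?_, ?_⟩⟩
  · refine eq_of_forall_toZModPow fun k => ?_
    obtain ⟨X, hX⟩ := hdiv k
    have h0 : (Int.castRingHom (ZMod (l ^ k))).mapMatrix ((l : ℤ) ^ (k + 1) • X) = 0 := by
      exact mapMatrix_pow_smul_eq_zero (Nat.le_succ k) X
    rw [map_mul, hεc, ← map_mul, ← map_mul, ← sq, ← sub_eq_zero, ← map_sub, ← map_sub, hX, h0]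
  · intro k
    obtain ⟨t, ht, a, ha, ha'⟩ := hpair k
    exact ⟨(t, s k), ht, a, ha, ha', hεc k⟩
  · intro σ
    refine commute_of_forall_toZModPow fun k => ?_
    rw [hεc, ← toZModPow_map_intCast]
    exact (D.G.commute_hecke σ (s k)).map (PadicInt.toZModPow k).mapMatrix
  · intro t
    refine commute_of_forall_toZModPow fun k => ?_
    rw [hεc, toZModPow_map_intCast]
    exact ((Commute.all t (s k)).map D.G.τ).map (Int.castRingHom (ZMod (l ^ k))).mapMatrix
  · refine commute_of_forall_toZModPow fun k => ?_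
    rw [hεc, toZModPow_map_intCast]
    exact (D.θ_comm (s k)).map (Int.castRingHom (ZMod (l ^ k))).mapMatrix
  · intro q hq hqp
    obtain ⟨n, hn⟩ := hnil q hq hqp
    have h1 : (Int.castRingHom (ZMod (l ^ 1))).mapMatrix (D.G.τ (s 1)) =
        (Int.castRingHom (ZMod (l ^ 1))).mapMatrix (D.G.τ (s 0)) := by
      have e : s 1 = s 0 + (s 0 ^ 2 - s 0) * (1 - 2 * s 0) := by
        simp only [hs, Function.iterate_succ_apply', Function.iterate_zero, id_eq, idemStep]
        ring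
      obtain ⟨X, hX⟩ := hdiv 0
      have h0 : (Int.castRingHom (ZMod (l ^ 1))).mapMatrix ((l : ℤ) ^ (0 + 1) • X) = 0 := by
        exact mapMatrix_pow_smul_eq_zero le_rfl X
      rw [e, map_add, map_mul, map_add, map_mul, hX, h0, zero_mul, add_zero]
    refine ⟨n, ?_⟩
    rw [map_mul, map_sub, toZModPow_map_intCast, map_natCast, hεc, h1]
    simp only [map_mul, map_sub, map_natCast] at hn
    exact hn

end FLTAgent.Mazur.Eis

end
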