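import Mathlib

/-!
# A square-zero operator transversal to an involution: identities up to a constant

If `N² = 0` on a space with an involution `c` whose two eigenspaces are isomorphic and `N` is
injective on the `1`-eigenspace, then `ker N = im N` is a complement of that eigenspace. Over
`ℤ_l` this gives identities up to a nonzero constant.
-/

set_option autoImplicit false

noncomputable section

namespace FLTAgent.Mazur.Eis

variable {K V : Type*} [Field K] [CharZero K] [AddCommGroup V] [Module K V] [FiniteDimensional K V]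

theorem half_dims {ε N c θ : Module.End K V} (hε : ε * ε = ε) (hεN : Commute N ε)
    (hεc : Commute c ε) (hεθ : Commute θ ε) (hN : N * N * ε = 0) (hc : c * c = 1)
    (hθc : θ * c = -(c * θ)) (hθ : Function.Injective θ)
    (hkey : ∀ v, ε v = v → N v = 0 → c v = v → v = 0) :
    (∀ v, ε v = v → N v = 0 → ∃ u, N (ε u) = v) ∧
      LinearMap.range ε ≤ (LinearMap.range ε ⊓ LinearMap.ker N) ⊔
        (LinearMap.range ε ⊓ LinearMap.ker (c - 1)) := by
  set W := LinearMap.range ε with hWdef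
  have hW : ∀ {v : V}, v ∈ W ↔ ε v = v := fun {v} =>
    ⟨by rintro ⟨u, rfl⟩; exact LinearMap.congr_fun hε u, fun h => ⟨v, h⟩⟩
  set P := W ⊓ LinearMap.ker (c - 1) with hPdef
  set M := W ⊓ LinearMap.ker (c + 1) with hMdef
  set Z := W ⊓ LinearMap.ker N with hZdef
  set R := W.map N with hRdef
  have hP : ∀ {v : V}, v ∈ P ↔ ε v = v ∧ c v = v := fun {v} => by
    simp [hPdef, hW, sub_eq_zero]
  have hM : ∀ {v : V}, v ∈ M ↔ ε v = v ∧ c v = -v := fun {v} => by
    simp [hMdef, hW, add_eq_zero_iff_eq_neg]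
  have hZ : ∀ {v : V}, v ∈ Z ↔ ε v = v ∧ N v = 0 := fun {v} => by
    simp [hZdef, hW]
  have hsum : P ⊔ M = W := by
    refine le_antisymm (sup_le inf_le_left inf_le_left) fun v hv => ?_
    rw [hW] at hv
    have hcv : ε (c v) = c v := by
      rw [← Module.End.mul_apply, ← hεc.eq, Module.End.mul_apply, hv]
    have hcc : c (c v) = v := LinearMap.congr_fun hc v
    refine Submodule.mem_sup.2 ⟨(2 : K)⁻¹ • (v + c v), hP.2 ⟨?_, ?_⟩, (2 : K)⁻¹ • (v - c v),
      hM.2 ⟨?_, ?_⟩, ?_⟩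
    · rw [map_smul, map_add, hv, hcv]
    · rw [map_smul, map_add, hcc, add_comm]
    · rw [map_smul, map_sub, hv, hcv]
    · rw [map_smul, map_sub, hcc, ← smul_neg, neg_sub]
    · rw [← smul_add, add_add_sub_cancel, ← two_smul K v, smul_smul,
        inv_mul_cancel₀ two_ne_zero, one_smul]
  have hdisj : P ⊓ M = ⊥ := by
    rw [eq_bot_iff]
    rintro v ⟨h1, h2⟩
    have h3 : v = -v := (hP.1 h1).2.symm.trans (hM.1 h2).2
    rw [eq_neg_iff_add_eq_zero, ← two_smul K v, smul_eq_zero] at h3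
    exact (Submodule.mem_bot K).2 (h3.resolve_left two_ne_zero)
  have hθP : P.map θ ≤ M := by
    rintro _ ⟨v, hv, rfl⟩
    obtain ⟨h1, h2⟩ := hP.1 hv
    refine hM.2 ⟨?_, ?_⟩
    · rw [← Module.End.mul_apply, ← hεθ.eq, Module.End.mul_apply, h1]
    · have h := LinearMap.congr_fun hθc v
      rw [Module.End.mul_apply, h2, LinearMap.neg_apply, Module.End.mul_apply] at h
      rw [eq_neg_iff_add_eq_zero, add_comm, ← eq_neg_iff_add_eq_zero]
      exact h
  have hθM : M.map θ ≤ P := by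
    rintro _ ⟨v, hv, rfl⟩
    obtain ⟨h1, h2⟩ := hM.1 hv
    refine hP.2 ⟨?_, ?_⟩
    · rw [← Module.End.mul_apply, ← hεθ.eq, Module.End.mul_apply, h1]
    · have h := LinearMap.congr_fun hθc v
      rw [Module.End.mul_apply, h2, LinearMap.neg_apply, Module.End.mul_apply, map_neg,
        neg_inj] at h
      exact h.symm
  have hdim : Module.finrank K P = Module.finrank K M := by
    refine le_antisymm ?_ ?_
    · rw [(P.equivMapOfInjective θ hθ).finrank_eq]
      exact Submodule.finrank_mono hθP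
    · rw [(M.equivMapOfInjective θ hθ).finrank_eq]
      exact Submodule.finrank_mono hθM
  have hW2 : Module.finrank K W = 2 * Module.finrank K P := by
    have h := Submodule.finrank_sup_add_finrank_inf_eq P M
    rw [hsum, hdisj, finrank_bot, add_zero] at h
    omega
  have hZP : Z ⊓ P = ⊥ := by
    rw [eq_bot_iff]
    rintro v ⟨h1, h2⟩
    exact (Submodule.mem_bot K).2 (hkey v (hZ.1 h1).1 (hZ.1 h1).2 (hP.1 h2).2)
  have hRZ : R ≤ Z := by
    rintro _ ⟨v, hv, rfl⟩
    replace hv := hW.1 hv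
    refine hZ.2 ⟨?_, ?_⟩
    · rw [← Module.End.mul_apply, ← hεN.eq, Module.End.mul_apply, hv]
    · have h := LinearMap.congr_fun hN v
      rw [Module.End.mul_apply, Module.End.mul_apply, hv] at h
      exact h
  have hrank : Module.finrank K R + Module.finrank K Z = Module.finrank K W := by
    have h := LinearMap.finrank_range_add_finrank_ker (N.domRestrict W)
    rw [LinearMap.range_domRestrict, LinearMap.ker_domRestrict] at h
    have e1 : (LinearMap.ker N).comap W.subtype = Z.comap W.subtype := by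
      rw [hZdef, Submodule.comap_inf, Submodule.comap_subtype_self, top_inf_eq]
    rw [← h, e1]
    congr 1
    exact (Submodule.comapSubtypeEquivOfLe (inf_le_left : Z ≤ W)).finrank_eq.symm
  have hle : Z ⊔ P ≤ W := sup_le inf_le_left inf_le_left
  have hsupZP := Submodule.finrank_sup_add_finrank_inf_eq Z P
  rw [hZP, finrank_bot, add_zero] at hsupZP
  have hleZP := Submodule.finrank_mono hle
  have hleRZ := Submodule.finrank_mono hRZ
  have hReq : R = Z := Submodule.eq_of_le_of_finrank_eq hRZ (by omega)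
  have hWeq : Z ⊔ P = W := Submodule.eq_of_le_of_finrank_eq hle (by omega)
  refine ⟨fun v h1 h2 => ?_, hWeq.ge⟩
  obtain ⟨u, hu, huv⟩ : v ∈ R := hReq ▸ hZ.2 ⟨h1, h2⟩
  exact ⟨u, by rw [hW.1 hu]; exact huv⟩

theorem exists_field_identities {ε N c θ : Module.End K V} (hε : ε * ε = ε) (hεN : Commute N ε)
    (hεc : Commute c ε) (hεθ : Commute θ ε) (hN : N * N * ε = 0) (hc : c * c = 1)
    (hθc : θ * c = -(c * θ)) (hθ : Function.Injective θ)
    (hkey : ∀ v, ε v = v → N v = 0 → c v = v → v = 0) :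
    (∃ X Y : Module.End K V, ε = X * N + N * Y) ∧
      ∃ U P : Module.End K V,
        ε = U + P ∧ N * U = 0 ∧ c * P = P ∧ ε * U = U ∧ ε * P = P := by
  obtain ⟨hker, hsup⟩ := half_dims hε hεN hεc hεθ hN hc hθc hθ hkey
  have hεε : ∀ v, ε (ε v) = ε v := fun v => LinearMap.congr_fun hε v
  have hcomm : ∀ v, ε (N v) = N (ε v) := fun v => (LinearMap.congr_fun hεN.eq v).symm
  constructor
  · obtain ⟨g, hg⟩ := LinearMap.exists_rightInverse_of_surjective (N * ε).rangeRestrict
      (LinearMap.range_rangeRestrict _)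
    obtain ⟨g', hg'⟩ := LinearMap.exists_extend g
    have hgg : ∀ x, (N * ε) (g' ((N * ε) x)) = (N * ε) x := by
      intro x
      have h1 : g' ((N * ε) x) = g ⟨(N * ε) x, LinearMap.mem_range_self _ x⟩ := by
        rw [← hg']; rfl
      rw [h1]
      exact congrArg Subtype.val
        (LinearMap.congr_fun hg (⟨(N * ε) x, LinearMap.mem_range_self _ x⟩ : LinearMap.range (N * ε)))
    refine ⟨ε * g' * ε, ε * g' * (ε - ε * g' * N * ε), LinearMap.ext fun v => ?_⟩
    set w := ε v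
    set d := w - ε (g' (N w)) with hd
    have hdN : N d = 0 := by
      rw [hd, map_sub, show N (ε (g' (N w))) = N w from hgg v, sub_self]
    have hdε : ε d = d := by rw [hd, map_sub, hεε, hεε]
    have hdR : N (ε (g' d)) = d := by
      obtain ⟨u, hu⟩ := hker d hdε hdN
      rw [← hu]
      exact hgg u
    show w = ε (g' (ε (N v))) + N (ε (g' (ε v - ε (g' (N (ε v))))))
    rw [hcomm v]
    show w = ε (g' (N w)) + N (ε (g' d))
    rw [hdR, hd]
    abel
  · set W := LinearMap.range ε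
    set S₁ := W ⊓ LinearMap.ker N
    set S₂ := W ⊓ LinearMap.ker (c - 1)
    let f : (S₁ × S₂) →ₗ[K] V := S₁.subtype.coprod S₂.subtype
    have hf : W ≤ LinearMap.range f := by
      rw [LinearMap.range_coprod, Submodule.range_subtype, Submodule.range_subtype]
      exact hsup
    obtain ⟨g, hg⟩ := LinearMap.exists_rightInverse_of_surjective f.rangeRestrict
      (LinearMap.range_rangeRestrict _)
    obtain ⟨g', hg'⟩ := LinearMap.exists_extend g
    let U : Module.End K V := S₁.subtype ∘ₗ LinearMap.fst K S₁ S₂ ∘ₗ g' ∘ₗ ε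
    let P : Module.End K V := S₂.subtype ∘ₗ LinearMap.snd K S₁ S₂ ∘ₗ g' ∘ₗ ε
    refine ⟨U, P, LinearMap.ext fun v => ?_, LinearMap.ext fun v => ?_, LinearMap.ext fun v => ?_,
      LinearMap.ext fun v => ?_, LinearMap.ext fun v => ?_⟩
    · have hmem : ε v ∈ LinearMap.range f := hf (LinearMap.mem_range_self ε v)
      have h1 : g' (ε v) = g ⟨ε v, hmem⟩ := by rw [← hg']; rfl
      show ε v = f (g' (ε v))
      rw [h1]
      exact (congrArg Subtype.val (LinearMap.congr_fun hg ⟨ε v, hmem⟩)).symm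
    · exact (g' (ε v)).1.2.2
    · have h : (c - 1) (P v) = 0 := (g' (ε v)).2.2.2
      rwa [LinearMap.sub_apply, Module.End.one_apply, sub_eq_zero] at h
    · obtain ⟨u, hu⟩ := (g' (ε v)).1.2.1
      show ε (U v) = U v
      rw [show U v = ε u from hu.symm, hεε]
    · obtain ⟨u, hu⟩ := (g' (ε v)).2.2.1
      show ε (P v) = P v
      rw [show P v = ε u from hu.symm, hεε]

section Padic

open Matrix

variable {l : ℕ} [Fact l.Prime] {r : ℕ}

theorem exists_pow_smul_eq_map {ι : Type*} [Finite ι] (x : ι → ℚ_[l]) :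
    ∃ a : ℕ, ∀ i, ∃ y : ℤ_[l], (y : ℚ_[l]) = (l : ℚ_[l]) ^ a * x i := by
  classical
  have := Fintype.ofFinite ι
  have hl : (1 : ℝ) < l := Nat.one_lt_cast.2 (Fact.out : l.Prime).one_lt
  choose n hn using fun i => pow_unbounded_of_one_lt ‖x i‖ hl
  refine ⟨∑ i, n i, fun i => ⟨⟨_, ?_⟩, rfl⟩⟩
  rw [norm_mul, norm_pow, Padic.norm_p, inv_pow, inv_mul_le_iff₀ (by positivity), mul_one]
  exact (hn i).le.trans (pow_le_pow_right₀ hl.le
    (Finset.single_le_sum (fun j _ => Nat.zero_le (n j)) (Finset.mem_univ i)))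

/-- The identities over `ℤ_l`. -/
theorem exists_padic_identities {ε N c θ : Matrix (Fin r) (Fin r) ℤ_[l]}
    (hε : ε * ε = ε) (hεN : Commute N ε) (hεc : Commute c ε) (hεθ : Commute θ ε)
    (hN : N * N * ε = 0) (hc : c * c = 1) (hθc : θ * c = -(c * θ)) (hθ : θ.det ≠ 0)
    (hkey : ∀ v, ε *ᵥ v = v → N *ᵥ v = 0 → c *ᵥ v = v → v = 0) :
    ∃ s : ℕ, s ≠ 0 ∧ (∃ X Y : Matrix (Fin r) (Fin r) ℤ_[l], (s : ℤ_[l]) • ε = X * N + N * Y) ∧
      ∃ U P : Matrix (Fin r) (Fin r) ℤ_[l], (s : ℤ_[l]) • ε = U + P ∧ N * U = 0 ∧ c * P = P ∧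
        ε * U = U ∧ ε * P = P := by
  let φ : Matrix (Fin r) (Fin r) ℤ_[l] →+* Matrix (Fin r) (Fin r) ℚ_[l] :=
    (PadicInt.Coe.ringHom (p := l)).mapMatrix
  have hφ : Function.Injective φ := fun A B h => Matrix.ext fun i j =>
    Subtype.ext (congrFun (congrFun h i) j)
  let e := Matrix.toLinAlgEquiv' (R := ℚ_[l]) (n := Fin r)
  have hmv : ∀ (A : Matrix (Fin r) (Fin r) ℤ_[l]) (v : Fin r → ℚ_[l]) (w : Fin r → ℤ_[l]),
      (∀ i, (w i : ℚ_[l]) = v i) → ∀ i, ((A *ᵥ w) i : ℚ_[l]) = (φ A *ᵥ v) i := by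
    intro A v w hw i
    simp only [Matrix.mulVec, dotProduct, PadicInt.coe_sum, PadicInt.coe_mul, hw]
    rfl
  have hkey' : ∀ v, e (φ ε) v = v → e (φ N) v = 0 → e (φ c) v = v → v = 0 := by
    intro v h1 h2 h3
    obtain ⟨a, ha⟩ := exists_pow_smul_eq_map v
    choose w hw using ha
    have ht : ∀ A : Matrix (Fin r) (Fin r) ℤ_[l], ∀ i,
        ((A *ᵥ w) i : ℚ_[l]) = (l : ℚ_[l]) ^ a * (e (φ A) v) i := fun A i => by
      rw [hmv A ((l : ℚ_[l]) ^ a • v) w hw i, Matrix.mulVec_smul]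
      rfl
    have hw0 : w = 0 := hkey w (funext fun i => Subtype.ext (by rw [ht, h1, hw]))
      (funext fun i => Subtype.ext (by rw [ht, h2, Pi.zero_apply, mul_zero]; rfl))
      (funext fun i => Subtype.ext (by rw [ht, h3, hw]))
    funext i
    have := hw i
    rw [hw0, Pi.zero_apply, PadicInt.coe_zero, eq_comm, mul_eq_zero] at this
    exact this.resolve_left (pow_ne_zero _ (Nat.cast_ne_zero.2 (Fact.out : l.Prime).ne_zero))
  obtain ⟨⟨X, Y, hXY⟩, U, P, h1, h2, h3, h4, h5⟩ := exists_field_identities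
    (ε := e (φ ε)) (N := e (φ N)) (c := e (φ c)) (θ := e (φ θ))
    (by rw [← map_mul, ← map_mul, hε]) ((hεN.map φ).map e) ((hεc.map φ).map e)
    ((hεθ.map φ).map e)
    (by rw [← map_mul, ← map_mul, ← map_mul, ← map_mul, hN, map_zero, map_zero])
    (by rw [← map_mul, ← map_mul, hc, map_one, map_one])
    (by rw [← map_mul, ← map_mul, hθc, map_neg, map_neg, map_mul, map_mul])
    (by
      have hdet : (φ θ).det ≠ 0 := by
        rw [show φ θ = (PadicInt.Coe.ringHom (p := l)).mapMatrix θ from rfl, ← RingHom.map_det]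
        exact fun h => hθ (Subtype.ext h)
      intro v w h
      exact Matrix.mulVec_injective_iff_isUnit.2
        ((Matrix.isUnit_iff_isUnit_det _).2 (isUnit_iff_ne_zero.2 hdet)) h)
    hkey'
  -- clear denominators
  obtain ⟨a, ha⟩ := exists_pow_smul_eq_map (fun z : (Fin r × Fin r) × Fin 4 =>
    (![e.symm X, e.symm Y, e.symm U, e.symm P] z.2) z.1.1 z.1.2)
  choose y hy using ha
  let lift : Fin 4 → Matrix (Fin r) (Fin r) ℤ_[l] := fun m => Matrix.of fun i j => y ((i, j), m)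
  have hlift : ∀ m, e (φ (lift m)) = (l : ℚ_[l]) ^ a • e (![e.symm X, e.symm Y, e.symm U, e.symm P] m) :=
    fun m => by
      rw [← map_smul]
      congr 1
      ext i j
      exact hy ((i, j), m)
  have hinj : Function.Injective fun A => e (φ A) := e.injective.comp hφ
  have hs : ∀ A, e (φ (((l ^ a : ℕ) : ℤ_[l]) • A)) = (l : ℚ_[l]) ^ a • e (φ A) := fun A => by
    rw [← map_smul]
    congr 1
    ext i j
    show ((((l ^ a : ℕ) : ℤ_[l]) * A i j : ℤ_[l]) : ℚ_[l]) = (l : ℚ_[l]) ^ a * (A i j : ℚ_[l])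
    push_cast
    ring
  have h2' : e (φ (lift 2)) = (l : ℚ_[l]) ^ a • U :=
    (hlift 2).trans (congrArg ((l : ℚ_[l]) ^ a • ·) (e.apply_symm_apply U))
  have h3' : e (φ (lift 3)) = (l : ℚ_[l]) ^ a • P :=
    (hlift 3).trans (congrArg ((l : ℚ_[l]) ^ a • ·) (e.apply_symm_apply P))
  have h0' : e (φ (lift 0)) = (l : ℚ_[l]) ^ a • X :=
    (hlift 0).trans (congrArg ((l : ℚ_[l]) ^ a • ·) (e.apply_symm_apply X))
  have h1' : e (φ (lift 1)) = (l : ℚ_[l]) ^ a • Y :=
    (hlift 1).trans (congrArg ((l : ℚ_[l]) ^ a • ·) (e.apply_symm_apply Y))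
  refine ⟨l ^ a, pow_ne_zero _ (Fact.out : l.Prime).ne_zero, ⟨lift 0, lift 1, hinj ?_⟩,
    lift 2, lift 3, hinj ?_, hinj ?_, hinj ?_, hinj ?_, hinj ?_⟩
  all_goals simp only [map_add, map_mul, map_zero, hs, h0', h1', h2', h3', mul_smul_comm,
    smul_mul_assoc]
  · rw [hXY, smul_add]
  · rw [h1, smul_add]
  · rw [h2, smul_zero]
  · rw [h3]
  · rw [h4]
  · rw [h5]

end Padic

end FLTAgent.Mazur.Eis

end
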