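import Fermat.Agent.Local.LevelOne
import Fermat.Agent.Local.Existence

/-!
# Inertia at `p` on the Tate module of `J₀(p)` for an arbitrary Galois model
-/

set_option autoImplicit false

noncomputable section

namespace FLTAgent.Mazur.Eis

open FLTAgent.Reps
open FLTAgent.Local (icast)

/-- An injective map into integral matrices is injective modulo high powers, with bounded loss. -/
theorem exists_loss_bound {S : Type*} [CommRing S] {r : ℕ} (τ' : S →+* Matrix (Fin r) (Fin r) ℤ)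
    (hτ' : Function.Injective τ') {p : ℕ} (hp : p.Prime) :
    ∃ c : ℕ, ∀ (m : ℕ) (t : S), (∀ i j, ((p : ℤ) ^ (m + c)) ∣ τ' t i j) →
      ∃ t' : S, t = (p : S) ^ m * t' := by
  classical
  set W : Submodule ℤ (Matrix (Fin r) (Fin r) ℤ) := τ'.toAddMonoidHom.range.toIntSubmodule
  obtain ⟨n, snf⟩ := Submodule.smithNormalForm (Matrix.stdBasis ℤ (Fin r) (Fin r)) W
  have ha : ∀ i, snf.a i ≠ 0 := fun i h => snf.bN.ne_zero i
    (Subtype.ext (by rw [snf.snf i, h, zero_smul]; rfl))
  set A := ∏ i, snf.a i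
  have hA : A ≠ 0 := Finset.prod_ne_zero_iff.2 fun i _ => ha i
  obtain ⟨c, A', hA', hAeq⟩ := WfDvdMonoid.max_power_factor hA
    (Nat.prime_iff_prime_int.1 hp).irreducible
  refine ⟨c, fun m t ht => ?_⟩
  have hw : τ' t ∈ W := ⟨t, rfl⟩
  choose q hq using ht
  have hqm : τ' t = ((p : ℤ) ^ (m + c)) • (Matrix.of q) := by
    ext i j; simp [hq i j]
  set co := snf.bN.repr ⟨τ' t, hw⟩
  have hco : ∀ i, ((p : ℤ) ^ (m + c)) ∣ snf.a i * co i := by
    intro i
    refine ⟨snf.bM.repr (Matrix.of q) (snf.f i), ?_⟩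
    have h1 := snf.repr_apply_embedding_eq_repr_smul (m := ⟨τ' t, hw⟩) (i := i)
    have h1' := congrArg (fun X => snf.bM.repr X (snf.f i)) hqm
    simp only [map_smul, Finsupp.smul_apply, smul_eq_mul] at h1 h1'
    exact h1.symm.trans h1'
  have hdvd : ∀ i, ((p : ℤ) ^ m) ∣ co i := by
    intro i
    have h2 : (p : ℤ) ^ (m + c) ∣ A * co i :=
      (hco i).trans (mul_dvd_mul_right (Finset.dvd_prod_of_mem _ (Finset.mem_univ i)) _)
    rw [hAeq, pow_add, mul_comm ((p : ℤ) ^ m), mul_assoc,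
      mul_dvd_mul_iff_left (pow_ne_zero c (by exact_mod_cast hp.ne_zero))] at h2
    exact ((((Nat.prime_iff_prime_int.1 hp).coprime_iff_not_dvd.2 hA').pow_left).dvd_of_dvd_mul_left h2)
  choose d hd using hdvd
  obtain ⟨t', ht'⟩ : ((∑ i, d i • snf.bN i : W) : Matrix (Fin r) (Fin r) ℤ) ∈ W := Submodule.coe_mem _
  refine ⟨t', hτ' ?_⟩
  rw [map_mul, map_pow, map_natCast]
  have h3 : (⟨τ' t, hw⟩ : W) = ((p : ℤ) ^ m) • ∑ i, d i • snf.bN i := by
    conv_lhs => rw [← snf.bN.sum_repr ⟨τ' t, hw⟩]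
    rw [Finset.smul_sum]
    exact Finset.sum_congr rfl fun i _ => by rw [smul_smul, ← hd i]
  have h4 := congrArg Subtype.val h3
  simp only [Submodule.coe_smul] at h4
  change τ' t' = _ at ht'
  rw [h4, ← ht', zsmul_eq_mul]
  push_cast
  rfl

/-- Two models of the same level: `traceOp = 2` transfers. -/
theorem traceOp_two_transfer {N l : ℕ} [NeZero N] [Fact l.Prime] (G G' : GalModel N l)
    (g : AlgebraicClosure ℚ ≃ₐ[ℚ] AlgebraicClosure ℚ) (h : Local.traceOp G'.M g = 2) :
    Local.traceOp G.M g = 2 := by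
  classical
  obtain ⟨c, hc⟩ := exists_loss_bound G'.τ G'.τ_injective (Fact.out : l.Prime)
  rw [← sub_eq_zero]
  refine (Submodule.mem_bot ℤ_[l]).1 (Local.mem_of_forall_mod ⊥ _ fun m => ⟨0, Submodule.zero_mem _, ?_⟩)
  obtain ⟨L₁, hL₁, hfix₁⟩ := G'.continuous_level (m + c)
  obtain ⟨L₂, hL₂, hfix₂⟩ := exists_level_cycMod (p := l) (m + c)
  have : NeZero (l ^ (m + c)) := ⟨pow_ne_zero _ (Fact.out : l.Prime).ne_zero⟩
  set n := m + c
  let E : (AlgebraicClosure ℚ ≃ₐ[ℚ] AlgebraicClosure ℚ) → TZ N → Prop := fun g t =>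
    (PadicInt.toZModPow n).mapMatrix (Local.traceOp G'.M g) = icast (ZMod (l ^ n)) (G'.τ t)
  let f : TZ N →+* Matrix (Fin G'.r) (Fin G'.r) (ZMod (l ^ n)) :=
    (Int.castRingHom _).mapMatrix.comp G'.τ
  let R : (AlgebraicClosure ℚ ≃ₐ[ℚ] AlgebraicClosure ℚ) →* Matrix (Fin G'.r) (Fin G'.r) (ZMod (l ^ n)) :=
    (PadicInt.toZModPow n).mapMatrix.toMonoidHom.comp G'.M
  have hE : ∀ g t, E g t ↔ R g + cycMod l n g • R g⁻¹ = f t := fun g t => by
    show _ = _ ↔ _
    rw [Local.toZModPow_traceOp]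
    rfl
  obtain ⟨t, ht, hEt⟩ := Local.exists_mod_rel G.τ G.M G.continuous_level (insert l N.primeFactors)
    (Finset.mem_insert_self _ _) n E (L₁ ⊔ L₂)
    (fun x u t hu hx => by
      rw [hE] at hx ⊢
      have h1 : ∀ y ∈ L₁, u y = y := fun y hy => hu y (le_sup_left (b := L₂) hy)
      have h1' : ∀ y ∈ L₁, u⁻¹ y = y := fun y hy => by
        conv_lhs => rw [← h1 y hy]
        exact u.symm_apply_apply y
      have e1 : R u = 1 := hfix₁ u h1
      have e1' : R u⁻¹ = 1 := hfix₁ _ h1'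
      rw [map_mul, map_mul, hfix₂ u fun y hy => hu y (le_sup_right (a := L₁) hy), mul_one, e1,
        mul_one, _root_.mul_inv_rev, map_mul, e1', one_mul]
      exact hx)
    (fun x t k hx => by
      rw [hE] at hx ⊢
      have hinv : R x * R x⁻¹ = 1 := by rw [← map_mul, mul_inv_cancel, map_one]
      have hinv' : R x⁻¹ * R x = 1 := by rw [← map_mul, inv_mul_cancel, map_one]
      have key := pow_add_pow_eq_luc f (x := R x) (y := cycMod l n x • R x⁻¹) (a := t)
        (d := Nat.cast (R := TZ N) (cycMod l n x).val)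
        (Commute.smul_right (hinv.trans hinv'.symm) _) hx
        (by rw [mul_smul_comm, hinv, map_natCast, ← Local.mapMatrix_natCast_smul, mul_one]) k
      rw [_root_.smul_pow, ← map_pow, ← map_pow, ← map_pow, inv_pow] at key
      exact key)
    (fun q hq hqS A hA σ hσ => by
      have hqN : ¬ q ∣ N := fun hd =>
        hqS (Finset.mem_insert_of_mem (Nat.mem_primeFactors.mpr ⟨hq, hd, NeZero.ne N⟩))
      have hql : q ≠ l := fun hd => hqS (hd ▸ Finset.mem_insert_self _ _)
      refine ⟨heckeTOf hq hqN, G.frobenius_rel q hq hqN hql A hA σ hσ, ?_⟩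
      rw [hE]
      have ht := G'.frobenius_rel q hq hqN hql A hA σ hσ
      have h0 := congrArg (fun X => (PadicInt.toZModPow n).mapMatrix X) ht
      simp only [map_zero, map_add, map_sub, map_mul, map_natCast] at h0
      have hc : cycMod l n σ = q := by
        show PadicInt.toZModPow n (cyc l σ) = _
        rw [cyc_frobenius hq hql hA hσ, map_natCast]
      have hf : f (heckeTOf hq hqN) = (PadicInt.toZModPow n).mapMatrix
          ((Int.castRingHom ℤ_[l]).mapMatrix (G'.τ (heckeTOf hq hqN))) := by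
        ext i j
        simp [f]
      rw [← hf] at h0
      have h2 : (R σ * R σ - f (heckeTOf hq hqN) * R σ + (q : Matrix _ _ (ZMod (l ^ n))))
          * R σ⁻¹ = 0 := by
        show ((PadicInt.toZModPow n).mapMatrix (G'.M σ) * (PadicInt.toZModPow n).mapMatrix (G'.M σ)
          - f (heckeTOf hq hqN) * (PadicInt.toZModPow n).mapMatrix (G'.M σ)
          + (q : Matrix _ _ (ZMod (l ^ n)))) * _ = 0
        rw [h0, zero_mul]
      rw [add_mul, sub_mul, mul_assoc, mul_assoc, ← map_mul, mul_inv_cancel, map_one, mul_one,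
        mul_one, sub_add_eq_add_sub, sub_eq_zero] at h2
      rw [hc, Nat.cast_smul_eq_nsmul, nsmul_eq_mul]
      exact h2) g
  have hmod : ∀ i j, ((l : ℤ) ^ (m + c)) ∣ G'.τ (t - 2) i j := by
    intro i j
    have h2 : f (t - 2) = 0 := by
      have h1 : (PadicInt.toZModPow n).mapMatrix (Local.traceOp G'.M g) = f t := hEt
      rw [map_sub, ← h1, h, map_ofNat, map_ofNat, sub_self]
    have h3 := congrFun (congrFun h2 i) j
    have h4 : ((G'.τ (t - 2) i j : ℤ) : ZMod (l ^ n)) = 0 := h3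
    rw [ZMod.intCast_zmod_eq_zero_iff_dvd] at h4
    exact_mod_cast h4
  obtain ⟨t', ht'⟩ := hc m (t - 2) hmod
  -- read off modulo `l ^ m`
  let F : TZ N →+* Matrix (Fin G.r) (Fin G.r) ℤ_[l] := (Int.castRingHom _).mapMatrix.comp G.τ
  have hF : (PadicInt.toZModPow n).mapMatrix (Local.traceOp G.M g) =
      (PadicInt.toZModPow n).mapMatrix (F t) :=
    ht.trans (Local.toZModPow_icast n (G.τ t)).symm
  have h5 : ∀ i j, ((l : ℤ_[l]) ^ m) ∣ (Local.traceOp G.M g - 2 : Matrix _ _ ℤ_[l]) i j := by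
    intro i j
    have h6 : (PadicInt.toZModPow n).mapMatrix (Local.traceOp G.M g - 2 - F (t - 2)) = 0 := by
      simp only [map_sub, hF, map_ofNat, sub_self]
    have h8 : PadicInt.toZModPow n ((Local.traceOp G.M g - 2 - F (t - 2)) i j) = 0 :=
      congrFun (congrFun h6 i) j
    rw [← RingHom.mem_ker, PadicInt.ker_toZModPow, Ideal.mem_span_singleton] at h8
    have h9 : ((l : ℤ_[l]) ^ m) ∣ F (t - 2) i j := by
      rw [ht', map_mul, map_pow, map_natCast, ← Matrix.diagonal_natCast, Matrix.diagonal_pow,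
        Matrix.diagonal_mul, Pi.pow_apply]
      exact dvd_mul_right _ _
    have := dvd_add ((pow_dvd_pow _ (Nat.le_add_right m c)).trans h8) h9
    rwa [Matrix.sub_apply (Local.traceOp G.M g - 2), sub_add_cancel] at this
  ext i j
  simp only [map_zero, Matrix.zero_apply, RingHom.mapMatrix_apply, Matrix.map_apply]
  rw [← RingHom.mem_ker, PadicInt.ker_toZModPow, Ideal.mem_span_singleton]
  exact h5 i j

/-- At level `p` inertia at `p` satisfies `M(i) + M(i)⁻¹ = 2`, in every Galois model. -/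
theorem traceOp_eq_two {p l : ℕ} [Fact p.Prime] [Fact l.Prime] (hlp : l ≠ p) (G : GalModel p l)
    {A : ValuationSubring (AlgebraicClosure ℚ)} (hA : A.LiesOverPrime p)
    {i : AlgebraicClosure ℚ ≃ₐ[ℚ] AlgebraicClosure ℚ} (hi : i ∈ A.inertiaSubgroupIn ℚ) :
    Local.traceOp G.M i = 2 := by
  have hp : p.Prime := Fact.out
  have : NeZero p := ⟨hp.ne_zero⟩
  obtain ⟨M, _, ⟨D⟩⟩ := Local.exists_dataOneCore (p := l) (q := p) hp (Ne.symm hlp) 1
    (by simpa using hp.one_lt.ne')
  have h := Local.traceOp_inertia D hp (Ne.symm hlp) hA hi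
  have key : ∀ (N : ℕ) [NeZero N], N = p → ∀ G' : GalModel N l, Local.traceOp G'.M i = 2 →
      Local.traceOp G.M i = 2 := by
    intro N _ hN G' h'
    subst hN
    exact traceOp_two_transfer G G' i h'
  exact key (p * 1) (mul_one p) D.g₁ h

end FLTAgent.Mazur.Eis

end
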