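import Fermat.Agent.Mazur.Eis.Level
import Fermat.Agent.Mazur.Eis.Linear
import Fermat.Agent.Mazur.Eis.Trace
import Fermat.Agent.Mazur.Descent.Tame

/-!
# Inertia at `p` on roots: a single generator for all levels, and the constants
-/

set_option autoImplicit false

noncomputable section

open ModularCurve CuspForm
open scoped Matrix Pointwise

namespace FLTAgent.Mazur.Eis

open FLTAgent.Reps FLTAgent.FlatHopf

local notation "Qb" => AlgebraicClosure ℚ
local notation "Γℚ" => (AlgebraicClosure ℚ ≃ₐ[ℚ] AlgebraicClosure ℚ)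

/-- `1 + x` has `l`-power order if `x` and `l` are nilpotent. -/
theorem exists_pow_prime_pow_eq_one {R : Type*} [Ring R] {l : ℕ} (hl : l.Prime) {x : R} {k m : ℕ}
    (hk : (l : R) ^ k = 0) (hx : x ^ m = 0) : ∃ n : ℕ, (1 + x) ^ l ^ n = 1 := by
  obtain ⟨n, hn⟩ : ∃ n, m ≤ l ^ n := ⟨m, (Nat.lt_pow_self hl.one_lt).le⟩
  have hdvd : ((l : Polynomial ℤ)) ∣
      (1 + Polynomial.X) ^ l ^ n - (1 + Polynomial.X ^ l ^ n) := by
    obtain ⟨r, hr⟩ := (Commute.all (1 : Polynomial ℤ) Polynomial.X).exists_add_pow_prime_pow_eq hl n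
    exact ⟨1 * Polynomial.X * r, by rw [hr, one_pow]; ring⟩
  obtain ⟨Q, hQ⟩ := dvd_sub_pow_of_dvd_sub hdvd k
  have h := congrArg (Polynomial.aeval x) hQ
  simp only [map_sub, map_pow, map_add, map_one, map_mul, map_natCast, Polynomial.aeval_X] at h
  rw [pow_succ, hk, zero_mul, zero_mul, pow_eq_zero_of_le hn hx, add_zero, one_pow,
    sub_eq_zero, ← pow_mul, ← pow_add] at h
  exact ⟨n + k, h⟩

/-- A generator of a cyclic `l`-group is detected in a nontrivial quotient. -/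
theorem mem_zpowers_of_quotient {H H' : Type*} [Group H] [Group H'] {l : ℕ} (hl : l.Prime)
    (π : H →* H') {g j : H} (hg : g ∈ Subgroup.zpowers j) (hj : π j ∈ Subgroup.zpowers (π g))
    (hπj : π j ≠ 1) {b : ℕ} (hb : j ^ l ^ b = 1) : j ∈ Subgroup.zpowers g := by
  obtain ⟨n, rfl⟩ := hg
  obtain ⟨a, ha⟩ := hj
  simp only at ha
  rw [map_zpow, ← zpow_mul] at ha
  have hdvd : (orderOf (π j) : ℤ) ∣ n * a - 1 := by
    rw [orderOf_dvd_iff_zpow_eq_one, _root_.zpow_sub, ha, zpow_one, mul_inv_cancel]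
  have hlo : (l : ℤ) ∣ orderOf (π j) := by
    obtain ⟨i, -, hi⟩ := (Nat.dvd_prime_pow hl).1
      (orderOf_dvd_of_pow_eq_one (show π j ^ l ^ b = 1 by rw [← map_pow, hb, map_one]))
    rw [hi]
    rcases Nat.eq_zero_or_pos i with rfl | hi0
    · rw [pow_zero, orderOf_eq_one_iff] at hi
      exact absurd hi hπj
    · exact_mod_cast dvd_pow_self l hi0.ne'
  have hln : ¬ (l : ℤ) ∣ n := fun h => by
    have h1 : (l : ℤ) ∣ 1 := by
      have := dvd_sub (dvd_mul_of_dvd_left h a) (hlo.trans hdvd)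
      simpa using this
    exact hl.ne_one (Nat.dvd_one.1 (by exact_mod_cast h1))
  have hcop : IsCoprime n ((l : ℤ) ^ b) :=
    (((Nat.prime_iff_prime_int.1 hl).coprime_iff_not_dvd.2 hln).symm).pow_right
  obtain ⟨x, y, hxy⟩ := hcop
  refine ⟨x, ?_⟩
  show (j ^ n) ^ x = j
  rw [← zpow_mul]
  conv_rhs => rw [← zpow_one j, ← hxy]
  rw [_root_.zpow_add, mul_comm x n, mul_comm y, zpow_mul j ((l : ℤ) ^ b) y, ← Nat.cast_pow,
    zpow_natCast, hb, one_zpow, mul_one]

theorem map_castHom_toZModPow {l : ℕ} [Fact l.Prime] {m n : ℕ} (h : m ≤ n) (x : ℤ_[l]) :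
    ZMod.castHom (pow_dvd_pow l h) (ZMod (l ^ m)) (PadicInt.toZModPow n x) =
      PadicInt.toZModPow m x :=
  DFunLike.congr_fun (PadicInt.zmod_cast_comp_toZModPow m n h) x

variable {p l : ℕ} [Fact p.Prime] [Fact l.Prime] {D : TorsData p l}

theorem cast_galMod {m n : ℕ} (h : m ≤ n) (σ : Γℚ) :
    (ZMod.castHom (pow_dvd_pow l h) (ZMod (l ^ m))).mapMatrix (galMod D n σ) = galMod D m σ :=
  Matrix.ext fun i j => map_castHom_toZModPow h (D.G.M σ i j)

variable (hlp : l ≠ p) {A : ValuationSubring (AlgebraicClosure ℚ)} (hA : A.LiesOverPrime p)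

include hlp hA in
theorem sq_inertia {i : Γℚ} (hi : i ∈ A.inertiaSubgroupIn ℚ) :
    (D.G.M i - 1) * (D.G.M i - 1) = 0 := by
  have h := traceOp_eq_two hlp D.G hA hi
  rw [Local.traceOp, cyc_inertia (Fact.out : p.Prime) hlp.symm hA hi, one_smul] at h
  have h2 := congrArg (D.G.M i * ·) h
  simp only [mul_add, ← map_mul, mul_inv_cancel, map_one] at h2
  rw [sub_mul, mul_sub, mul_one, one_mul, ← map_mul]
  rw [mul_two] at h2
  calc D.G.M (i * i) - D.G.M i - (D.G.M i - 1)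
      = D.G.M (i * i) + 1 - (D.G.M i + D.G.M i) := by abel
    _ = 0 := sub_eq_zero.2 h2

include hlp hA in
theorem sq_galMod {i : Γℚ} (hi : i ∈ A.inertiaSubgroupIn ℚ) (k : ℕ) :
    (galMod D k i - 1) * (galMod D k i - 1) = 0 := by
  show ((PadicInt.toZModPow k).mapMatrix (D.G.M i) - 1) * _ = 0
  have := congrArg (PadicInt.toZModPow k).mapMatrix (sq_inertia (D := D) hlp hA hi)
  rwa [map_mul, map_sub, map_one, map_zero] at this

include hlp hA in
theorem Root.exists_pow_act {k : ℕ} (R : Root D k) {i : Γℚ} (hi : i ∈ A.inertiaSubgroupIn ℚ) :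
    ∃ n : ℕ, R.act i ^ l ^ n = 1 := by
  set N := galMod D k i - 1 with hN
  have hx : (R.act i - 1) ^ 3 = 0 := by
    have h1 : ∀ z : Ext D k, (R.act i - 1) z = (N *ᵥ z.1 + z.2 • R.c i, 0) := fun z => by
      show R.act i z - z = _
      rw [R.act_apply, hN, Matrix.sub_mulVec, Matrix.one_mulVec]
      exact Prod.ext (by show galMod D k i *ᵥ z.1 + z.2 • R.c i - z.1 = _; abel) (sub_self z.2)
    refine AddMonoidHom.ext fun z => ?_
    rw [pow_succ', pow_succ', pow_one]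
    show (R.act i - 1) ((R.act i - 1) ((R.act i - 1) z)) = 0
    rw [h1, h1, h1]
    simp only [zero_smul, add_zero, Matrix.mulVec_mulVec]
    rw [hN, sq_galMod hlp hA hi k, Matrix.zero_mulVec]
    rfl
  have hk : (l : AddMonoid.End (Ext D k)) ^ k = 0 := by
    refine AddMonoidHom.ext fun z => ?_
    rw [← Nat.cast_pow]
    show (((l ^ k : ℕ) : AddMonoid.End (Ext D k))) z = 0
    rw [AddMonoid.End.natCast_apply]
    refine Prod.ext (funext fun j => ?_) ?_ <;>
    · show (l ^ k) • (_ : ZMod (l ^ k)) = 0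
      rw [nsmul_eq_mul, ZMod.natCast_self, zero_mul]
  obtain ⟨n, hn⟩ := exists_pow_prime_pow_eq_one Fact.out hk hx
  exact ⟨n, by rwa [add_sub_cancel] at hn⟩

include hlp hA in
/-- Tame generators for the action on a root. -/
theorem Root.exists_generator {k : ℕ} (R : Root D k) :
    ∃ j ∈ A.inertiaSubgroupIn ℚ,
      (∀ i ∈ A.inertiaSubgroupIn ℚ, R.act.toHomUnits i ∈ Subgroup.zpowers (R.act.toHomUnits j)) ∧
      ∀ F : Γℚ, A.IsFrobeniusAt F p → ∀ i ∈ A.inertiaSubgroupIn ℚ,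
        R.act (F * i * F⁻¹) = R.act (i ^ p) := by
  have : NeZero (l ^ k) := ⟨pow_ne_zero _ (Fact.out : l.Prime).ne_zero⟩
  obtain ⟨H, hH⟩ := hasFlatModel_iff_hasOrder.1 (R.hasFlatModel fun h =>
    hlp ((Nat.prime_dvd_prime_iff_eq Fact.out Fact.out).1 h))
  obtain ⟨L, hL, -, hfix⟩ := exists_galois_act_eq hH
  obtain ⟨j, hj, hgen, hfrob⟩ := Tame.exists_inertia_generator R.act.toHomUnits L
    (fun σ hσ => Units.ext (AddMonoidHom.ext fun x =>
      hfix σ ((IntermediateField.mem_fixingSubgroup_iff _ _).2 hσ) x))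
    (Fact.out : p.Prime) A hA (Fact.out : l.Prime) hlp
    (fun i hi => by
      obtain ⟨n, hn⟩ := R.exists_pow_act hlp hA hi
      exact ⟨n, Units.ext (by rw [Units.val_pow_eq_pow_val, Units.val_one]; exact hn)⟩)
  refine ⟨j, hj, hgen, fun F hF i hi => ?_⟩
  have := congrArg Units.val (hfrob F hF i hi)
  rw [Units.val_pow_eq_pow_val] at this
  rw [map_pow]
  exact this

theorem ε_ne_zero {C0 : JZero p} (hlC : l ∣ addOrderOf C0) (hord : addOrderOf C0 ≠ 0)
    (I : EisIdem D C0) : I.ε ≠ 0 := by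
  intro h
  obtain ⟨u, hu, a, ha, ha1, hεu⟩ := I.exists_pair 1
  have h0 := dvd_of_eq_zero D hlC hord hu (by rw [← hεu, h, map_zero]) ha
  rw [ha1] at h0
  exact one_ne_zero h0

include hlp hA in
/-- One element of inertia generates the action on every sufficiently deep root. -/
theorem exists_inertia_gen {C0 : JZero p} (hlC : l ∣ addOrderOf C0) (hord : addOrderOf C0 ≠ 0)
    (I : EisIdem D C0) :
    ∃ i₀ ∈ A.inertiaSubgroupIn ℚ, ∃ k₀ : ℕ, ∀ k, k₀ ≤ k → ∀ R : Root D k,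
      (∀ i ∈ A.inertiaSubgroupIn ℚ, R.act.toHomUnits i ∈ Subgroup.zpowers (R.act.toHomUnits i₀)) ∧
      ∀ F : Γℚ, A.IsFrobeniusAt F p → R.act (F * i₀ * F⁻¹) = R.act (i₀ ^ p) := by
  -- inertia is not trivial
  obtain ⟨i₁, hi₁, hne⟩ : ∃ i ∈ A.inertiaSubgroupIn ℚ, D.G.M i ≠ 1 := by
    by_contra hcon
    push Not at hcon
    obtain ⟨s, hs, ⟨X, Y, hXY⟩, -⟩ := exists_padic_identities (ε := I.ε) (N := 0)
      (c := D.G.M D.G.cc) (θ := D.θ.map (Int.castRingHom ℤ_[l])) I.idem (Commute.zero_left _)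
      (I.comm_galois _) I.comm_theta (by rw [zero_mul, zero_mul])
      (by rw [← map_mul, D.G.cc_mul_self, map_one]) D.θ_anti
      (by
        rw [show D.θ.map (Int.castRingHom ℤ_[l]) = (Int.castRingHom ℤ_[l]).mapMatrix D.θ from rfl,
          ← RingHom.map_det]
        simpa using D.θ_det)
      (fun v h1 _ h3 => eq_zero_of_fixed I hlp hA h1
        (fun σ hσ => by rw [hcon σ hσ, Matrix.one_mulVec]) h3)
    rw [zero_mul, mul_zero, add_zero] at hXY
    exact ε_ne_zero hlC hord I ((smul_eq_zero.1 hXY).resolve_left (Nat.cast_ne_zero.2 hs))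
  obtain ⟨k₀, hk₀⟩ : ∃ k, galMod D k i₁ ≠ 1 := by
    by_contra hcon
    push Not at hcon
    refine hne (eq_of_forall_toZModPow fun k => ?_)
    rw [map_one]
    exact hcon k
  set ψ := (galMod D k₀).toHomUnits
  obtain ⟨L, hL, hLfix⟩ := D.G.continuous_level k₀
  obtain ⟨i₀, hi₀, hgen₀, -⟩ := Tame.exists_inertia_generator ψ L
    (fun σ hσ => Units.ext (hLfix σ hσ)) (Fact.out : p.Prime) A hA (Fact.out : l.Prime) hlp
    (fun i hi => by
      obtain ⟨n, hn⟩ := exists_pow_prime_pow_eq_one (x := galMod D k₀ i - 1) (k := k₀) (m := 2)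
        (Fact.out : l.Prime)
        (show (l : Matrix (Fin D.G.r) (Fin D.G.r) (ZMod (l ^ k₀))) ^ k₀ = 0 by
          rw [← Nat.cast_pow, ← Matrix.diagonal_natCast, ZMod.natCast_self]
          exact Matrix.diagonal_zero)
        (by rw [sq]; exact sq_galMod hlp hA hi k₀)
      rw [add_sub_cancel] at hn
      exact ⟨n, Units.ext (by rw [Units.val_pow_eq_pow_val, Units.val_one]; exact hn)⟩)
  refine ⟨i₀, hi₀, k₀, fun k hk R => ?_⟩
  obtain ⟨j, hj, hgen, hfrob⟩ := R.exists_generator hlp hA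
  refine ⟨fun i hi => ?_, fun F hF => hfrob F hF i₀ hi₀⟩
  suffices h : R.act.toHomUnits j ∈ Subgroup.zpowers (R.act.toHomUnits i₀) from
    (Subgroup.zpowers_le.2 h) (hgen i hi)
  -- compare in the quotient modulo `l ^ k₀`
  set φ := R.act.toHomUnits
  have hkey : ∀ σ : Γℚ, φ σ = 1 → ψ σ = 1 := by
    intro σ hσ
    apply Units.ext
    show galMod D k₀ σ = 1
    rw [← cast_galMod hk σ]
    have h1 : galMod D k σ = 1 := by
      refine Matrix.ext_of_mulVec_single fun a => ?_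
      have h2 := congrArg Prod.fst
        (DFunLike.congr_fun (congrArg Units.val hσ) ((Pi.single a 1, 0) : Ext D k))
      rw [Matrix.one_mulVec]
      have h3 : galMod D k σ *ᵥ (Pi.single a 1 : Fin D.G.r → ZMod (l ^ k)) +
          (0 : ZMod (l ^ k)) • R.c σ = Pi.single a 1 := h2
      rwa [zero_smul, add_zero] at h3
    rw [h1, map_one]
  have hψne : ψ j ≠ 1 := by
    intro h0
    obtain ⟨n, hn⟩ := hgen i₀ hi₀
    have hi0 : ψ i₀ = 1 := by
      have h2 : φ ((j ^ n)⁻¹ * i₀) = 1 := by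
        rw [map_mul, map_inv, map_zpow, show φ j ^ n = φ i₀ from hn, inv_mul_cancel]
      have h3 := hkey _ h2
      rwa [map_mul, map_inv, map_zpow, h0, one_zpow, inv_one, one_mul] at h3
    have h4 := hgen₀ i₁ hi₁
    rw [hi0, Subgroup.zpowers_one_eq_bot, Subgroup.mem_bot] at h4
    exact hk₀ (congrArg Units.val h4)
  obtain ⟨b, hb⟩ := R.exists_pow_act hlp hA hj
  obtain ⟨n, hn⟩ := hgen i₀ hi₀
  have hψn : ψ i₀ = ψ j ^ n := by
    have h2 : φ ((j ^ n)⁻¹ * i₀) = 1 := by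
      rw [map_mul, map_inv, map_zpow, show φ j ^ n = φ i₀ from hn, inv_mul_cancel]
    have h3 := hkey _ h2
    rw [map_mul, map_inv, map_zpow, inv_mul_eq_one] at h3
    exact h3.symm
  have hφb : φ j ^ l ^ b = 1 := Units.ext (by rw [Units.val_pow_eq_pow_val]; exact hb)
  have hψb : ψ j ^ l ^ b = 1 := by
    rw [← map_pow]
    exact hkey _ (by rw [map_pow, hφb])
  obtain ⟨x, hx⟩ := mem_zpowers_of_quotient (Fact.out : l.Prime) (MonoidHom.snd _ _)
    (g := (φ i₀, ψ i₀)) (j := (φ j, ψ j)) ⟨n, Prod.ext hn hψn.symm⟩ (hgen₀ j hj) hψne (b := b)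
    (Prod.ext hφb hψb)
  exact ⟨x, congrArg Prod.fst hx⟩

/-- The constants attached to a generator. -/
theorem exists_constants (hlp : l ≠ p) (hA : A.LiesOverPrime p) {C0 : JZero p} (I : EisIdem D C0)
    {i₀ : Γℚ} (hi₀ : i₀ ∈ A.inertiaSubgroupIn ℚ) {k₀ : ℕ}
    (hgen : ∀ k, k₀ ≤ k → ∀ R : Root D k, ∀ i ∈ A.inertiaSubgroupIn ℚ,
      R.act.toHomUnits i ∈ Subgroup.zpowers (R.act.toHomUnits i₀)) :
    ∃ s : ℕ, s ≠ 0 ∧ (∃ X Y : Matrix (Fin D.G.r) (Fin D.G.r) ℤ_[l],
        (s : ℤ_[l]) • I.ε = X * (D.G.M i₀ - 1) + (D.G.M i₀ - 1) * Y) ∧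
      ∃ U P : Matrix (Fin D.G.r) (Fin D.G.r) ℤ_[l], (s : ℤ_[l]) • I.ε = U + P ∧
        (D.G.M i₀ - 1) * U = 0 ∧ D.G.M D.G.cc * P = P ∧ I.ε * U = U ∧ I.ε * P = P := by
  refine exists_padic_identities I.idem ((I.comm_galois _).sub_left (Commute.one_left _))
    (I.comm_galois _) I.comm_theta (by rw [sq_inertia hlp hA hi₀, zero_mul])
    (by rw [← map_mul, D.G.cc_mul_self, map_one]) D.θ_anti
    (by
      rw [show D.θ.map (Int.castRingHom ℤ_[l]) = (Int.castRingHom ℤ_[l]).mapMatrix D.θ from rfl,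
        ← RingHom.map_det]
      simpa using D.θ_det) fun v h1 h2 h3 => ?_
  refine eq_zero_of_fixed I hlp hA h1 (fun i hi => ?_) h3
  rw [Matrix.sub_mulVec, Matrix.one_mulVec, sub_eq_zero] at h2
  refine eq_of_forall_toZModPow_vec fun m a => ?_
  set k := max m k₀
  let R : Root D k := ⟨0, fun τ => by rw [smul_zero, Kronecker.galois_smul_zero]⟩
  have hc : ∀ τ, R.c τ = 0 := fun τ => D.e_injective k (by
    rw [R.e_c, map_zero, Kronecker.galois_smul_zero, sub_self])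
  set ξ : Ext D k := (PadicInt.toZModPow k ∘ v, 0)
  have hact : ∀ τ, R.act τ ξ = (PadicInt.toZModPow k ∘ (D.G.M τ *ᵥ v), 0) := fun τ => by
    rw [R.act_apply]
    refine Prod.ext (funext fun b => ?_) rfl
    rw [hc, smul_zero, add_zero]
    exact ((PadicInt.toZModPow k).map_mulVec (D.G.M τ) v b).symm
  let St : Subgroup (AddMonoid.End (Ext D k))ˣ :=
    { carrier := {u | (u : AddMonoid.End (Ext D k)) ξ = ξ}
      mul_mem' := fun {u u'} (h : _ = _) (h' : _ = _) => by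
        show (u : AddMonoid.End (Ext D k)) ((u' : AddMonoid.End (Ext D k)) ξ) = ξ
        rw [h', h]
      one_mem' := rfl
      inv_mem' := fun {u} (h : _ = _) => by
        show ((u⁻¹ : (AddMonoid.End (Ext D k))ˣ) : AddMonoid.End (Ext D k)) ξ = ξ
        conv_lhs => rw [← h]
        show (((u⁻¹ : (AddMonoid.End (Ext D k))ˣ) : AddMonoid.End (Ext D k)) *
          (u : AddMonoid.End (Ext D k))) ξ = ξ
        rw [Units.inv_mul]
        rfl }
  have hmem : R.act.toHomUnits i ∈ St := by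
    refine (Subgroup.zpowers_le.2 ?_) (hgen k (le_max_right _ _) R i hi)
    show R.act i₀ ξ = ξ
    rw [hact, h2]
  have h4 : R.act i ξ = ξ := hmem
  rw [hact] at h4
  have h5 := congrFun (congrArg Prod.fst h4) a
  have h6 := congrArg (ZMod.castHom (pow_dvd_pow l (le_max_left m k₀)) (ZMod (l ^ m))) h5
  simp only [ξ, Function.comp_apply] at h6
  exact (map_castHom_toZModPow (le_max_left m k₀) _).symm.trans
    (h6.trans (map_castHom_toZModPow (le_max_left m k₀) _))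

end FLTAgent.Mazur.Eis

end
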