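import Fermat.Agent.Mazur.Eis.Cong

/-!
# Extensions of the trivial module by a constant group, flat at an odd `l`
-/

set_option autoImplicit false

noncomputable section

open scoped Pointwise

namespace FLTAgent.Mazur.Eis

open FLTAgent.FlatHopf

local notation "Qb" => AlgebraicClosure ℚ
local notation "Γℚ" => (AlgebraicClosure ℚ ≃ₐ[ℚ] AlgebraicClosure ℚ)

variable {l : ℕ} {A : ValuationSubring (AlgebraicClosure ℚ)}
  {σ : AlgebraicClosure ℚ ≃ₐ[ℚ] AlgebraicClosure ℚ}

theorem valuation_map_le_iff (hσ : σ ∈ A.decompositionSubgroup ℚ) (x y : Qb) :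
    A.valuation (σ x) ≤ A.valuation (σ y) ↔ A.valuation x ≤ A.valuation y := by
  have hmem : ∀ z : Qb, A.valuation (σ z) ≤ 1 ↔ A.valuation z ≤ 1 := fun z => by
    rw [A.valuation_le_one_iff, A.valuation_le_one_iff]
    conv_rhs => rw [← ValuationSubring.smul_mem_pointwise_smul_iff (g := σ)]
    rw [MulAction.mem_stabilizer_iff.1 hσ, AlgEquiv.smul_def]
  by_cases hy : y = 0
  · simp [hy]
  have hy' : 0 < A.valuation y := pos_of_ne_zero ((Valuation.ne_zero_iff _).2 hy)
  have hy'' : 0 < A.valuation (σ y) :=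
    pos_of_ne_zero ((Valuation.ne_zero_iff _).2 (by simpa using hy))
  have := hmem (x / y)
  rw [map_div₀, map_div₀, map_div₀, div_le_one₀ hy'', div_le_one₀ hy'] at this
  exact this

theorem valuation_map_eq_of_pow_fixed (hσ : σ ∈ A.decompositionSubgroup ℚ) {n : ℕ} (hn : n ≠ 0)
    {x : Qb} (hx : (σ ^ n) x = x) : A.valuation (σ x) = A.valuation x := by
  have key : ∀ {a b : Qb}, A.valuation a ≤ A.valuation b →
      ∀ i : ℕ, A.valuation ((σ ^ i) a) ≤ A.valuation ((σ ^ i) b) := fun h i =>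
    (valuation_map_le_iff (pow_mem hσ i) _ _).2 h
  obtain ⟨m, rfl⟩ : ∃ m, n = m + 1 := ⟨n - 1, by omega⟩
  rcases le_total (A.valuation (σ x)) (A.valuation x) with h | h
  · have hdown : ∀ i : ℕ, A.valuation ((σ ^ (i + 1)) x) ≤ A.valuation (σ x) := by
      intro i
      induction i with
      | zero => simp
      | succ i ih =>
        refine le_trans ?_ ih
        have := key h (i + 1)
        rwa [← AlgEquiv.mul_apply, ← pow_succ] at this
    exact le_antisymm h ((congrArg A.valuation hx).symm.le.trans (hdown m))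
  · have hup : ∀ i : ℕ, A.valuation (σ x) ≤ A.valuation ((σ ^ (i + 1)) x) := by
      intro i
      induction i with
      | zero => simp
      | succ i ih =>
        refine le_trans ih ?_
        have := key h (i + 1)
        rwa [← AlgEquiv.mul_apply, ← pow_succ] at this
    exact le_antisymm ((hup m).trans (congrArg A.valuation hx).le) h

theorem mem_decomposition_of_mem_inertiaIn (hσ : σ ∈ A.inertiaSubgroupIn ℚ) :
    σ ∈ A.decompositionSubgroup ℚ := by
  obtain ⟨g, -, rfl⟩ := hσ
  exact g.2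

/-- A rational number has valuation an integral power of that of `l`. -/
theorem exists_valuation_ratCast (hl : l.Prime) (hA : A.LiesOverPrime l) {q : ℚ} (hq : q ≠ 0) :
    ∃ m : ℤ, A.valuation (algebraMap ℚ Qb q) = A.valuation (l : Qb) ^ m :=
  EllP.exists_valuation_eq_zpow hl hA
    ((map_ne_zero_iff _ (algebraMap ℚ Qb).injective).2 hq) fun σ _ => σ.commutes q

/-- A rational number in a place over `l` is congruent to an integer. -/
theorem exists_int_sub_mem_nonunits (hl : l.Prime) (hA : A.LiesOverPrime l) {q : ℚ}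
    (hq : algebraMap ℚ Qb q ∈ A) : ∃ n : ℤ, algebraMap ℚ Qb q - (n : Qb) ∈ A.nonunits := by
  have : Fact l.Prime := ⟨hl⟩
  have hd : ¬ l ∣ q.den := by
    intro hd
    have hnum : ¬ l ∣ q.num.natAbs := fun hn => hl.ne_one
      (Nat.dvd_one.1 (q.reduced ▸ Nat.dvd_gcd hn hd))
    have h1 : A.valuation ((q.num : ℤ) : Qb) = 1 := by
      rcases Int.natAbs_eq q.num with h | h <;> rw [h] <;>
        simp only [Int.cast_neg, Int.cast_natCast, Valuation.map_neg] <;>
        exact valuation_natCast_eq_one hl hA hnum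
    have h2 := (A.valuation_le_one_iff _).2 hq
    rw [← Rat.num_div_den q, map_div₀, map_intCast, map_natCast, map_div₀, h1] at h2
    have h3 : A.valuation ((q.den : ℕ) : Qb) < 1 :=
      (A.mem_nonunits_iff).1 ((GalCommon.natCast_mem_nonunits_iff hl hA _).2 hd)
    rw [div_le_one₀ (pos_of_ne_zero (by simp))] at h2
    exact absurd h2 (not_le.2 h3)
  obtain ⟨e, he⟩ : ∃ e : ℤ, (l : ℤ) ∣ q.num - e * q.den := by
    refine ⟨((q.num : ZMod l) / (q.den : ZMod l)).val, ?_⟩
    rw [← ZMod.intCast_zmod_eq_zero_iff_dvd]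
    have : ((q.den : ℕ) : ZMod l) ≠ 0 := fun h => hd ((ZMod.natCast_eq_zero_iff _ _).1 h)
    push_cast
    rw [ZMod.natCast_val, ZMod.cast_id, div_mul_cancel₀ _ this, sub_self]
  refine ⟨e, (A.mem_nonunits_iff).2 ?_⟩
  have e1 : algebraMap ℚ Qb q - (e : Qb) = ((q.num - e * q.den : ℤ) : Qb) / (q.den : Qb) := by
    rw [eq_div_iff (by simp)]
    have h1 : algebraMap ℚ Qb q * (q.den : Qb) = (q.num : Qb) := by
      rw [← map_natCast (algebraMap ℚ Qb), ← map_mul, Rat.mul_den_eq_num, map_intCast]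
    rw [sub_mul, h1]
    push_cast
    ring
  rw [e1, map_div₀, valuation_natCast_eq_one hl hA hd, div_one]
  exact (A.mem_nonunits_iff).1 ((GalCommon.intCast_mem_nonunits_iff hl hA _).2 he)

variable {G : Type} [AddCommGroup G] [Finite G]
  {act : (AlgebraicClosure ℚ ≃ₐ[ℚ] AlgebraicClosure ℚ) →* AddMonoid.End G}

/-- If the constant group generated by `w` is extended by `ξ` inside a finite flat group and `l` is
odd, inertia at `l` fixes `ξ`. -/
theorem inertia_fixes_of_trivial (hl : l.Prime) (hl2 : l ≠ 2) (hflat : HasFlatModel l act)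
    {ξ w : G} (hlw : l • w = 0) (hW : ∀ σ, act σ w = w)
    (hstab : ∀ σ, ∃ i : ℕ, act σ ξ = ξ + i • w) (hA : A.LiesOverPrime l)
    (hσ : σ ∈ A.inertiaSubgroupIn ℚ) : act σ ξ = ξ := by
  have : Fact l.Prime := ⟨hl⟩
  obtain ⟨H, hH⟩ := hasFlatModel_iff_hasOrder.1 hflat
  by_contra hne
  obtain ⟨i, hi⟩ := hstab σ
  set w' := i • w with hw'
  have hw'0 : w' ≠ 0 := fun h => hne (by rw [hi, h, add_zero])
  have hlw' : l • w' = 0 := by rw [hw', smul_comm, hlw, smul_zero]
  have hW' : ∀ τ, act τ w' = w' := fun τ => by rw [hw', map_nsmul, hW]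
  have hpow : ∀ j : ℕ, act (σ ^ j) ξ = ξ + j • w' := by
    intro j
    induction j with
    | zero => rw [pow_zero, map_one, zero_nsmul, add_zero]; rfl
    | succ j ih =>
      rw [pow_succ', map_mul]
      show act σ (act (σ ^ j) ξ) = _
      rw [ih, map_add, map_nsmul, hW', hi, succ_nsmul', add_assoc]
  -- every element is a power of `σ` times an element fixing `ξ`
  have hdecomp : ∀ τ, ∃ j : ℕ, act ((σ ^ j)⁻¹ * τ) ξ = ξ := by
    intro τ
    obtain ⟨k, hk⟩ := hstab τ
    have hil : ¬ l ∣ i := fun ⟨d, hd⟩ => hw'0 (by rw [hw', hd, mul_comm, mul_nsmul', hlw, smul_zero])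
    obtain ⟨j, hj⟩ : ∃ j : ℕ, (j * i : ℕ) ≡ k [MOD l] := by
      refine ⟨((k : ZMod l) / (i : ZMod l)).val, (ZMod.natCast_eq_natCast_iff _ _ _).1 ?_⟩
      have : ((i : ℕ) : ZMod l) ≠ 0 := fun h => hil ((ZMod.natCast_eq_zero_iff _ _).1 h)
      push_cast
      rw [ZMod.natCast_val, ZMod.cast_id, div_mul_cancel₀ _ this]
    refine ⟨j, ?_⟩
    have hkj : k • w = j • w' := by
      rw [hw', ← mul_nsmul', nsmul_eq_mod_nsmul k hlw, nsmul_eq_mod_nsmul (j * i) hlw, hj]
    rw [map_mul]
    show act (σ ^ j)⁻¹ (act τ ξ) = ξ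
    rw [hk, hkj, ← hpow]
    show (act (σ ^ j)⁻¹ * act (σ ^ j)) ξ = ξ
    rw [← map_mul, inv_mul_cancel, map_one]
    rfl
  -- the functions on the fixed field of the stabiliser
  let P : Qb → Prop := fun x => ∀ τ, act τ ξ = ξ → τ x = x
  have hPσ : ∀ x, P x → P (σ x) := by
    intro x hx τ hτ
    have h1 : act (σ⁻¹ * τ * σ) ξ = ξ := by
      rw [map_mul, map_mul]
      show act σ⁻¹ (act τ (act σ ξ)) = ξ
      rw [hi, map_add, hτ, hW', ← hi]
      show (act σ⁻¹ * act σ) ξ = ξ
      rw [← map_mul, inv_mul_cancel, map_one]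
      rfl
    have h2 := congrArg σ (hx _ h1)
    simpa [AlgEquiv.mul_apply] using h2
  have hPpow : ∀ x, P x → (σ ^ l) x = x := fun x hx =>
    hx _ (by rw [hpow, hlw', add_zero])
  have hprod : ∀ x, P x → ∃ q : ℚ,
      algebraMap ℚ Qb q = ∏ i ∈ Finset.range l, (σ ^ i) x := by
    intro x hx
    refine GalCommon.exists_rat_of_fixed fun τ => ?_
    obtain ⟨j, hj⟩ := hdecomp τ
    have hPi : ∀ i, P ((σ ^ i) x) := by
      intro i
      induction i with
      | zero => simpa using hx
      | succ i ih =>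
        have := hPσ _ ih
        rwa [← AlgEquiv.mul_apply, ← pow_succ'] at this
    have hσfix : σ (∏ i ∈ Finset.range l, (σ ^ i) x) = ∏ i ∈ Finset.range l, (σ ^ i) x := by
      rw [map_prod]
      by_cases hx0 : x = 0
      · simp [hx0]
      have h1 := Finset.prod_range_succ' (fun i => (σ ^ i) x) l
      rw [Finset.prod_range_succ, hPpow x hx] at h1
      simp only [pow_zero, AlgEquiv.one_apply] at h1
      refine (mul_right_cancel₀ hx0 (h1.trans ?_)).symm
      simp only [pow_succ', AlgEquiv.mul_apply]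
    have hpowfix : ∀ n : ℕ, (σ ^ n) (∏ i ∈ Finset.range l, (σ ^ i) x) =
        ∏ i ∈ Finset.range l, (σ ^ i) x := by
      intro n
      induction n with
      | zero => simp
      | succ n ih => rw [pow_succ', AlgEquiv.mul_apply, ih, hσfix]
    have h2 : ((σ ^ j)⁻¹ * τ) (∏ i ∈ Finset.range l, (σ ^ i) x) =
        ∏ i ∈ Finset.range l, (σ ^ i) x := by
      rw [map_prod]
      exact Finset.prod_congr rfl fun i _ => hPi i _ hj
    have h3 := congrArg (σ ^ j) h2
    rw [← AlgEquiv.mul_apply, mul_inv_cancel_left] at h3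
    exact h3.trans (hpowfix j)
  have hdec := mem_decomposition_of_mem_inertiaIn hσ
  have hv : ∀ x, P x → ∀ n : ℕ, A.valuation ((σ ^ n) x) = A.valuation x := by
    intro x hx n
    induction n with
    | zero => simp
    | succ n ih =>
      rw [pow_succ', AlgEquiv.mul_apply, ← ih]
      refine valuation_map_eq_of_pow_fixed hdec hl.ne_zero ?_
      rw [← AlgEquiv.mul_apply, ← pow_add, add_comm, pow_add, AlgEquiv.mul_apply, hPpow x hx]
  have hvl : ∀ x, P x → x ≠ 0 → ∃ m : ℤ, A.valuation x ^ l = A.valuation (l : Qb) ^ m := by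
    intro x hx hx0
    obtain ⟨q, hq⟩ := hprod x hx
    have hq0 : q ≠ 0 := by
      rintro rfl
      rw [map_zero, eq_comm, Finset.prod_eq_zero_iff] at hq
      obtain ⟨i, -, hi⟩ := hq
      exact hx0 ((map_eq_zero_iff _ (σ ^ i).injective).1 hi)
    obtain ⟨m, hm⟩ := exists_valuation_ratCast hl hA hq0
    refine ⟨m, ?_⟩
    rw [← hm, hq, map_prod, Finset.prod_congr rfl fun i _ => hv x hx i, Finset.prod_const,
      Finset.card_range]
  -- residues
  have hinert : ∀ n : ℕ, ∀ x ∈ A, (σ ^ n) x - x ∈ A.nonunits := fun n x hx =>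
    EllP.smul_sub_mem_nonunits hl hA ((EllP.mem_inertiaSubgroupIn_iff hl hA).1 (pow_mem hσ n)) hx
  have hres : ∀ x, ∀ hx : x ∈ A, P x → ∃ (q : ℚ) (hq : algebraMap ℚ Qb q ∈ A),
      algebraMap ℚ Qb q = ∏ i ∈ Finset.range l, (σ ^ i) x ∧
      IsLocalRing.residue A ⟨_, hq⟩ = IsLocalRing.residue A ⟨x, hx⟩ ^ l := by
    intro x hx hPx
    obtain ⟨q, hq⟩ := hprod x hPx
    have hmem : ∀ i : ℕ, (σ ^ i) x ∈ A := fun i => by
      simpa using add_mem (ValuationSubring.nonunits_subset (hinert i x hx)) hx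
    have hq' : algebraMap ℚ Qb q ∈ A := hq ▸ prod_mem fun i _ => hmem i
    refine ⟨q, hq', hq, ?_⟩
    have e : (⟨algebraMap ℚ Qb q, hq'⟩ : A) = ∏ i ∈ Finset.range l, ⟨_, hmem i⟩ :=
      Subtype.ext (hq.trans (map_prod A.subtype (fun i => (⟨_, hmem i⟩ : A)) _).symm)
    rw [e, map_prod, ← Finset.card_range l, ← Finset.prod_const, Finset.card_range]
    refine Finset.prod_congr rfl fun i _ => ?_
    rw [← sub_eq_zero, ← map_sub, ← GalCommon.coe_mem_nonunits_iff_residue]
    exact hinert i x hx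
  have : CharP (IsLocalRing.ResidueField A) l := GalCommon.charP_residueField hl hA
  -- the chosen function
  obtain ⟨h, hh, hge⟩ := exists_valuation_sub_ge hl hH hA ξ hw'0 hlw'
  set a := h ξ with ha
  have haA : a ∈ A := (A.valuation_le_one_iff _).1 (valuation_apply_le_one hl hH hA hh ξ)
  have hPa : P a := fun τ hτ => by
    show galR l τ a = a
    rw [ha, ← hH.equivariant h hh τ, hτ]
  have hσa : h (ξ + w') = σ a := by
    rw [← hi, hH.equivariant h hh σ]
    rfl
  rw [hσa] at hge
  set y := σ a - a with hy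
  have hy0 : y ≠ 0 := by
    intro h0
    rw [h0, map_zero, zero_pow (by have := hl.two_le; omega)] at hge
    exact valuation_prime_ne_zero hl (le_antisymm hge zero_le)
  have hPy : P y := fun τ hτ => by rw [hy, map_sub, hPσ a hPa τ hτ, hPa τ hτ]
  have hy1 : A.valuation y < 1 := by
    simpa using (A.mem_nonunits_iff).1 (hinert 1 a haA)
  have hvlt := valuation_prime_lt_one hA
  have hvpos : 0 < A.valuation (l : Qb) := pos_of_ne_zero (valuation_prime_ne_zero hl)
  obtain ⟨m, hm⟩ := hvl y hPy hy0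
  have hm1 : m = 1 := by
    obtain ⟨n, rfl⟩ : ∃ n : ℕ, m = n := by
      refine Int.eq_ofNat_of_zero_le (not_lt.1 fun hneg => ?_)
      have : A.valuation y ^ l < 1 := pow_lt_one₀ zero_le hy1 hl.ne_zero
      rw [hm] at this
      exact absurd this (not_lt.2 (one_le_zpow_of_nonpos₀ hvpos hvlt.le hneg.le))
    rw [zpow_natCast] at hm
    have hn0 : n ≠ 0 := by
      rintro rfl
      rw [pow_zero] at hm
      exact (pow_lt_one₀ zero_le hy1 hl.ne_zero).ne hm
    have h1 : A.valuation (l : Qb) ^ l ≤ A.valuation (l : Qb) ^ (n * (l - 1)) := by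
      calc A.valuation (l : Qb) ^ l ≤ (A.valuation y ^ (l - 1)) ^ l :=
            pow_le_pow_left₀ zero_le hge l
        _ = _ := by rw [← pow_mul, mul_comm, pow_mul, hm, ← pow_mul]
    have h2 : n * (l - 1) ≤ l := (pow_le_pow_iff_right_of_lt_one₀ hvpos hvlt).1 h1
    have : n = 1 := by
      have h3 := hl.two_le
      by_contra hn1
      have : 2 * (l - 1) ≤ n * (l - 1) := Nat.mul_le_mul_right _ (by omega)
      omega
    simp [this]
  rw [hm1, zpow_one] at hm
  -- `σ` fixes `y` to higher order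
  have hu : A.valuation (σ y - y) < A.valuation y := by
    set u := σ y / y with hu
    have hvu : A.valuation u = 1 := by
      rw [hu, map_div₀, valuation_map_eq_of_pow_fixed hdec hl.ne_zero (hPpow y hPy),
        div_self ((Valuation.ne_zero_iff _).2 hy0)]
    have hPu : P u := fun τ hτ => by rw [hu, map_div₀, hPσ y hPy τ hτ, hPy τ hτ]
    have huA : u ∈ A := (A.valuation_le_one_iff _).1 hvu.le
    obtain ⟨q, hq, hqeq, hqres⟩ := hres u huA hPu
    have hq1 : (⟨_, hq⟩ : A) = 1 := by
      refine Subtype.ext ?_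
      show algebraMap ℚ Qb q = 1
      rw [hqeq]
      simp only [hu, map_div₀, Finset.prod_div_distrib, ← AlgEquiv.mul_apply, ← pow_succ]
      rw [div_eq_one_iff_eq (Finset.prod_ne_zero_iff.2 fun i _ => (map_ne_zero_iff _ (σ ^ i).injective).2 hy0)]
      have h1 := Finset.prod_range_succ' (fun i => (σ ^ i) y) l
      rw [Finset.prod_range_succ, hPpow y hPy] at h1
      simp only [pow_zero, AlgEquiv.one_apply] at h1
      exact (mul_right_cancel₀ hy0 h1).symm
    rw [hq1, map_one] at hqres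
    have hu1 : IsLocalRing.residue A ⟨u, huA⟩ = 1 := by
      have h1 := sub_pow_char (R := IsLocalRing.ResidueField A) (p := l)
        (IsLocalRing.residue A ⟨u, huA⟩) 1
      rw [← hqres, one_pow, sub_self] at h1
      exact sub_eq_zero.1 (pow_eq_zero_iff hl.ne_zero |>.1 h1)
    have h2 : u - 1 ∈ A.nonunits := by
      rw [show u - 1 = (((⟨u, huA⟩ - 1 : A)) : Qb) from rfl,
        GalCommon.coe_mem_nonunits_iff_residue, map_sub, hu1, map_one, sub_self]
    have e : σ y - y = (u - 1) * y := by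
      rw [hu, sub_mul, div_mul_cancel₀ _ hy0, one_mul]
    rw [e, map_mul]
    exact mul_lt_of_lt_one_left (pos_of_ne_zero ((Valuation.ne_zero_iff _).2 hy0))
      ((A.mem_nonunits_iff).1 h2)
  -- `a` is congruent to an integer
  obtain ⟨q, hq, -, hqres⟩ := hres a haA hPa
  obtain ⟨c, hc⟩ := exists_int_sub_mem_nonunits hl hA hq
  have hac : (a - c) ∈ A.nonunits := by
    have hcA : (c : Qb) ∈ A := intCast_mem A c
    have h1 : IsLocalRing.residue A ⟨a, haA⟩ ^ l = (c : IsLocalRing.ResidueField A) ^ l := by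
      rw [← hqres, ← map_intCast (IsLocalRing.residue A) c, ← map_pow]
      have h2 : (l : ℤ) ∣ c ^ l - c := by
        rw [← ZMod.intCast_zmod_eq_zero_iff_dvd]
        push_cast
        rw [ZMod.pow_card, sub_self]
      have h3 : IsLocalRing.residue A ((c : A) ^ l) = IsLocalRing.residue A (c : A) := by
        rw [map_pow, map_intCast, ← sub_eq_zero]
        have := (CharP.intCast_eq_zero_iff (IsLocalRing.ResidueField A) l _).2 h2
        push_cast at this
        exact this
      rw [h3, ← sub_eq_zero, ← map_sub, ← GalCommon.coe_mem_nonunits_iff_residue]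
      exact hc
    rw [show a - (c : Qb) = (((⟨a, haA⟩ - (c : A) : A)) : Qb) by simp,
      GalCommon.coe_mem_nonunits_iff_residue, map_sub, map_intCast]
    have h4 := sub_pow_char (R := IsLocalRing.ResidueField A) (p := l)
      (IsLocalRing.residue A ⟨a, haA⟩) (c : IsLocalRing.ResidueField A)
    rw [h1, sub_self] at h4
    exact (pow_eq_zero_iff hl.ne_zero).1 h4
  have hyeq : σ (a - c) - (a - c) = y := by rw [map_sub, map_intCast]; ring
  have hPac : P (a - c) := fun τ hτ => by rw [map_sub, map_intCast, hPa τ hτ]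
  have hac0 : a - c ≠ 0 := by
    intro h0
    rw [h0, map_zero, sub_zero] at hyeq
    exact hy0 hyeq.symm
  obtain ⟨k, hk⟩ := hvl _ hPac hac0
  have hac1 : A.valuation (a - c) ≤ A.valuation y := by
    have hk1 : 1 ≤ k := by
      by_contra hcon
      have h1 : A.valuation (a - c) ^ l < 1 :=
        pow_lt_one₀ zero_le ((A.mem_nonunits_iff).1 hac) hl.ne_zero
      rw [hk] at h1
      exact absurd h1 (not_lt.2 (one_le_zpow_of_nonpos₀ hvpos hvlt.le (by omega)))
    refine (pow_le_pow_iff_left₀ zero_le zero_le hl.ne_zero).1 ?_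
    rw [hk, hm]
    conv_rhs => rw [← zpow_one (A.valuation (l : Qb))]
    exact zpow_le_zpow_right_of_le_one₀ hvpos hvlt.le hk1
  -- conclusion
  set r := (a - c) / y with hr
  have hrA : r ∈ A := (A.valuation_le_one_iff _).1 (by
    rw [hr, map_div₀, div_le_one₀ (pos_of_ne_zero ((Valuation.ne_zero_iff _).2 hy0))]
    exact hac1)
  have hdecr : a - c = y * r := by rw [hr, mul_div_cancel₀ _ hy0]
  have hσr : A.valuation (σ r - r) < 1 := by
    simpa using (A.mem_nonunits_iff).1 (hinert 1 r hrA)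
  have hσrA : A.valuation (σ r) ≤ 1 := by
    have := add_mem (ValuationSubring.nonunits_subset (hinert 1 r hrA)) hrA
    simpa using (A.valuation_le_one_iff _).2 this
  have e : y = (σ y - y) * σ r + y * (σ r - r) := by
    conv_lhs => rw [← hyeq, hdecr, map_mul]
    ring
  have hlt : A.valuation y < A.valuation y := by
    conv_lhs => rw [e]
    refine Valuation.map_add_lt _ ?_ ?_
    · rw [map_mul]
      exact lt_of_le_of_lt (mul_le_of_le_one_right zero_le hσrA) hu
    · rw [map_mul]
      exact mul_lt_of_lt_one_right (pos_of_ne_zero ((Valuation.ne_zero_iff _).2 hy0)) hσr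
  exact lt_irrefl _ hlt

end FLTAgent.Mazur.Eis

end
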