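import Fermat.Agent.Mazur.Eis.Cong
import Fermat.Agent.Mazur.Eis.KillTrivial

/-!
# Kummer generators of extensions by `μ_l` which are unramified outside `l`
-/

set_option autoImplicit false

noncomputable section

open scoped Pointwise

namespace FLTAgent.Mazur.Eis

local notation "Qb" => AlgebraicClosure ℚ
local notation "Γℚ" => (AlgebraicClosure ℚ ≃ₐ[ℚ] AlgebraicClosure ℚ)

theorem valuation_natCast_eq_zpow {q : ℕ} (hq : q.Prime) {A : ValuationSubring Qb}
    (hA : A.LiesOverPrime q) {n : ℕ} (hn : n ≠ 0) :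
    A.valuation (n : Qb) = A.valuation (q : Qb) ^ (n.factorization q : ℤ) := by
  rw [zpow_natCast]
  conv_lhs => rw [← Nat.ordProj_mul_ordCompl_eq_self n q]
  rw [Nat.cast_mul, Nat.cast_pow, map_mul, map_pow,
    valuation_natCast_eq_one hq hA (Nat.not_dvd_ordCompl hq hn), mul_one]

/-- A natural number all of whose exponents away from `l` are multiples of `l`. -/
theorem exists_eq_pow_mul_pow (l : ℕ) (hl : l.Prime) : ∀ n : ℕ, n ≠ 0 →
    (∀ q : ℕ, q.Prime → q ≠ l → l ∣ n.factorization q) → ∃ m j : ℕ, n = m ^ l * l ^ j := by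
  intro n
  induction n using Nat.strong_induction_on with
  | _ n ih =>
    intro hn0 hn
    by_cases hn1 : n = 1
    · exact ⟨1, 0, by simp [hn1]⟩
    obtain ⟨q, hq, hqn⟩ := Nat.exists_prime_and_dvd hn1
    by_cases hql : q = l
    · subst hql
      obtain ⟨n', rfl⟩ := hqn
      have hn' : n' ≠ 0 := fun h => hn0 (by simp [h])
      have hlt : n' < q * n' := lt_mul_of_one_lt_left (Nat.pos_of_ne_zero hn') hq.one_lt
      obtain ⟨m, j, hmj⟩ := ih n' hlt hn' fun r hr hrq => by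
        have := hn r hr hrq
        rwa [Nat.factorization_mul hq.ne_zero hn', Finsupp.add_apply,
          hq.factorization, Finsupp.single_eq_of_ne hrq, zero_add] at this
      exact ⟨m, j + 1, by rw [hmj]; ring⟩
    · have hd := hn q hq hql
      have hpos : 0 < n.factorization q := hq.factorization_pos_of_dvd hn0 hqn
      have hle : l ≤ n.factorization q := Nat.le_of_dvd hpos hd
      obtain ⟨n', hn'⟩ : q ^ l ∣ n :=
        (Nat.pow_dvd_pow q hle).trans (Nat.ordProj_dvd n q)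
      have hn'0 : n' ≠ 0 := fun h => hn0 (by simp [hn', h])
      have hlt : n' < n := by
        rw [hn']
        exact lt_mul_of_one_lt_left (Nat.pos_of_ne_zero hn'0)
          (Nat.one_lt_pow hl.ne_zero hq.one_lt)
      obtain ⟨m, j, hmj⟩ := ih n' hlt hn'0 fun r hr hrl => by
        have h1 := hn r hr hrl
        rw [hn', Nat.factorization_mul (pow_ne_zero _ hq.ne_zero) hn'0, Finsupp.add_apply,
          hq.factorization_pow] at h1
        by_cases hrq : r = q
        · subst hrq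
          rw [Finsupp.single_eq_same] at h1
          exact (Nat.dvd_add_right dvd_rfl).1 h1
        · rwa [Finsupp.single_eq_of_ne hrq, zero_add] at h1
      exact ⟨q * m, j, by rw [hn', hmj]; ring⟩

variable {l : ℕ}

/-- Hilbert 90 for a locally constant cocycle with values in `ℚ̄ˣ`. -/
theorem exists_mul_eq_map (e : Γℚ → Qb) (he0 : ∀ σ, e σ ≠ 0)
    (hmul : ∀ σ τ, e (σ * τ) = σ (e τ) * e σ) (L : IntermediateField ℚ Qb) [FiniteDimensional ℚ L]
    [IsGalois ℚ L] (hL : ∀ τ ∈ L.fixingSubgroup, e τ = 1) (heL : ∀ σ, e σ ∈ L) :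
    ∃ β : Qb, β ≠ 0 ∧ ∀ σ, σ β = e σ * β := by
  have hsame : ∀ σ σ' : Γℚ,
      AlgEquiv.restrictNormalHom L σ = AlgEquiv.restrictNormalHom L σ' → e σ = e σ' := by
    intro σ σ' h
    have hmem : σ⁻¹ * σ' ∈ L.fixingSubgroup := by
      rw [IntermediateField.mem_fixingSubgroup_iff]
      intro x hx
      have h1 : AlgEquiv.restrictNormalHom L (σ⁻¹ * σ') = 1 := by
        rw [map_mul, map_inv, h, inv_mul_cancel]
      have h2 := AlgEquiv.restrictNormal_commutes (σ⁻¹ * σ') L ⟨x, hx⟩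
      change algebraMap L Qb (AlgEquiv.restrictNormalHom L (σ⁻¹ * σ') ⟨x, hx⟩) = (σ⁻¹ * σ') x at h2
      rw [h1] at h2
      exact h2.symm
    have h3 := hmul σ (σ⁻¹ * σ')
    rw [mul_inv_cancel_left, hL _ hmem, map_one, one_mul] at h3
    exact h3.symm
  choose s hs using AlgEquiv.restrictNormalHom_surjective (F := ℚ) (K₁ := L) (E := Qb)
  let f : (L ≃ₐ[ℚ] L) → Lˣ := fun g =>
    Units.mk0 ⟨e (s g), heL _⟩ fun h => he0 (s g) (congrArg Subtype.val h)
  have hf : groupCohomology.IsMulCocycle₁ f := by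
    intro g g'
    refine Units.ext (Subtype.ext ?_)
    show e (s (g * g')) = ((g ⟨e (s g'), heL _⟩ : L) : Qb) * e (s g)
    rw [hsame (s (g * g')) (s g * s g') (by rw [map_mul, hs, hs, hs]), hmul]
    congr 1
    have h2 := AlgEquiv.restrictNormal_commutes (s g) L ⟨e (s g'), heL _⟩
    change algebraMap L Qb (AlgEquiv.restrictNormalHom L (s g) ⟨e (s g'), heL _⟩) = _ at h2
    rw [hs] at h2
    exact h2.symm
  obtain ⟨x, hx⟩ := groupCohomology.isMulCoboundary₁_of_isMulCocycle₁_of_aut_to_units f hf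
  refine ⟨((x : L) : Qb), fun h => x.ne_zero (Subtype.ext h), fun σ => ?_⟩
  have h1 := hx (AlgEquiv.restrictNormalHom L σ)
  rw [div_eq_iff_eq_mul] at h1
  have h2 := congrArg (fun u : Lˣ => ((u : L) : Qb)) h1
  have h3 := AlgEquiv.restrictNormal_commutes σ L (x : L)
  change algebraMap L Qb (AlgEquiv.restrictNormalHom L σ (x : L)) = σ ((x : L) : Qb) at h3
  rw [← h3]
  refine h2.trans ?_
  show e (s (AlgEquiv.restrictNormalHom L σ)) * _ = _
  rw [hsame (s _) σ (hs _)]

/-- A Kummer generator for a cocycle with values in the `l`-th roots of unity which is trivial on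
inertia away from `l` and at a complex conjugation: an `l`-th root of `l`, or the cocycle is
trivial. -/
theorem exists_root_of_cocycle (hl : l.Prime) (e : Γℚ → Qb) (hel : ∀ σ, e σ ^ l = 1)
    (hmul : ∀ σ τ, e (σ * τ) = σ (e τ) * e σ) (L : IntermediateField ℚ Qb) [FiniteDimensional ℚ L]
    [IsGalois ℚ L] (hL : ∀ τ ∈ L.fixingSubgroup, e τ = 1) (heL : ∀ σ, e σ ∈ L)
    (hI : ∀ q : ℕ, q.Prime → q ≠ l → ∀ A : ValuationSubring Qb, A.LiesOverPrime q →
      ∀ σ ∈ A.inertiaSubgroupIn ℚ, e σ = 1)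
    (ι : Qb →+* ℂ) (cc : Γℚ) (hcc : ∀ x, ι (cc x) = starRingEnd ℂ (ι x)) (hec : e cc = 1) :
    (∀ σ, e σ = 1) ∨
      ∃ π : Qb, π ^ l = (l : Qb) ∧ ∀ τ, τ π = π ↔ e τ = 1 := by
  have he0 : ∀ σ, e σ ≠ 0 := fun σ h => by
    have := hel σ
    rw [h, zero_pow hl.ne_zero] at this
    exact zero_ne_one this
  obtain ⟨β, hβ0, hβ⟩ := exists_mul_eq_map e he0 hmul L hL heL
  obtain ⟨b, hb⟩ := GalCommon.exists_rat_of_fixed (x := β ^ l) fun σ => by
    rw [map_pow, hβ, mul_pow, hel, one_mul]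
  have hb0 : b ≠ 0 := by
    rintro rfl
    rw [map_zero] at hb
    exact pow_ne_zero _ hβ0 hb.symm
  set a := b.num.natAbs with ha
  set d := b.den with hd
  have ha0 : a ≠ 0 := Int.natAbs_ne_zero.2 (Rat.num_ne_zero.2 hb0)
  have hn0 : a * d ^ (l - 1) ≠ 0 := mul_ne_zero ha0 (pow_ne_zero _ b.den_ne_zero)
  have habs : algebraMap ℚ Qb b * (d : Qb) = (a : Qb) ∨
      algebraMap ℚ Qb b * (d : Qb) = -(a : Qb) := by
    have h1 : algebraMap ℚ Qb b * (d : Qb) = (b.num : Qb) := by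
      rw [hd, ← map_natCast (algebraMap ℚ Qb), ← map_mul, Rat.mul_den_eq_num, map_intCast]
    rcases Int.natAbs_eq b.num with h | h
    · left; rw [h1, h]; simp [ha]
    · right; rw [h1, h]; simp [ha]
  -- exponents away from `l`
  have hdiv : ∀ q : ℕ, q.Prime → q ≠ l → l ∣ (a * d ^ (l - 1)).factorization q := by
    intro q hq hql
    obtain ⟨A, hA⟩ := GalCommon.exists_liesOverPrime hq
    obtain ⟨k, hk⟩ := EllP.exists_valuation_eq_zpow hq hA hβ0 fun σ hσ => by
      rw [hβ, hI q hq hql A hA σ hσ, one_mul]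
    have hvb : A.valuation (algebraMap ℚ Qb b) * A.valuation (d : Qb) = A.valuation (a : Qb) := by
      rw [← map_mul]
      rcases habs with h | h <;> rw [h]
      exact Valuation.map_neg _ _
    rw [hb, map_pow, hk, valuation_natCast_eq_zpow hq hA ha0,
      valuation_natCast_eq_zpow hq hA b.den_ne_zero, ← zpow_natCast, ← zpow_mul,
      ← zpow_add₀ (valuation_prime_ne_zero hq)] at hvb
    have hq1 := valuation_prime_lt_one hA
    have hqpos : 0 < A.valuation (q : Qb) := pos_of_ne_zero (valuation_prime_ne_zero hq)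
    have heq := (zpow_right_inj₀ hqpos hq1.ne).1 hvb
    rw [Nat.factorization_mul ha0 (pow_ne_zero _ b.den_ne_zero), Nat.factorization_pow,
      Finsupp.add_apply, Finsupp.smul_apply, smul_eq_mul, ← Int.natCast_dvd_natCast]
    refine ⟨k + d.factorization q, ?_⟩
    push_cast [Nat.cast_sub hl.one_le]
    rw [← heq]
    ring
  obtain ⟨m, j, hmj⟩ := exists_eq_pow_mul_pow l hl _ hn0 hdiv
  have hm0 : m ≠ 0 := by
    rintro rfl
    rw [zero_pow hl.ne_zero, zero_mul] at hmj
    exact hn0 hmj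
  set j₀ := j % l with hj₀
  set c : ℚ := (d : ℚ) / ((m : ℚ) * (l : ℚ) ^ (j / l)) with hc
  set β₁ := β * algebraMap ℚ Qb c with hβ₁
  have hc0 : c ≠ 0 := by
    refine div_ne_zero (Nat.cast_ne_zero.2 b.den_ne_zero) (mul_ne_zero (Nat.cast_ne_zero.2 hm0) ?_)
    exact pow_ne_zero _ (Nat.cast_ne_zero.2 hl.ne_zero)
  have hpow : β₁ ^ l = (l : Qb) ^ j₀ ∨ β₁ ^ l = -((l : Qb) ^ j₀) := by
    have hden : ((m : Qb) * (l : Qb) ^ (j / l)) ^ l ≠ 0 := by
      simp [hm0, hl.ne_zero]
    have key : β₁ ^ l * ((m : Qb) * (l : Qb) ^ (j / l)) ^ l =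
        (algebraMap ℚ Qb b * (d : Qb)) * (d : Qb) ^ (l - 1) := by
      rw [hβ₁, hc, map_div₀, map_mul, map_pow, map_natCast, map_natCast, map_natCast, mul_pow,
        mul_assoc, ← mul_pow, div_mul_cancel₀ _ (by simp [hm0, hl.ne_zero]), ← hb, mul_assoc,
        ← pow_succ', Nat.sub_add_cancel hl.one_le]
    have hn : (a : Qb) * (d : Qb) ^ (l - 1) =
        (l : Qb) ^ j₀ * ((m : Qb) * (l : Qb) ^ (j / l)) ^ l := by
      rw [← Nat.cast_pow, ← Nat.cast_mul, hmj]
      conv_lhs => rw [← Nat.div_add_mod j l]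
      push_cast
      rw [hj₀]
      ring
    rcases habs with h | h <;> rw [h] at key
    · left
      rw [hn] at key
      exact mul_right_cancel₀ hden key
    · right
      rw [neg_mul, hn, ← neg_mul] at key
      exact mul_right_cancel₀ hden key
  have hβ₁' : ∀ σ, σ β₁ = e σ * β₁ := fun σ => by
    rw [hβ₁, map_mul, hβ, σ.commutes]; ring
  have hreal : ∀ x : Qb, (∀ σ, σ x = e σ * x) → ∃ r : ℝ, ι x = (r : ℂ) := by
    intro x hx
    refine Complex.conj_eq_iff_real.1 ?_
    rw [← hcc, hx, hec, one_mul]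
  obtain ⟨β₂, hβ₂', hβ₂⟩ : ∃ β₂ : Qb, (∀ σ, σ β₂ = e σ * β₂) ∧ β₂ ^ l = (l : Qb) ^ j₀ := by
    rcases hpow with h | h
    · exact ⟨β₁, hβ₁', h⟩
    rcases hl.eq_two_or_odd' with h2 | hodd
    · exfalso
      obtain ⟨r, hr⟩ := hreal β₁ hβ₁'
      have h3 := congrArg ι h
      rw [map_pow, hr, map_neg, map_pow, map_natCast] at h3
      have h4 : r ^ l = -((l : ℝ) ^ j₀) := by exact_mod_cast h3
      have h5 : (0 : ℝ) < (l : ℝ) ^ j₀ := pow_pos (Nat.cast_pos.2 hl.pos) _
      rw [h2] at h4 h5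
      nlinarith [sq_nonneg r]
    · refine ⟨-β₁, fun σ => by rw [map_neg, hβ₁', mul_neg], ?_⟩
      rw [hodd.neg_pow, h, neg_neg]
  by_cases hj0 : j₀ = 0
  · left
    obtain ⟨r, hr⟩ := hreal β₂ hβ₂'
    rw [hj0, pow_zero] at hβ₂
    have hr1 : r ^ l = 1 := by
      have h3 := congrArg ι hβ₂
      rw [map_pow, hr, map_one] at h3
      exact_mod_cast h3
    have hpm : r = 1 ∨ r = -1 := by
      have : |r| = 1 := by
        refine (pow_eq_one_iff_of_nonneg (abs_nonneg r) hl.ne_zero).1 ?_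
        rw [← abs_pow, hr1, abs_one]
      exact abs_eq zero_le_one |>.1 this
    have hβeq : β₂ = 1 ∨ β₂ = -1 := by
      rcases hpm with h | h
      · left; apply ι.injective; rw [hr, h, map_one, Complex.ofReal_one]
      · right; apply ι.injective; rw [hr, h, map_neg, map_one, Complex.ofReal_neg, Complex.ofReal_one]
    intro σ
    have h1 := hβ₂' σ
    rcases hβeq with h | h <;> rw [h] at h1 <;> simpa [eq_comm] using h1
  · right
    have hcop : j₀.Coprime l :=
      Nat.coprime_comm.1 (hl.coprime_iff_not_dvd.2 fun hd =>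
        hj0 (Nat.eq_zero_of_dvd_of_lt hd (Nat.mod_lt _ hl.pos)))
    obtain ⟨s, -, hs⟩ := Nat.exists_mul_mod_eq_one_of_coprime hcop hl.one_lt
    have hlt : (l : Qb) ^ (j₀ * s / l) ≠ 0 := by simp [hl.ne_zero]
    refine ⟨β₂ ^ s / (l : Qb) ^ (j₀ * s / l), ?_, fun τ => ?_⟩
    · rw [div_pow, div_eq_iff (pow_ne_zero _ hlt), ← pow_mul, mul_comm s l, pow_mul, hβ₂,
        ← pow_mul, ← pow_mul, ← pow_succ']
      congr 1
      conv_lhs => rw [← Nat.mod_add_div (j₀ * s) l, hs]
      ring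
    · have hβ₂0 : β₂ ≠ 0 := by
        rintro rfl
        rw [zero_pow hl.ne_zero, eq_comm] at hβ₂
        exact absurd hβ₂ (pow_ne_zero _ (Nat.cast_ne_zero.2 hl.ne_zero))
      rw [map_div₀, map_pow, map_pow, map_natCast, hβ₂', mul_pow, mul_div_assoc,
        mul_eq_right₀ (div_ne_zero (pow_ne_zero _ hβ₂0) hlt)]
      refine ⟨fun h => ?_, fun h => by rw [h, one_pow]⟩
      calc e τ = e τ ^ (j₀ * s % l) := by rw [hs, pow_one]
        _ = e τ ^ (j₀ * s) := (pow_eq_pow_mod _ (hel τ)).symm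
        _ = 1 := by rw [mul_comm, pow_mul, h, one_pow]

end FLTAgent.Mazur.Eis

end
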